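/-
PROJECT E (S16), slice (LB-P4) part 1 (helper8): THE LOWER BOUND `EisensteinCongruence p n`,
`n = eisensteinNumerator p = (p - 1) / gcd (p - 1, 12)`, FROM ONE INTEGRAL THETA SERIES.

Input: the Eisenstein series `E ∈ M₂(Γ₀(p))` with `a₀ = (p - 1)/24`, `a_k = σ'(k)`; a form
`θ ∈ M₂(Γ₀(p))` with `a₀ = 1` and `a_k ∈ 2ℤ` (`k ≥ 1`); and the cusp criterion (a form of weight 2
and level `p` with `a₀ = 0` is a cusp form).  With `d = gcd (p - 1, 12)`, `g' = 12 / d`,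
`n = (p - 1) / d` (so `gcd (g', n) = 1`) and `u g' ≡ 1 mod n`:

  `f₀ := u g' • (E - ((p - 1)/24) • θ)`,   `a₀(f₀) = 0`,   `a_k(f₀) = u g' σ'(k) - u n (a_k(θ)/2)`,

a cusp form with integral coefficients congruent to `σ'(k)` modulo `n`.
-/
import Mathlib
import Fermat.Agent.S16.RedDefs
import Fermat.Agent.S49.QCoeff
import Fermat.Prelude.Def_ModularCurve_ModularUnit

set_option autoImplicit false

open CongruenceSubgroup ModularFormClass UpperHalfPlane ModularCurve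

namespace Fermat.Agent.S16.LB.LBArith

open Fermat.Agent.S16.Reduction Fermat.Agent.S49.QCoeff

/-! ### Linearity of `qCoeff` on modular forms -/

section Lin

variable {N : ℕ} {k : ℤ}

theorem qCoeff_sub_mf (f g : ModularForm (Gamma0 N) k) (n : ℕ) :
    qCoeff (⇑(f - g)) n = qCoeff (⇑f) n - qCoeff (⇑g) n := by
  unfold qCoeff
  rw [FunLike.coe_sub, ModularForm.qExpansion_sub one_pos one_mem_strictPeriods f g, map_sub]

theorem qCoeff_smul_mf (c : ℂ) (f : ModularForm (Gamma0 N) k) (n : ℕ) :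
    qCoeff (⇑(c • f)) n = c * qCoeff (⇑f) n := by
  unfold qCoeff
  rw [FunLike.coe_smul, ModularForm.qExpansion_smul one_pos one_mem_strictPeriods c f]
  simp

end Lin

/-! ### The arithmetic of `n = (p - 1) / gcd (p - 1, 12)` -/

section Arith

/-- `12 / gcd (p - 1, 12)`. -/
def cofactor (p : ℕ) : ℕ := 12 / Nat.gcd (p - 1) 12

theorem eisensteinNumerator_mul_gcd (p : ℕ) :
    eisensteinNumerator p * Nat.gcd (p - 1) 12 = p - 1 :=
  Nat.div_mul_cancel (Nat.gcd_dvd_left _ _)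

theorem cofactor_mul_gcd (p : ℕ) : cofactor p * Nat.gcd (p - 1) 12 = 12 :=
  Nat.div_mul_cancel (Nat.gcd_dvd_right _ _)

theorem coprime_cofactor (p : ℕ) : Nat.Coprime (cofactor p) (eisensteinNumerator p) := by
  have h : 0 < Nat.gcd (p - 1) 12 := Nat.gcd_pos_of_pos_right _ (by norm_num)
  exact (Nat.coprime_div_gcd_div_gcd h).symm

/-- `g' (p - 1) = 12 n`. -/
theorem cofactor_mul_pred (p : ℕ) : cofactor p * (p - 1) = 12 * eisensteinNumerator p := by
  calc cofactor p * (p - 1)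
      = cofactor p * (eisensteinNumerator p * Nat.gcd (p - 1) 12) := by
        rw [eisensteinNumerator_mul_gcd]
    _ = cofactor p * Nat.gcd (p - 1) 12 * eisensteinNumerator p := by ring
    _ = 12 * eisensteinNumerator p := by rw [cofactor_mul_gcd]

end Arith

/-! ### The lower bound from the forms -/

/-- The trivial case `n = 1` (in particular `p = 2, 3, 5, 7, 13`). -/
theorem eisensteinCongruence_one (p : ℕ) : EisensteinCongruence p 1 :=
  ⟨0, fun n => ⟨0, by rw [qCoeff_zero_form]; simp, by simp⟩⟩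

/-- **(LB) from one integral theta series.** -/
theorem hLB_of_forms (p : ℕ) (hp : 1 ≤ p) (E θ : ModularForm (Gamma0 p) 2)
    (hE0 : qCoeff (⇑E) 0 = ((p : ℂ) - 1) / 24)
    (hE : ∀ n, 0 < n → qCoeff (⇑E) n = (sigmaP p n : ℂ))
    (hθ0 : qCoeff (⇑θ) 0 = 1)
    (hθ : ∀ n, 0 < n → ∃ c : ℤ, qCoeff (⇑θ) n = 2 * (c : ℂ))
    (hcusp : ∀ f : ModularForm (Gamma0 p) 2, (qExpansion 1 f).coeff 0 = 0 →
      ∃ g : CuspForm (Gamma0 p) 2, (⇑g : ℍ → ℂ) = ⇑f) :
    EisensteinCongruence p (eisensteinNumerator p) := by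
  set n := eisensteinNumerator p with hn
  set g' := cofactor p with hg'
  -- Bezout: `u g' + v n = 1`
  set u : ℤ := Nat.gcdA g' n with hu
  set v : ℤ := Nat.gcdB g' n with hv
  have hbez : (g' : ℤ) * u + (n : ℤ) * v = 1 := by
    have h := Nat.gcd_eq_gcd_ab g' n
    rw [(coprime_cofactor p : Nat.gcd g' n = 1)] at h
    exact_mod_cast h.symm
  have hgp : (g' : ℂ) * ((p : ℂ) - 1) = 12 * (n : ℂ) := by
    have h := cofactor_mul_pred p
    have h1 : ((p - 1 : ℕ) : ℂ) = (p : ℂ) - 1 := by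
      rw [Nat.cast_sub hp, Nat.cast_one]
    rw [← h1]
    exact_mod_cast h
  -- the form
  set f : ModularForm (Gamma0 p) 2 :=
    (((u : ℂ) * (g' : ℂ)) : ℂ) • (E - ((((p : ℂ) - 1) / 24 : ℂ)) • θ) with hf
  have hcoeff : ∀ m, qCoeff (⇑f) m =
      (u : ℂ) * (g' : ℂ) * (qCoeff (⇑E) m - ((p : ℂ) - 1) / 24 * qCoeff (⇑θ) m) := by
    intro m
    rw [hf, qCoeff_smul_mf, qCoeff_sub_mf, qCoeff_smul_mf]
  have h0 : (qExpansion 1 f).coeff 0 = 0 := by
    have h := hcoeff 0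
    rw [hE0, hθ0, mul_one, sub_self, mul_zero] at h
    exact h
  obtain ⟨g, hg⟩ := hcusp f h0
  refine ⟨g, fun m => ?_⟩
  rcases Nat.eq_zero_or_pos m with rfl | hm
  · refine ⟨0, ?_, ?_⟩
    · rw [hg]
      exact_mod_cast h0
    · simp [sigmaP]
  · obtain ⟨c, hc⟩ := hθ m hm
    refine ⟨u * g' * sigmaP p m - u * n * c, ?_, ?_⟩
    · rw [hg, hcoeff m, hE m hm, hc]
      push_cast
      linear_combination (-(u : ℂ) * (c : ℂ) / 12) * hgp
    · refine ⟨-(v * sigmaP p m) - u * c, ?_⟩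
      linear_combination ((sigmaP p m : ℕ) : ℤ) * hbez

/-- `n = 1` for `p = 2`. -/
theorem eisensteinNumerator_two : eisensteinNumerator 2 = 1 := by decide

/-- **(LB), existential form**: the Eisenstein series, one integral theta series for odd `p`, and
the cusp criterion. -/
theorem hLB_of_exists (p : ℕ) [hp : Fact p.Prime]
    (hE : ∃ E : ModularForm (Gamma0 p) 2, qCoeff (⇑E) 0 = ((p : ℂ) - 1) / 24 ∧
      ∀ n, 0 < n → qCoeff (⇑E) n = (sigmaP p n : ℂ))
    (hθ : p ≠ 2 → ∃ θ : ModularForm (Gamma0 p) 2, qCoeff (⇑θ) 0 = 1 ∧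
      ∀ n, 0 < n → ∃ c : ℤ, qCoeff (⇑θ) n = 2 * (c : ℂ))
    (hcusp : ∀ f : ModularForm (Gamma0 p) 2, (qExpansion 1 f).coeff 0 = 0 →
      ∃ g : CuspForm (Gamma0 p) 2, (⇑g : ℍ → ℂ) = ⇑f) :
    EisensteinCongruence p (eisensteinNumerator p) := by
  by_cases h2 : p = 2
  · subst h2
    rw [eisensteinNumerator_two]
    exact eisensteinCongruence_one 2
  · obtain ⟨E, hE0, hE1⟩ := hE
    obtain ⟨θ, hθ0, hθ1⟩ := hθ h2
    exact hLB_of_forms p hp.out.one_lt.le E θ hE0 hE1 hθ0 hθ1 hcusp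

end Fermat.Agent.S16.LB.LBArith
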