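/-
PROJECT E (S16), slice (LB-P4) part 2 (helper8): THE LOWER BOUND FROM THE THETA SERIES ALONE.

`hLB_of_theta` : `EisensteinCongruence p (eisensteinNumerator p)` as soon as, for odd `p`, there is
`θ ∈ M₂(Γ₀(p))` with `a₀(θ) = 1` and `a_k(θ) ∈ 2ℤ` for `k ≥ 1`.  The Eisenstein series is
helper3's `Eis2.eisP p`, the cusp criterion helper10's `CuspCriterion.exists_cuspForm`, the
arithmetic `LBArith.hLB_of_exists`.
-/
import Fermat.Agent.S16.LB.LBArith
import Fermat.Agent.S16.Eis2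
import Fermat.Agent.S16.CuspCriterion

set_option autoImplicit false

open CongruenceSubgroup ModularFormClass UpperHalfPlane ModularCurve

namespace Fermat.Agent.S16.LB.LBTheta

open Fermat.Agent.S16.Reduction Fermat.Agent.S16.LB.LBArith

/-- **(LB) from the theta series.** -/
theorem hLB_of_theta (p : ℕ) [hp : Fact p.Prime]
    (hθ : p ≠ 2 → ∃ θ : ModularForm (Gamma0 p) 2, qCoeff (⇑θ) 0 = 1 ∧
      ∀ n, 0 < n → ∃ c : ℤ, qCoeff (⇑θ) n = 2 * (c : ℂ)) :
    EisensteinCongruence p (eisensteinNumerator p) := by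
  have : NeZero p := ⟨hp.out.ne_zero⟩
  refine hLB_of_exists p ⟨Fermat.Agent.S16.Eis2.eisP p,
    Fermat.Agent.S16.Eis2.qCoeff_eisP_zero p, fun n hn => ?_⟩ hθ
    (fun f h0 => Fermat.Agent.S16.CuspCriterion.exists_cuspForm f h0)
  rw [Fermat.Agent.S16.Eis2.qCoeff_eisP p hn]
  rfl

end Fermat.Agent.S16.LB.LBTheta
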