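/-
E-LB-DISC (helper16): the discriminant form of the quaternary lattice of `S16/QuatLattice.lean`
and the regrouping algebra for the theta inversion.

Parameters: integers `p m r s` with `(4 m - 1) s = r ^ 2 + p`, `q := 4 m - 1` a unit mod `p`.
Then `ker (A mod p)` has the basis `u₁ = (0,0,1,0)`, `u₂ = (r,-2r,0,q)`; the discriminant group is
`D = ZMod p × ZMod p` with quadratic form `t (a,c) = m a² + q a c + q c²` and polar form `b`.
Only Mathlib and `QuatLattice` are used.
-/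
import Fermat.Agent.S16.QuatLattice

set_option autoImplicit false

namespace Fermat.Agent.S16.LB.DiscForm

open scoped Matrix
open Fermat.Agent.S16.QuatLattice

/-! ### Integer side -/

/-- The integer binary form `T(a,c) = m a² + q a c + q c²`, `q = 4 m - 1`. -/
def T (m a c : ℤ) : ℤ := m * a ^ 2 + (4 * m - 1) * a * c + (4 * m - 1) * c ^ 2

/-- Its polar form. -/
def P (m a c a' c' : ℤ) : ℤ :=
  2 * m * a * a' + (4 * m - 1) * (a * c' + c * a') + 2 * (4 * m - 1) * c * c'

/-- The vector `a u₁ + c u₂` of `ker (A mod p)`. -/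
def lift (m r a c : ℤ) : Fin 4 → ℤ := ![c * r, -(2 * c * r), a, c * (4 * m - 1)]

/-- `A (a u₁ + c u₂) / p`. -/
def wvec (m a c : ℤ) : Fin 4 → ℤ := ![0, 0, 2 * m * a + (4 * m - 1) * c, a + 2 * c]

theorem T_add (m a c a' c' : ℤ) : T m (a + a') (c + c') = T m a c + T m a' c' + P m a c a' c' := by
  simp only [T, P]; ring

theorem lift_add (m r a c a' c' : ℤ) :
    lift m r (a + a') (c + c') = lift m r a c + lift m r a' c' := by
  ext i; fin_cases i <;> simp [lift] <;> ring

theorem lift_neg (m r a c : ℤ) : lift m r (-a) (-c) = -lift m r a c := by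
  ext i; fin_cases i <;> simp [lift]

theorem lift_add_mul (m r a c k l : ℤ) (p : ℤ) :
    lift m r (a + p * k) (c + p * l) = lift m r a c + p • lift m r k l := by
  ext i; fin_cases i <;> simp [lift] <;> ring

theorem gram_mulVec_lift {p m r s : ℤ} (h : (4 * m - 1) * s = r ^ 2 + p) (a c : ℤ) :
    (gram p m r s).mulVec (lift m r a c) = p • wvec m a c := by
  have hp : p = (4 * m - 1) * s - r ^ 2 := by linarith
  ext i
  fin_cases i <;> simp [gram, lift, wvec, Matrix.mulVec, dotProduct, Fin.sum_univ_four, hp] <;> ring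

theorem gramDual_mulVec_wvec (m r s a c : ℤ) :
    (gramDual m r s).mulVec (wvec m a c) = lift m r a c := by
  ext i
  fin_cases i <;> simp [gramDual, lift, wvec, Matrix.mulVec, dotProduct, Fin.sum_univ_four] <;> ring

theorem Q_lift {p m r s : ℤ} (h : (4 * m - 1) * s = r ^ 2 + p) (a c : ℤ) :
    Q p m r s (lift m r a c) = p * T m a c := by
  have hp : p = (4 * m - 1) * s - r ^ 2 := by linarith
  simp [Q, lift, T, hp]; ring

/-- The polar form of `Q` is `xᵀ A y`. -/
theorem Q_add (p m r s : ℤ) (x y : Fin 4 → ℤ) :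
    Q p m r s (x + y) = Q p m r s x + Q p m r s y + x ⬝ᵥ (gram p m r s).mulVec y := by
  simp [Q, gram, Matrix.mulVec, dotProduct, Fin.sum_univ_four]; ring

theorem Q_smul (p m r s k : ℤ) (x : Fin 4 → ℤ) : Q p m r s (k • x) = k ^ 2 * Q p m r s x := by
  simp [Q]; ring

/-- **(D1)** `Q (p x + (a u₁ + c u₂)) = p T(a,c) + p² (Q x + x · w)`: the value of `Q` on the class
of `a u₁ + c u₂` in the dual lattice is `T(a,c)/p` mod `1`. -/
theorem Q_shift {p m r s : ℤ} (h : (4 * m - 1) * s = r ^ 2 + p) (x : Fin 4 → ℤ) (a c : ℤ) :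
    Q p m r s (p • x + lift m r a c) =
      p * T m a c + p ^ 2 * (Q p m r s x + x ⬝ᵥ wvec m a c) := by
  rw [Q_add, Q_smul, Q_lift h, gram_mulVec_lift h]
  simp only [smul_dotProduct, dotProduct_smul, smul_eq_mul]
  ring

/-- **(D2)** the polar form on two classes: `(p x + ũ)ᵀ A (p x' + ũ') = p P + p² (…)`. -/
theorem polar_shift {p m r s : ℤ} (h : (4 * m - 1) * s = r ^ 2 + p) (x x' : Fin 4 → ℤ)
    (a c a' c' : ℤ) :
    (p • x + lift m r a c) ⬝ᵥ (gram p m r s).mulVec (p • x' + lift m r a' c') =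
      p * P m a c a' c' +
        p ^ 2 * (x ⬝ᵥ (gram p m r s).mulVec x' + x ⬝ᵥ wvec m a' c' + x' ⬝ᵥ wvec m a c) := by
  have hp : p = (4 * m - 1) * s - r ^ 2 := by linarith
  simp [gram, lift, wvec, P, Matrix.mulVec, dotProduct, Fin.sum_univ_four]
  rw [hp]; ring

/-! ### The discriminant group `D = ZMod p × ZMod p` with its forms -/

/-- The discriminant group. -/
abbrev D (p : ℕ) : Type := ZMod p × ZMod p

/-- The discriminant quadratic form `t (a,c) = m a² + q a c + q c²`. -/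
def tform (p : ℕ) (m : ℤ) (g : D p) : ZMod p :=
  (m : ZMod p) * g.1 ^ 2 + ((4 * m - 1 : ℤ) : ZMod p) * g.1 * g.2
    + ((4 * m - 1 : ℤ) : ZMod p) * g.2 ^ 2

/-- Its polar form. -/
def bform (p : ℕ) (m : ℤ) (g h : D p) : ZMod p :=
  2 * (m : ZMod p) * g.1 * h.1 + ((4 * m - 1 : ℤ) : ZMod p) * (g.1 * h.2 + g.2 * h.1)
    + 2 * ((4 * m - 1 : ℤ) : ZMod p) * g.2 * h.2

theorem intCast_T (p : ℕ) (m a c : ℤ) :
    ((T m a c : ℤ) : ZMod p) = tform p m ((a : ZMod p), (c : ZMod p)) := by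
  simp only [T, tform]; push_cast; ring

theorem intCast_P (p : ℕ) (m a c a' c' : ℤ) :
    ((P m a c a' c' : ℤ) : ZMod p) =
      bform p m ((a : ZMod p), (c : ZMod p)) ((a' : ZMod p), (c' : ZMod p)) := by
  simp only [P, bform]; push_cast; ring

theorem bform_add_left (p : ℕ) (m : ℤ) (x y z : D p) :
    bform p m (x + y) z = bform p m x z + bform p m y z := by
  simp only [bform, Prod.fst_add, Prod.snd_add]; ring

theorem bform_symm (p : ℕ) (m : ℤ) (x y : D p) : bform p m x y = bform p m y x := by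
  simp only [bform]; ring

theorem tform_add (p : ℕ) (m : ℤ) (x y : D p) :
    tform p m (x + y) = tform p m x + tform p m y + bform p m x y := by
  simp only [tform, bform, Prod.fst_add, Prod.snd_add]; ring

theorem tform_neg (p : ℕ) (m : ℤ) (x : D p) : tform p m (-x) = tform p m x := by
  simp only [tform, Prod.fst_neg, Prod.snd_neg]; ring

theorem tform_zero (p : ℕ) (m : ℤ) : tform p m 0 = 0 := by
  simp [tform]

/-- Nondegeneracy of the polar form (only `q = 4 m - 1` a unit mod `p` is used). -/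
theorem bform_nondeg (p : ℕ) [Fact p.Prime] (m : ℤ) (hq : ((4 * m - 1 : ℤ) : ZMod p) ≠ 0)
    (x : D p) (hx : x ≠ 0) : ∃ y, bform p m x y ≠ 0 := by
  by_contra hcon
  simp only [not_exists, not_not] at hcon
  apply hx
  have h1 := hcon (1, 0)
  have h2 := hcon (0, 1)
  simp only [bform, mul_one, mul_zero, add_zero, zero_add] at h1 h2
  set q : ZMod p := ((4 * m - 1 : ℤ) : ZMod p) with hqdef
  have hqm : q = 4 * (m : ZMod p) - 1 := by rw [hqdef]; push_cast; ring
  -- h1 : 2 m x₁ + q x₂ = 0 ; h2 : q x₁ + 2 q x₂ = 0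
  have h3 : x.1 + 2 * x.2 = 0 := by
    have : q * (x.1 + 2 * x.2) = 0 := by linear_combination h2
    exact (mul_eq_zero.mp this).resolve_left hq
  have h4 : x.2 = 0 := by
    have : x.2 = -(2 * (m : ZMod p) * x.1 + q * x.2) + 2 * (m : ZMod p) * (x.1 + 2 * x.2) := by
      rw [hqm]; ring
    rw [this, h1, h3]; simp
  have h5 : x.1 = 0 := by rw [h4] at h3; simpa using h3
  exact Prod.ext h5 h4

theorem card_D (p : ℕ) [Fact p.Prime] : Fintype.card (D p) = p ^ 2 := by
  simp [D, Fintype.card_prod, ZMod.card, sq]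

/-! ### The regrouping bijection `ℤ⁴ ≃ D × ℤ⁴` -/

section Regroup

variable (p : ℕ) (m r s : ℤ)

/-- The standard integer lift of the class `g`. -/
def liftD (g : D p) : Fin 4 → ℤ := lift m r (g.1.val : ℤ) (g.2.val : ℤ)

/-- `A (liftD g) / p`. -/
def wD (g : D p) : Fin 4 → ℤ := wvec m (g.1.val : ℤ) (g.2.val : ℤ)

/-- The class in `D` of `A⁻¹ y` (for `y : ℤ⁴`). -/
def cls (y : Fin 4 → ℤ) : D p :=
  ((((gramDual m r s).mulVec y 2 : ℤ) : ZMod p),
    (((4 * m - 1 : ℤ) : ZMod p))⁻¹ * (((gramDual m r s).mulVec y 3 : ℤ) : ZMod p))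

/-- The integral part of `A⁻¹ y`. -/
def xpart (y : Fin 4 → ℤ) : Fin 4 → ℤ :=
  fun i => ((gramDual m r s).mulVec y i - liftD p m r (cls p m r s y) i) / (p : ℤ)

theorem gram_mulVec_liftD {p : ℕ} {m r s : ℤ} (h : (4 * m - 1) * s = r ^ 2 + p) (g : D p) :
    (gram p m r s).mulVec (liftD p m r g) = (p : ℤ) • wD p m g :=
  gram_mulVec_lift h _ _

theorem gramDual_mulVec_wD (g : D p) :
    (gramDual m r s).mulVec (wD p m g) = liftD p m r g :=
  gramDual_mulVec_wvec _ _ _ _ _

theorem gramDual_mulVec_gram_mulVec {p m r s : ℤ} (h : (4 * m - 1) * s = r ^ 2 + p)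
    (x : Fin 4 → ℤ) : (gramDual m r s).mulVec ((gram p m r s).mulVec x) = p • x := by
  rw [Matrix.mulVec_mulVec, gramDual_mul_gram h, Matrix.smul_mulVec, Matrix.one_mulVec]

theorem gram_mulVec_gramDual_mulVec {p m r s : ℤ} (h : (4 * m - 1) * s = r ^ 2 + p)
    (x : Fin 4 → ℤ) : (gram p m r s).mulVec ((gramDual m r s).mulVec x) = p • x := by
  rw [Matrix.mulVec_mulVec, gram_mul_gramDual h, Matrix.smul_mulVec, Matrix.one_mulVec]

theorem gramDual_mulVec_injective {p m r s : ℤ} (hp : p ≠ 0) (h : (4 * m - 1) * s = r ^ 2 + p) :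
    Function.Injective (gramDual m r s).mulVec := by
  intro x y hxy
  have := congrArg (gram p m r s).mulVec hxy
  rw [gram_mulVec_gramDual_mulVec h, gram_mulVec_gramDual_mulVec h] at this
  exact smul_right_injective _ hp this

end Regroup

section RegroupPrime

variable {p : ℕ} [Fact p.Prime] {m r s : ℤ}

theorem intCast_val_eq (a : ZMod p) : (((a.val : ℕ) : ℤ) : ZMod p) = a := by
  rw [Int.cast_natCast, ZMod.natCast_zmod_val]

omit [Fact p.Prime] in
/-- The two congruences which say that `B y mod p` lies in the span of `u₁, u₂`. -/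
theorem gramDual_identities (h : (4 * m - 1) * s = r ^ 2 + p) (y : Fin 4 → ℤ) :
    (4 * m - 1) * (gramDual m r s).mulVec y 0 - r * (gramDual m r s).mulVec y 3
        = p * (2 * m * y 0 - y 1) ∧
    (4 * m - 1) * (gramDual m r s).mulVec y 1 + 2 * r * (gramDual m r s).mulVec y 3
        = p * (-y 0 + 2 * y 1) := by
  have hp : (p : ℤ) = (4 * m - 1) * s - r ^ 2 := by linarith
  constructor <;>
  · simp [gramDual, Matrix.mulVec, dotProduct, Fin.sum_univ_four, hp]; ring

theorem intCast_liftD (g : D p) (i : Fin 4) :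
    ((liftD p m r g i : ℤ) : ZMod p) =
      ![g.2 * (r : ZMod p), -(2 * g.2 * (r : ZMod p)), g.1,
        g.2 * ((4 * m - 1 : ℤ) : ZMod p)] i := by
  fin_cases i <;> simp [liftD, lift]

theorem cast_gramDual_zero_one (h : (4 * m - 1) * s = r ^ 2 + p)
    (hq : ((4 * m - 1 : ℤ) : ZMod p) ≠ 0) (y : Fin 4 → ℤ) :
    (((gramDual m r s).mulVec y 0 : ℤ) : ZMod p) =
        (((4 * m - 1 : ℤ) : ZMod p))⁻¹ * (((gramDual m r s).mulVec y 3 : ℤ) : ZMod p) * r ∧
    (((gramDual m r s).mulVec y 1 : ℤ) : ZMod p) =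
        -(2 * ((((4 * m - 1 : ℤ) : ZMod p))⁻¹ * (((gramDual m r s).mulVec y 3 : ℤ) : ZMod p))
          * r) := by
  obtain ⟨h0, h1⟩ := gramDual_identities h y
  have h0' := congrArg (Int.cast : ℤ → ZMod p) h0
  have h1' := congrArg (Int.cast : ℤ → ZMod p) h1
  rw [Int.cast_sub, Int.cast_mul, Int.cast_mul, Int.cast_mul, Int.cast_natCast,
    CharP.cast_eq_zero, zero_mul] at h0'
  rw [Int.cast_add, Int.cast_mul, Int.cast_mul, Int.cast_mul, Int.cast_mul, Int.cast_natCast,
    CharP.cast_eq_zero, zero_mul] at h1'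
  generalize ((4 * m - 1 : ℤ) : ZMod p) = q at *
  generalize (((gramDual m r s).mulVec y 0 : ℤ) : ZMod p) = z0 at *
  generalize (((gramDual m r s).mulVec y 1 : ℤ) : ZMod p) = z1 at *
  generalize (((gramDual m r s).mulVec y 3 : ℤ) : ZMod p) = z3 at *
  constructor
  · have : q * z0 = r * z3 := by linear_combination h0'
    field_simp
    linear_combination this
  · have : q * z1 = -(2 * r * z3) := by push_cast at h1'; linear_combination h1'
    field_simp
    linear_combination this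

theorem dvd_gramDual_sub_liftD (h : (4 * m - 1) * s = r ^ 2 + p)
    (hq : ((4 * m - 1 : ℤ) : ZMod p) ≠ 0) (y : Fin 4 → ℤ) (i : Fin 4) :
    (p : ℤ) ∣ (gramDual m r s).mulVec y i - liftD p m r (cls p m r s y) i := by
  rw [← ZMod.intCast_zmod_eq_zero_iff_dvd, Int.cast_sub, intCast_liftD]
  obtain ⟨e0, e1⟩ := cast_gramDual_zero_one h hq y
  simp only [cls]
  fin_cases i
  · simp only [Fin.zero_eta, Matrix.cons_val_zero]
    rw [e0]; ring
  · simp only [Fin.mk_one, Matrix.cons_val_one, Matrix.cons_val_zero]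
    rw [e1]; ring
  · simp
  · simp only [Fin.reduceFinMk, Matrix.cons_val]
    rw [mul_comm _ (((gramDual m r s).mulVec y 3 : ℤ) : ZMod p), mul_assoc,
      inv_mul_cancel₀ hq, mul_one, sub_self]

/-- **(D3a)** `B y = p x' + ũ_g` with `g = cls y`, `x' = xpart y`: the decomposition of
`A⁻¹ y = B y / p` into an integral vector plus the standard representative of its class. -/
theorem gramDual_mulVec_eq (h : (4 * m - 1) * s = r ^ 2 + p)
    (hq : ((4 * m - 1 : ℤ) : ZMod p) ≠ 0) (y : Fin 4 → ℤ) :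
    (gramDual m r s).mulVec y = (p : ℤ) • xpart p m r s y + liftD p m r (cls p m r s y) := by
  ext i
  have hd := dvd_gramDual_sub_liftD h hq y i
  simp only [xpart, Pi.add_apply, Pi.smul_apply, smul_eq_mul]
  rw [Int.mul_ediv_cancel' hd]; ring

theorem cls_gram_mulVec_add (h : (4 * m - 1) * s = r ^ 2 + p)
    (hq : ((4 * m - 1 : ℤ) : ZMod p) ≠ 0) (g : D p) (x : Fin 4 → ℤ) :
    cls p m r s ((gram p m r s).mulVec x + wD p m g) = g := by
  have hB : (gramDual m r s).mulVec ((gram p m r s).mulVec x + wD p m g)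
      = (p : ℤ) • x + liftD p m r g := by
    rw [Matrix.mulVec_add, gramDual_mulVec_gram_mulVec h, gramDual_mulVec_wD]
  simp only [cls, hB, Pi.add_apply, Pi.smul_apply, smul_eq_mul, Int.cast_add, Int.cast_mul,
    Int.cast_natCast, CharP.cast_eq_zero, zero_mul, zero_add, intCast_liftD]
  ext
  · simp
  · simp only [Matrix.cons_val]
    rw [mul_comm g.2, ← mul_assoc, inv_mul_cancel₀ hq, one_mul]

theorem xpart_gram_mulVec_add (h : (4 * m - 1) * s = r ^ 2 + p)
    (hq : ((4 * m - 1 : ℤ) : ZMod p) ≠ 0) (g : D p) (x : Fin 4 → ℤ) :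
    xpart p m r s ((gram p m r s).mulVec x + wD p m g) = x := by
  have hB : (gramDual m r s).mulVec ((gram p m r s).mulVec x + wD p m g)
      = (p : ℤ) • x + liftD p m r g := by
    rw [Matrix.mulVec_add, gramDual_mulVec_gram_mulVec h, gramDual_mulVec_wD]
  have hp0 : (p : ℤ) ≠ 0 := by exact_mod_cast (Fact.out : p.Prime).ne_zero
  ext i
  simp only [xpart, hB, cls_gram_mulVec_add h hq, Pi.add_apply, Pi.smul_apply, smul_eq_mul,
    add_sub_cancel_right]
  exact Int.mul_ediv_cancel_left _ hp0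

/-- **(D3) The regrouping bijection** `ℤ⁴ ≃ D × ℤ⁴`, `y ↦ (g, x')` with
`A⁻¹ y = x' + ũ_g / p`; inverse `(g, x') ↦ A x' + A ũ_g / p`. -/
noncomputable def regroup (h : (4 * m - 1) * s = r ^ 2 + p)
    (hq : ((4 * m - 1 : ℤ) : ZMod p) ≠ 0) : (Fin 4 → ℤ) ≃ D p × (Fin 4 → ℤ) where
  toFun y := (cls p m r s y, xpart p m r s y)
  invFun gx := (gram p m r s).mulVec gx.2 + wD p m gx.1
  left_inv y := by
    have hp0 : (p : ℤ) ≠ 0 := by exact_mod_cast (Fact.out : p.Prime).ne_zero
    apply gramDual_mulVec_injective hp0 h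
    rw [Matrix.mulVec_add, gramDual_mulVec_gram_mulVec h, gramDual_mulVec_wD]
    exact (gramDual_mulVec_eq h hq y).symm
  right_inv gx := by
    obtain ⟨g, x⟩ := gx
    simp only [cls_gram_mulVec_add h hq, xpart_gram_mulVec_add h hq]

theorem regroup_apply (h : (4 * m - 1) * s = r ^ 2 + p)
    (hq : ((4 * m - 1 : ℤ) : ZMod p) ≠ 0) (y : Fin 4 → ℤ) :
    regroup h hq y = (cls p m r s y, xpart p m r s y) := rfl

theorem regroup_symm_apply (h : (4 * m - 1) * s = r ^ 2 + p)
    (hq : ((4 * m - 1 : ℤ) : ZMod p) ≠ 0) (g : D p) (x : Fin 4 → ℤ) :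
    (regroup h hq).symm (g, x) = (gram p m r s).mulVec x + wD p m g := rfl

/-- `B ((regroup).symm (g, x)) = p x + ũ_g`. -/
theorem gramDual_mulVec_regroup_symm (h : (4 * m - 1) * s = r ^ 2 + p)
    (hq : ((4 * m - 1 : ℤ) : ZMod p) ≠ 0) (g : D p) (x : Fin 4 → ℤ) :
    (gramDual m r s).mulVec ((regroup h hq).symm (g, x)) = (p : ℤ) • x + liftD p m r g := by
  rw [regroup_symm_apply, Matrix.mulVec_add, gramDual_mulVec_gram_mulVec h, gramDual_mulVec_wD]

/-- **(D3) as a summation formula**: `∑_y F (B y) = ∑_g ∑_x F (p x + ũ_g)`; with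
`F z = f (z / p)` this is `∑_y f (A⁻¹ y) = ∑_g ∑_x f (x + ũ_g / p)`. -/
theorem tsum_regroup (h : (4 * m - 1) * s = r ^ 2 + p) (hq : ((4 * m - 1 : ℤ) : ZMod p) ≠ 0)
    {E : Type*} [NormedAddCommGroup E] [CompleteSpace E] (F : (Fin 4 → ℤ) → E)
    (hF : Summable fun y => F ((gramDual m r s).mulVec y)) :
    ∑' y, F ((gramDual m r s).mulVec y) = ∑ g : D p, ∑' x, F ((p : ℤ) • x + liftD p m r g) := by
  have h1 := (regroup h hq).symm.tsum_eq (fun y => F ((gramDual m r s).mulVec y))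
  have h2 : (fun gx : D p × (Fin 4 → ℤ) => F ((gramDual m r s).mulVec ((regroup h hq).symm gx)))
      = fun gx => F ((p : ℤ) • gx.2 + liftD p m r gx.1) := by
    funext gx
    obtain ⟨g, x⟩ := gx
    rw [gramDual_mulVec_regroup_symm]
  have hS : Summable (fun gx : D p × (Fin 4 → ℤ) => F ((p : ℤ) • gx.2 + liftD p m r gx.1)) := by
    rw [← h2]
    exact (Equiv.summable_iff (regroup h hq).symm
      (f := fun y => F ((gramDual m r s).mulVec y))).mpr hF
  rw [← h1, h2, hS.tsum_prod, tsum_fintype]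

/-- Summability of each class, from summability of the whole dual lattice sum. -/
theorem summable_class (h : (4 * m - 1) * s = r ^ 2 + p) (hq : ((4 * m - 1 : ℤ) : ZMod p) ≠ 0)
    {E : Type*} [NormedAddCommGroup E] [CompleteSpace E] (F : (Fin 4 → ℤ) → E)
    (hF : Summable fun y => F ((gramDual m r s).mulVec y)) (g : D p) :
    Summable fun x : Fin 4 → ℤ => F ((p : ℤ) • x + liftD p m r g) := by
  have h2 : (fun gx : D p × (Fin 4 → ℤ) => F ((gramDual m r s).mulVec ((regroup h hq).symm gx)))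
      = fun gx => F ((p : ℤ) • gx.2 + liftD p m r gx.1) := by
    funext gx
    obtain ⟨g, x⟩ := gx
    rw [gramDual_mulVec_regroup_symm]
  have hS : Summable (fun gx : D p × (Fin 4 → ℤ) => F ((p : ℤ) • gx.2 + liftD p m r gx.1)) := by
    rw [← h2]
    exact (Equiv.summable_iff (regroup h hq).symm
      (f := fun y => F ((gramDual m r s).mulVec y))).mpr hF
  exact hS.prod_factor g

/-- **(D1) for the standard lifts**: `Q (p x + ũ_g) = p T + p² (…)` with `T ≡ t g mod p`. -/
theorem Q_shift_liftD (h : (4 * m - 1) * s = r ^ 2 + p) (g : D p) (x : Fin 4 → ℤ) :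
    ∃ k : ℤ, Q p m r s ((p : ℤ) • x + liftD p m r g) = k ∧
      ∃ T0 : ℤ, (T0 : ZMod p) = tform p m g ∧
        k = p * T0 + (p : ℤ) ^ 2 * (Q p m r s x + x ⬝ᵥ wD p m g) := by
  refine ⟨_, rfl, T m g.1.val g.2.val, ?_, Q_shift h x _ _⟩
  rw [intCast_T, intCast_val_eq, intCast_val_eq]

/-- **(D2) for the standard lifts.** -/
theorem polar_shift_liftD (h : (4 * m - 1) * s = r ^ 2 + p) (g g' : D p) (x x' : Fin 4 → ℤ) :
    ∃ P0 : ℤ, (P0 : ZMod p) = bform p m g g' ∧
      ((p : ℤ) • x + liftD p m r g) ⬝ᵥ (gram p m r s).mulVec ((p : ℤ) • x' + liftD p m r g') =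
        p * P0 + (p : ℤ) ^ 2 *
          (x ⬝ᵥ (gram p m r s).mulVec x' + x ⬝ᵥ wD p m g' + x' ⬝ᵥ wD p m g) := by
  refine ⟨P m g.1.val g.2.val g'.1.val g'.2.val, ?_, polar_shift h x x' _ _ _ _⟩
  rw [intCast_P, intCast_val_eq, intCast_val_eq, intCast_val_eq, intCast_val_eq]

/-- **(D4)** the standard lift of `-g` is `-ũ_g` up to `p ℤ⁴`. -/
theorem liftD_neg (g : D p) : ∃ d : Fin 4 → ℤ, liftD p m r (-g) = -liftD p m r g + (p : ℤ) • d := by
  have key : ∀ a : ZMod p, ∃ k : ℤ, (((-a).val : ℕ) : ℤ) = -((a.val : ℕ) : ℤ) + p * k := by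
    intro a
    have : (p : ℤ) ∣ (((-a).val : ℕ) : ℤ) + ((a.val : ℕ) : ℤ) := by
      rw [← ZMod.intCast_zmod_eq_zero_iff_dvd]
      push_cast
      rw [ZMod.natCast_zmod_val, ZMod.natCast_zmod_val]; ring
    obtain ⟨k, hk⟩ := this
    exact ⟨k, by linarith⟩
  obtain ⟨k, hk⟩ := key g.1
  obtain ⟨l, hl⟩ := key g.2
  refine ⟨lift m r k l, ?_⟩
  simp only [liftD, Prod.fst_neg, Prod.snd_neg]
  rw [hk, hl, lift_add_mul, lift_neg]

theorem liftD_zero : liftD p m r 0 = 0 := by
  ext i; fin_cases i <;> simp [liftD, lift]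

theorem wD_zero : wD p m 0 = 0 := by
  ext i; fin_cases i <;> simp [wD, wvec]

theorem cls_zero : cls p m r s 0 = 0 := by
  simp [cls]

end RegroupPrime

/-! ### Existence of parameters with `q` a unit mod `p` -/

/-- Dirichlet: a prime `q ≡ 3 mod 4` in a prescribed nonzero residue class mod an odd prime `p`. -/
theorem exists_prime_three_mod_four {p : ℕ} (hp : p.Prime) (hp2 : p ≠ 2) (a : ZMod p)
    (ha0 : a ≠ 0) : ∃ q : ℕ, q.Prime ∧ q % 4 = 3 ∧ ((q : ℕ) : ZMod p) = a := by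
  have : Fact p.Prime := ⟨hp⟩
  have hcop : Nat.Coprime 4 p := by
    have : Nat.Coprime 2 p := (Nat.coprime_primes Nat.prime_two hp).mpr (Ne.symm hp2)
    exact Nat.Coprime.pow_left 2 this
  obtain ⟨c, hc4, hcp⟩ := Nat.chineseRemainder hcop 3 a.val
  have hcp' : ((c : ℕ) : ZMod p) = a := by
    have := (ZMod.natCast_eq_natCast_iff c a.val p).mpr hcp
    rw [this, ZMod.natCast_zmod_val]
  have hc_cop : Nat.Coprime c (4 * p) := by
    apply Nat.Coprime.mul_right
    · have h2 : Nat.Coprime c 2 := by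
        rw [Nat.coprime_two_right, Nat.odd_iff]
        have : c % 4 = 3 := hc4
        omega
      exact Nat.Coprime.pow_right 2 h2
    · rw [Nat.coprime_comm, Nat.Prime.coprime_iff_not_dvd hp]
      intro hdvd
      apply ha0
      rw [← hcp']
      exact (ZMod.natCast_eq_zero_iff c p).mpr hdvd
  obtain ⟨q, -, hq, hqc⟩ := Nat.forall_exists_prime_gt_and_modEq 2 (q := 4 * p) (a := c)
    (Nat.mul_ne_zero (by norm_num) hp.ne_zero) hc_cop
  refine ⟨q, hq, ?_, ?_⟩
  · have h1 : q ≡ c [MOD 4] := hqc.of_mul_right p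
    have h2 : c % 4 = 3 := hc4
    have h3 : q % 4 = c % 4 := h1
    omega
  · have h1 : q ≡ c [MOD p] := hqc.of_mul_left 4
    rw [← hcp']; exact (ZMod.natCast_eq_natCast_iff q c p).mpr h1

/-- **Existence of the lattice parameters with `q = 4 m - 1` a unit mod `p`**, for every odd
prime `p`. -/
theorem exists_params_unit {p : ℕ} (hp : p.Prime) (hp2 : p ≠ 2) :
    ∃ m r s : ℤ, 0 < m ∧ (4 * m - 1) * s = r ^ 2 + p ∧ ((4 * m - 1 : ℤ) : ZMod p) ≠ 0 := by
  have : Fact p.Prime := ⟨hp⟩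
  have hodd : p % 2 = 1 := hp.eq_two_or_odd.resolve_left hp2
  -- a prime `q ≡ 3 mod 4`, `q ≠ 0 mod p`, with `(p / q) = -1`
  have hex : ∃ q : ℕ, ∃ _ : Fact q.Prime, q % 4 = 3 ∧ ((q : ℕ) : ZMod p) ≠ 0 ∧
      legendreSym q p = -1 := by
    have h4 : p % 4 = 1 ∨ p % 4 = 3 := by omega
    rcases h4 with h4 | h4
    · obtain ⟨a, ha⟩ := FiniteField.exists_nonsquare (F := ZMod p)
        (by rw [ZMod.ringChar_zmod_n]; exact hp2)
      have ha0 : a ≠ 0 := by rintro rfl; exact ha ⟨0, by simp⟩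
      obtain ⟨q, hq, hq4, hqa⟩ := exists_prime_three_mod_four hp hp2 a ha0
      have hqF : Fact q.Prime := ⟨hq⟩
      have hq2 : q ≠ 2 := by rintro rfl; omega
      refine ⟨q, hqF, hq4, by rw [hqa]; exact ha0, ?_⟩
      rw [legendreSym.quadratic_reciprocity_one_mod_four h4 hq2]
      exact (legendreSym.eq_neg_one_iff' p).mpr (by rw [hqa]; exact ha)
    · obtain ⟨q, hq, hq4, hqa⟩ := exists_prime_three_mod_four hp hp2 1 one_ne_zero
      have hqF : Fact q.Prime := ⟨hq⟩
      refine ⟨q, hqF, hq4, by rw [hqa]; exact one_ne_zero, ?_⟩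
      rw [legendreSym.quadratic_reciprocity_three_mod_four h4 hq4]
      have : legendreSym p q = 1 :=
        (legendreSym.eq_one_iff' p (by rw [hqa]; exact one_ne_zero)).mpr
          (by rw [hqa]; exact ⟨1, by simp⟩)
      rw [this]
  obtain ⟨q, hqF, hq4, hq0, hL2⟩ := hex
  have hq2 : q ≠ 2 := by rintro rfl; omega
  have hL3 : legendreSym q (-(p : ℤ)) = 1 := by
    rw [neg_eq_neg_one_mul, legendreSym.mul, legendreSym.at_neg_one hq2,
      ZMod.χ₄_nat_three_mod_four hq4, hL2]; norm_num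
  have hne : (((-(p : ℤ)) : ℤ) : ZMod q) ≠ 0 := by
    intro h0
    have : legendreSym q (-(p : ℤ)) = 0 := (legendreSym.eq_zero_iff q _).mpr h0
    rw [hL3] at this; exact one_ne_zero this
  obtain ⟨t, ht⟩ := (legendreSym.eq_one_iff q hne).mp hL3
  have hdvd : (q : ℤ) ∣ (t.val : ℤ) ^ 2 + p := by
    rw [← ZMod.intCast_zmod_eq_zero_iff_dvd]
    push_cast
    rw [ZMod.natCast_zmod_val]
    have : (-(p : ZMod q)) = t * t := by simpa using ht
    rw [sq, ← this]; ring
  obtain ⟨s, hs⟩ := hdvd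
  have h1 : (4 * (((q + 1) / 4 : ℕ) : ℤ) - 1) = q := by
    have : 4 * ((q + 1) / 4) = q + 1 := by omega
    have h' : (4 * (((q + 1) / 4 : ℕ) : ℤ)) = (q : ℤ) + 1 := by exact_mod_cast this
    linarith
  refine ⟨((q + 1) / 4 : ℕ), t.val, s, ?_, ?_, ?_⟩
  · have : 0 < (q + 1) / 4 := by omega
    exact_mod_cast this
  · rw [h1, ← hs]
  · rw [h1, Int.cast_natCast]; exact hq0

/-- **Everything packaged in the input shape of the Weil-representation slice**: for every odd
prime `p` there are parameters of the quaternary lattice such that the discriminant data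
`(D p, tform, bform)` satisfy all the algebraic hypotheses. -/
theorem exists_disc_data {p : ℕ} [Fact p.Prime] (hp2 : p ≠ 2) :
    ∃ m r s : ℤ, 0 < m ∧ (4 * m - 1) * s = r ^ 2 + p ∧ ((4 * m - 1 : ℤ) : ZMod p) ≠ 0 ∧
      (∀ x y z : D p, bform p m (x + y) z = bform p m x z + bform p m y z) ∧
      (∀ x y : D p, bform p m x y = bform p m y x) ∧
      (∀ x y : D p, tform p m (x + y) = tform p m x + tform p m y + bform p m x y) ∧
      (∀ x : D p, tform p m (-x) = tform p m x) ∧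
      (∀ x : D p, x ≠ 0 → ∃ y, bform p m x y ≠ 0) ∧
      Fintype.card (D p) = p ^ 2 := by
  obtain ⟨m, r, s, hm, h, hq⟩ := exists_params_unit (Fact.out : p.Prime) hp2
  exact ⟨m, r, s, hm, h, hq, bform_add_left p m, bform_symm p m, tform_add p m, tform_neg p m,
    bform_nondeg p m hq, card_D p⟩

end Fermat.Agent.S16.LB.DiscForm
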