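/-
E-LB (P2a) (helper2): theta functions with characteristics of an even quaternary lattice.

For an integral symmetric matrix `A` (4 × 4, even diagonal, positive definite) and a real
characteristic `v`, `thetaV A v z = ∑_{n ∈ ℤ⁴} exp(π i z (n+v)ᵀ A (n+v))`.
We prove: summability, `thetaV (v + m) = thetaV v` (`m ∈ ℤ⁴`), `thetaV (-v) = thetaV v`,
holomorphy on `ℍ`, boundedness at `i∞`, the `T`-transformation law when `A v ∈ ℤ⁴`, the
`q`-expansion of `thetaV 0` (coefficients = representation numbers) and `thetaV 0 ≠ 0`.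
The only analytic input (Gaussian summability) is the field `summ` of `ThetaData`.
-/
import Mathlib

set_option autoImplicit false

open Complex UpperHalfPlane Matrix
open scoped Real MatrixGroups ModularForm Manifold

noncomputable section

namespace Fermat.Agent.S16.LB.ThetaFun

/-! ### The real bilinear and quadratic forms of an integral matrix -/

/-- `xᵀ A y` over `ℝ`. -/
def bilR (A : Matrix (Fin 4) (Fin 4) ℤ) (x y : Fin 4 → ℝ) : ℝ :=
  x ⬝ᵥ (A.map (Int.cast : ℤ → ℝ)).mulVec y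

/-- `xᵀ A x` over `ℝ`. -/
def quadR (A : Matrix (Fin 4) (Fin 4) ℤ) (x : Fin 4 → ℝ) : ℝ := bilR A x x

variable (A : Matrix (Fin 4) (Fin 4) ℤ)

theorem bilR_add_left (x y z : Fin 4 → ℝ) : bilR A (x + y) z = bilR A x z + bilR A y z := by
  simp [bilR, add_dotProduct]

theorem bilR_add_right (x y z : Fin 4 → ℝ) : bilR A x (y + z) = bilR A x y + bilR A x z := by
  simp [bilR, mulVec_add, dotProduct_add]

theorem bilR_neg_left (x y : Fin 4 → ℝ) : bilR A (-x) y = -bilR A x y := by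
  simp [bilR]

theorem bilR_neg_right (x y : Fin 4 → ℝ) : bilR A x (-y) = -bilR A x y := by
  simp [bilR, mulVec_neg]

theorem bilR_comm (hA : A.IsSymm) (x y : Fin 4 → ℝ) : bilR A x y = bilR A y x := by
  have hA' : (A.map (Int.cast : ℤ → ℝ)).IsSymm := by
    ext i j
    simp only [transpose_apply, map_apply]
    rw [hA.apply]
  unfold bilR
  rw [dotProduct_mulVec, ← hA'.eq, vecMul_transpose, hA'.eq, dotProduct_comm]

theorem quadR_add (hA : A.IsSymm) (x y : Fin 4 → ℝ) :
    quadR A (x + y) = quadR A x + 2 * bilR A x y + quadR A y := by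
  unfold quadR
  rw [bilR_add_left, bilR_add_right, bilR_add_right, bilR_comm A hA y x]
  ring

theorem quadR_neg (x : Fin 4 → ℝ) : quadR A (-x) = quadR A x := by
  unfold quadR
  rw [bilR_neg_left, bilR_neg_right, neg_neg]

@[simp] theorem quadR_zero : quadR A 0 = 0 := by
  simp [quadR, bilR]

/-- The integral quadratic form `nᵀ A n`. -/
def quadZ (n : Fin 4 → ℤ) : ℤ := n ⬝ᵥ A.mulVec n

theorem quadR_intCast (n : Fin 4 → ℤ) :
    quadR A (fun i => (n i : ℝ)) = (quadZ A n : ℝ) := by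
  simp [quadR, bilR, quadZ, dotProduct, mulVec, Int.cast_sum, Int.cast_mul]

theorem bilR_intCast_of_mulVec_eq (n : Fin 4 → ℤ) (v : Fin 4 → ℝ) (h : Fin 4 → ℤ)
    (hv : (A.map (Int.cast : ℤ → ℝ)).mulVec v = fun i => (h i : ℝ)) :
    bilR A (fun i => (n i : ℝ)) v = ((n ⬝ᵥ h : ℤ) : ℝ) := by
  unfold bilR
  rw [hv]
  simp [dotProduct, Int.cast_sum, Int.cast_mul]

/-- An even lattice takes even values. -/
theorem even_quadZ (hA : A.IsSymm) (hev : ∀ i, Even (A i i)) (n : Fin 4 → ℤ) :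
    Even (quadZ A n) := by
  obtain ⟨a0, h0⟩ := hev 0
  obtain ⟨a1, h1⟩ := hev 1
  obtain ⟨a2, h2⟩ := hev 2
  obtain ⟨a3, h3⟩ := hev 3
  have s10 : A 1 0 = A 0 1 := hA.apply 0 1
  have s20 : A 2 0 = A 0 2 := hA.apply 0 2
  have s30 : A 3 0 = A 0 3 := hA.apply 0 3
  have s21 : A 2 1 = A 1 2 := hA.apply 1 2
  have s31 : A 3 1 = A 1 3 := hA.apply 1 3
  have s32 : A 3 2 = A 2 3 := hA.apply 2 3
  refine ⟨a0 * n 0 ^ 2 + a1 * n 1 ^ 2 + a2 * n 2 ^ 2 + a3 * n 3 ^ 2 + A 0 1 * n 0 * n 1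
    + A 0 2 * n 0 * n 2 + A 0 3 * n 0 * n 3 + A 1 2 * n 1 * n 2 + A 1 3 * n 1 * n 3
    + A 2 3 * n 2 * n 3, ?_⟩
  simp only [quadZ, dotProduct, mulVec, Fin.sum_univ_four, s10, s20, s30, s21, s31, s32, h0, h1,
    h2, h3]
  ring

/-! ### The theta functions -/

/-- The hypotheses on the Gram matrix: symmetric, even, positive semi-definite, and the Gaussian
sums converge (the last is the only analytic input; for a positive definite form it is the
multi-dimensional Gaussian summability). -/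
structure ThetaData (A : Matrix (Fin 4) (Fin 4) ℤ) : Prop where
  symm : A.IsSymm
  even : ∀ i, Even (A i i)
  nonneg : ∀ x : Fin 4 → ℝ, 0 ≤ quadR A x
  summ : ∀ ε : ℝ, 0 < ε → ∀ v : Fin 4 → ℝ,
    Summable fun n : Fin 4 → ℤ => Real.exp (-(π * ε * quadR A (fun i => (n i : ℝ) + v i)))

/-- The general term, as a function of a complex variable `w`. -/
def term (v : Fin 4 → ℝ) (w : ℂ) (n : Fin 4 → ℤ) : ℂ :=
  cexp (π * Complex.I * w * quadR A (fun i => (n i : ℝ) + v i))

/-- The theta function with characteristic `v`: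
`thetaV A v z = ∑_{n ∈ ℤ⁴} exp(π i z (n+v)ᵀ A (n+v))`. -/
def thetaV (v : Fin 4 → ℝ) (z : ℍ) : ℂ :=
  ∑' n : Fin 4 → ℤ, cexp (π * Complex.I * z * quadR A (fun i => (n i : ℝ) + v i))

theorem thetaV_eq_tsum_term (v : Fin 4 → ℝ) (z : ℍ) :
    thetaV A v z = ∑' n : Fin 4 → ℤ, term A v (z : ℂ) n := rfl

theorem norm_term (v : Fin 4 → ℝ) (w : ℂ) (n : Fin 4 → ℤ) :
    ‖term A v w n‖ = Real.exp (-(π * w.im * quadR A (fun i => (n i : ℝ) + v i))) := by
  rw [term, Complex.norm_exp]
  congr 1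
  simp only [mul_re, mul_im, ofReal_re, ofReal_im, Complex.I_re, Complex.I_im]
  ring

variable {A}

theorem summable_norm_term (hA : ThetaData A) (v : Fin 4 → ℝ) {w : ℂ} (hw : 0 < w.im) :
    Summable fun n : Fin 4 → ℤ => ‖term A v w n‖ := by
  simp only [norm_term]
  exact hA.summ w.im hw v

theorem summable_term (hA : ThetaData A) (v : Fin 4 → ℝ) {w : ℂ} (hw : 0 < w.im) :
    Summable fun n : Fin 4 → ℤ => term A v w n :=
  (summable_norm_term hA v hw).of_norm

theorem hasSum_thetaV (hA : ThetaData A) (v : Fin 4 → ℝ) (z : ℍ) :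
    HasSum (fun n : Fin 4 → ℤ => cexp (π * Complex.I * z * quadR A (fun i => (n i : ℝ) + v i)))
      (thetaV A v z) :=
  (summable_term hA v z.im_pos).hasSum

/-! ### Translation and reflection of the characteristic -/

/-- `thetaV (v + m) = thetaV v` for `m ∈ ℤ⁴`. -/
theorem thetaV_add_int (v : Fin 4 → ℝ) (m : Fin 4 → ℤ) :
    thetaV A (fun i => v i + (m i : ℝ)) = thetaV A v := by
  funext z
  unfold thetaV
  symm
  rw [← (Equiv.addRight m).tsum_eq]
  refine tsum_congr fun n => ?_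
  congr 4
  funext i
  simp only [Equiv.coe_addRight, Pi.add_apply, Int.cast_add]
  ring

/-- `thetaV v` only depends on `v` modulo `ℤ⁴`. -/
theorem thetaV_congr_of_sub_int {v v' : Fin 4 → ℝ} (m : Fin 4 → ℤ)
    (h : ∀ i, v' i = v i + (m i : ℝ)) : thetaV A v' = thetaV A v := by
  rw [← thetaV_add_int v m]
  congr 1
  funext i
  exact h i

/-- `thetaV (-v) = thetaV v`. -/
theorem thetaV_neg (v : Fin 4 → ℝ) : thetaV A (-v) = thetaV A v := by
  funext z
  unfold thetaV
  rw [← (Equiv.neg (Fin 4 → ℤ)).tsum_eq]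
  refine tsum_congr fun n => ?_
  congr 2
  have : (fun i => (((Equiv.neg (Fin 4 → ℤ)) n i : ℤ) : ℝ) + (-v) i)
      = -(fun i => ((n i : ℤ) : ℝ) + v i) := by
    funext i
    simp only [Equiv.neg_apply, Pi.neg_apply, Int.cast_neg]
    ring
  rw [this, quadR_neg]

/-! ### Holomorphy -/

theorem differentiable_term (v : Fin 4 → ℝ) (n : Fin 4 → ℤ) :
    Differentiable ℂ fun w : ℂ => term A v w n := by
  unfold term
  fun_prop

theorem norm_term_le (hA : ThetaData A) (v : Fin 4 → ℝ) {ε : ℝ} {w : ℂ} (hw : ε ≤ w.im)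
    (n : Fin 4 → ℤ) :
    ‖term A v w n‖ ≤ Real.exp (-(π * ε * quadR A (fun i => (n i : ℝ) + v i))) := by
  rw [norm_term, Real.exp_le_exp, neg_le_neg_iff]
  have h1 := hA.nonneg (fun i => (n i : ℝ) + v i)
  have hπ : 0 ≤ π := Real.pi_pos.le
  exact mul_le_mul_of_nonneg_right (mul_le_mul_of_nonneg_left hw hπ) h1

theorem differentiableOn_tsum_term (hA : ThetaData A) (v : Fin 4 → ℝ) :
    DifferentiableOn ℂ (fun w : ℂ => ∑' n : Fin 4 → ℤ, term A v w n) {w : ℂ | 0 < w.im} := by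
  intro w0 hw0
  have hw0' : 0 < w0.im := hw0
  set ε : ℝ := w0.im / 2 with hε
  have hεpos : 0 < ε := by positivity
  have hopen : IsOpen {w : ℂ | ε < w.im} := isOpen_lt continuous_const Complex.continuous_im
  have hmem : w0 ∈ {w : ℂ | ε < w.im} := by
    show ε < w0.im
    rw [hε]; linarith
  have hd : DifferentiableOn ℂ (fun w : ℂ => ∑' n : Fin 4 → ℤ, term A v w n)
      {w : ℂ | ε < w.im} :=
    differentiableOn_tsum_of_summable_norm (hA.summ ε hεpos v)
      (fun n => (differentiable_term v n).differentiableOn) hopen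
      (fun n w hw => norm_term_le hA v (le_of_lt hw) n)
  exact (hd.differentiableAt (hopen.mem_nhds hmem)).differentiableWithinAt

/-- `thetaV A v` is holomorphic on `ℍ`. -/
theorem mdifferentiable_thetaV (hA : ThetaData A) (v : Fin 4 → ℝ) :
    MDifferentiable 𝓘(ℂ) 𝓘(ℂ) (thetaV A v) := by
  rw [UpperHalfPlane.mdifferentiable_iff]
  refine (differentiableOn_tsum_term hA v).congr ?_
  intro w hw
  have hw' : 0 < w.im := hw
  simp only [Function.comp_apply, thetaV_eq_tsum_term]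
  rw [UpperHalfPlane.ofComplex_apply_of_im_pos hw']

/-! ### Boundedness at `i∞` -/

theorem norm_thetaV_le (hA : ThetaData A) (v : Fin 4 → ℝ) {ε : ℝ} (hε : 0 < ε) (z : ℍ)
    (hz : ε ≤ z.im) :
    ‖thetaV A v z‖ ≤ ∑' n : Fin 4 → ℤ,
      Real.exp (-(π * ε * quadR A (fun i => (n i : ℝ) + v i))) := by
  rw [thetaV_eq_tsum_term]
  refine (norm_tsum_le_tsum_norm (summable_norm_term hA v z.im_pos)).trans ?_
  exact (summable_norm_term hA v z.im_pos).tsum_le_tsum
    (fun n => norm_term_le hA v hz n) (hA.summ ε hε v)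

/-- `thetaV A v` is bounded at `i∞`. -/
theorem isBoundedAtImInfty_thetaV (hA : ThetaData A) (v : Fin 4 → ℝ) :
    IsBoundedAtImInfty (thetaV A v) := by
  rw [UpperHalfPlane.isBoundedAtImInfty_iff]
  exact ⟨_, 1, fun z hz => norm_thetaV_le hA v one_pos z hz⟩

end Fermat.Agent.S16.LB.ThetaFun
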