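/-
PROJECT E (S16), slice (LB-P2b) (helper25): the `S`-transformation of the theta functions with
characteristics of an even quaternary lattice of level `p`.

GENERIC in the lattice: `A B : Matrix (Fin 4) (Fin 4) ℤ` with `A * B = B * A = p`.  The analytic
input (theta inversion = `(PG3)` of `LB/PoissonGauss`, summability `(PG1)`) and the discriminant
group data (`LB/DiscForm`: a section `s : D → ℤ⁴` and the bijection `D × ℤ⁴ ≃ ℤ⁴`,
`(g, x) ↦ s g + A x`) enter as hypotheses.  The output `slash_S_theta` is the hypothesis `hS` of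
`LB/Weil.slash_theta_zero`, verbatim, for `Θ h := θ (vecD B p (s h))`.

Only Mathlib is used.
-/
import Mathlib

set_option autoImplicit false

noncomputable section

namespace Fermat.Agent.S16.LB.ThetaS

open Complex UpperHalfPlane Matrix
open scoped MatrixGroups ModularForm Real

/-- Coercion of integer vectors to real vectors. -/
def castVec (x : Fin 4 → ℤ) : Fin 4 → ℝ := fun i => (x i : ℝ)

/-- The real matrix of an integer matrix. -/
def castMat (A : Matrix (Fin 4) (Fin 4) ℤ) : Matrix (Fin 4) (Fin 4) ℝ :=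
  A.map (Int.castRingHom ℝ)

/-- The real quadratic form `v ↦ vᵀ A v`. -/
def qA (A : Matrix (Fin 4) (Fin 4) ℤ) (v : Fin 4 → ℝ) : ℝ := v ⬝ᵥ castMat A *ᵥ v

/-- `A⁻¹ y = B y / p`. -/
def vecD (B : Matrix (Fin 4) (Fin 4) ℤ) (p : ℕ) (y : Fin 4 → ℤ) : Fin 4 → ℝ :=
  fun i => ((B *ᵥ y) i : ℝ) / p

theorem castVec_add (x y : Fin 4 → ℤ) : castVec (x + y) = castVec x + castVec y := by
  ext i; simp [castVec]

theorem castVec_mulVec (A : Matrix (Fin 4) (Fin 4) ℤ) (x : Fin 4 → ℤ) :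
    castVec (A *ᵥ x) = castMat A *ᵥ castVec x := by
  ext i
  exact RingHom.map_mulVec (Int.castRingHom ℝ) A x i

theorem cast_dotProduct (x y : Fin 4 → ℤ) :
    ((x ⬝ᵥ y : ℤ) : ℝ) = castVec x ⬝ᵥ castVec y := by
  simp [dotProduct, castVec]

theorem castMat_mul (A B : Matrix (Fin 4) (Fin 4) ℤ) :
    castMat (A * B) = castMat A * castMat B := by
  unfold castMat
  rw [Matrix.map_mul]

theorem castMat_smul_one (p : ℕ) :
    castMat ((p : ℤ) • (1 : Matrix (Fin 4) (Fin 4) ℤ)) = (p : ℝ) • (1 : Matrix (Fin 4) (Fin 4) ℝ) := by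
  ext i j
  simp only [castMat, Matrix.map_apply, Matrix.smul_apply, Matrix.one_apply, smul_eq_mul]
  split_ifs <;> simp

theorem vecD_eq (B : Matrix (Fin 4) (Fin 4) ℤ) (p : ℕ) (y : Fin 4 → ℤ) :
    vecD B p y = (p : ℝ)⁻¹ • (castMat B *ᵥ castVec y) := by
  ext i
  have := congrFun (castVec_mulVec B y) i
  simp only [castVec] at this
  simp only [vecD, Pi.smul_apply, smul_eq_mul, this]
  rw [div_eq_inv_mul]

section Algebra

variable {p : ℕ} (hp : p ≠ 0) {A B : Matrix (Fin 4) (Fin 4) ℤ}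

include hp in
/-- `A (x + A⁻¹ t) = t + A x`. -/
theorem castMat_mulVec_add_vecD (hAB : A * B = (p : ℤ) • 1) (t x : Fin 4 → ℤ) :
    castMat A *ᵥ (castVec x + vecD B p t) = castVec (t + A *ᵥ x) := by
  have hpR : (p : ℝ) ≠ 0 := Nat.cast_ne_zero.mpr hp
  have hABR : castMat A * castMat B = (p : ℝ) • 1 := by
    rw [← castMat_mul, hAB, castMat_smul_one]
  rw [Matrix.mulVec_add, vecD_eq, Matrix.mulVec_smul, Matrix.mulVec_mulVec, hABR,
    Matrix.smul_mulVec, Matrix.one_mulVec, smul_smul, inv_mul_cancel₀ hpR, one_smul,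
    castVec_add, castVec_mulVec, add_comm]

include hp in
/-- **The dual form on `y = t + A x` is the form `A` at `x + A⁻¹ t`.** -/
theorem dual_form_eq (hAB : A * B = (p : ℤ) • 1) (hBA : B * A = (p : ℤ) • 1)
    (t x : Fin 4 → ℤ) :
    (((t + A *ᵥ x) ⬝ᵥ B *ᵥ (t + A *ᵥ x) : ℤ) : ℝ) / p = qA A (castVec x + vecD B p t) := by
  have hpR : (p : ℝ) ≠ 0 := Nat.cast_ne_zero.mpr hp
  have hBAR : castMat B * castMat A = (p : ℝ) • 1 := by
    rw [← castMat_mul, hBA, castMat_smul_one]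
  set w : Fin 4 → ℝ := castVec x + vecD B p t with hw
  have hy : castVec (t + A *ᵥ x) = castMat A *ᵥ w := (castMat_mulVec_add_vecD hp hAB t x).symm
  rw [cast_dotProduct, castVec_mulVec, hy, Matrix.mulVec_mulVec, hBAR, Matrix.smul_mulVec,
    Matrix.one_mulVec, dotProduct_smul, smul_eq_mul, mul_div_assoc, mul_comm,
    div_mul_cancel₀ _ hpR, qA, dotProduct_comm]

include hp in
/-- **The phase**: `y · A⁻¹ u = tᵀ B u / p + x · u` for `y = t + A x`. -/
theorem phase_eq (hBA : B * A = (p : ℤ) • 1) (hB : B.IsSymm) (t u x : Fin 4 → ℤ) :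
    ∑ i, ((t + A *ᵥ x) i : ℝ) * vecD B p u i =
      ((t ⬝ᵥ B *ᵥ u : ℤ) : ℝ) / p + ((x ⬝ᵥ u : ℤ) : ℝ) := by
  have hpR : (p : ℝ) ≠ 0 := Nat.cast_ne_zero.mpr hp
  have hBAR : castMat B * castMat A = (p : ℝ) • 1 := by
    rw [← castMat_mul, hBA, castMat_smul_one]
  have hBT : (castMat B)ᵀ = castMat B := by
    show (B.map _)ᵀ = B.map _
    rw [← Matrix.transpose_map, hB.eq]
  have h1 : ∑ i, ((t + A *ᵥ x) i : ℝ) * vecD B p u i =
      castVec (t + A *ᵥ x) ⬝ᵥ vecD B p u := rfl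
  rw [h1, vecD_eq, dotProduct_smul, smul_eq_mul, castVec_add, add_dotProduct, castVec_mulVec,
    cast_dotProduct, cast_dotProduct, castVec_mulVec]
  -- `(A x) · (B u) = (B u) · (A x) = u · (Bᵀ A x) = p (u · x)`
  have h2 : (castMat A *ᵥ castVec x) ⬝ᵥ (castMat B *ᵥ castVec u) =
      (p : ℝ) * (castVec x ⬝ᵥ castVec u) := by
    rw [dotProduct_comm, Matrix.dotProduct_mulVec, Matrix.vecMul_mulVec, hBT, hBAR,
      Matrix.vecMul_smul, Matrix.vecMul_one, smul_dotProduct, smul_eq_mul, dotProduct_comm]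
  rw [h2]
  field_simp

end Algebra


section Main

variable {p : ℕ} [Fact p.Prime] {A B : Matrix (Fin 4) (Fin 4) ℤ}

/-- The general term of the theta series with characteristic `v`:
`exp (π i z (n + v)ᵀ A (n + v))`. -/
def thetaTerm (A : Matrix (Fin 4) (Fin 4) ℤ) (v : Fin 4 → ℝ) (z : ℍ) (n : Fin 4 → ℤ) : ℂ :=
  cexp (π * Complex.I * z * ((qA A (castVec n + v) : ℝ) : ℂ))

/-- The general term of the dual series: `exp (π i z yᵀ A⁻¹ y + 2 π i y · v)`. -/
def dualTerm (B : Matrix (Fin 4) (Fin 4) ℤ) (p : ℕ) (v : Fin 4 → ℝ) (z : ℍ)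
    (y : Fin 4 → ℤ) : ℂ :=
  cexp (π * Complex.I * z * (((((y ⬝ᵥ B *ᵥ y : ℤ) : ℝ) / p : ℝ)) : ℂ) +
    2 * π * Complex.I * ((∑ i, (y i : ℝ) * v i : ℝ) : ℂ))

/-- Termwise: on `y = s g + A x` the dual term at the characteristic `A⁻¹ u` is a root of unity
times the theta term at the characteristic `A⁻¹ t`. -/
theorem dualTerm_eq (hAB : A * B = (p : ℤ) • 1) (hBA : B * A = (p : ℤ) • 1) (hB : B.IsSymm)
    (t u x : Fin 4 → ℤ) (z : ℍ) :
    dualTerm B p (vecD B p u) z (t + A *ᵥ x) =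
      ZMod.stdAddChar (((t ⬝ᵥ B *ᵥ u : ℤ) : ZMod p)) * thetaTerm A (vecD B p t) z x := by
  have hp : p ≠ 0 := (Fact.out : p.Prime).ne_zero
  unfold dualTerm thetaTerm
  rw [dual_form_eq hp hAB hBA, phase_eq hp hBA hB, Complex.exp_add, mul_comm]
  congr 1
  rw [ZMod.stdAddChar_coe]
  push_cast
  rw [mul_add, Complex.exp_add]
  have h1 : cexp (2 * π * Complex.I * ((x ⬝ᵥ u : ℤ) : ℂ)) = 1 := by
    have := Complex.exp_int_mul_two_pi_mul_I (x ⬝ᵥ u)
    rw [← this]
    congr 1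
    ring
  rw [h1, mul_one]
  congr 1
  ring

/-- **The `S`-transformation of the theta functions with characteristics** (hypothesis `hS` of
`LB/Weil.slash_theta_zero`). -/
theorem slash_S_theta (hAB : A * B = (p : ℤ) • 1) (hBA : B * A = (p : ℤ) • 1) (hB : B.IsSymm)
    (θ : (Fin 4 → ℝ) → ℍ → ℂ)
    (hθ : ∀ v z, θ v z = ∑' n : Fin 4 → ℤ, thetaTerm A v z n)
    (hPG : ∀ v (z : ℍ), θ v (ModularGroup.S • z) =
      -((z : ℂ) ^ 2) / p * ∑' y : Fin 4 → ℤ, dualTerm B p v z y)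
    (hsum : ∀ v (z : ℍ), Summable (dualTerm B p v z))
    {D : Type} [Fintype D] [AddCommGroup D] (s : D → Fin 4 → ℤ)
    (e : D × (Fin 4 → ℤ) ≃ (Fin 4 → ℤ)) (he : ∀ g x, e (g, x) = s g + A *ᵥ x)
    (b : D → D → ZMod p) (hb : ∀ g h, b g h = ((s g ⬝ᵥ B *ᵥ s h : ℤ) : ZMod p))
    (hb_add : ∀ x y z, b (x + y) z = b x z + b y z) (hb_symm : ∀ x y, b x y = b y x)
    (hθneg : ∀ g, θ (vecD B p (s (-g))) = θ (vecD B p (s g))) (h : D) :
    (θ (vecD B p (s h))) ∣[(2 : ℤ)] ModularGroup.S =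
      (-(p : ℂ)⁻¹) • ∑ g, ZMod.stdAddChar (-(b h g)) • θ (vecD B p (s g)) := by
  have hp : p ≠ 0 := (Fact.out : p.Prime).ne_zero
  have hpC : (p : ℂ) ≠ 0 := Nat.cast_ne_zero.mpr hp
  -- `b (-g) h = - b g h`
  have hb0 : ∀ k, b 0 k = 0 := fun k => by
    have := hb_add 0 0 k
    rw [add_zero] at this
    exact left_eq_add.mp this
  have hbneg : ∀ g k, b (-g) k = -b g k := fun g k => by
    have := hb_add (-g) g k
    rw [neg_add_cancel, hb0] at this
    exact eq_neg_of_add_eq_zero_left this.symm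
  funext z
  -- the regrouped dual sum
  have hsumeq : ∑' y : Fin 4 → ℤ, dualTerm B p (vecD B p (s h)) z y =
      ∑ g, ZMod.stdAddChar (b g h) * θ (vecD B p (s g)) z := by
    rw [← Equiv.tsum_eq e,
      Summable.tsum_prod (f := fun c => dualTerm B p (vecD B p (s h)) z (e c))
        ((hsum _ z).comp_injective e.injective), tsum_fintype]
    refine Finset.sum_congr rfl fun g _ => ?_
    rw [hθ, ← tsum_mul_left]
    refine tsum_congr fun x => ?_
    rw [he, dualTerm_eq hAB hBA hB, hb]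
  have hz : (z : ℂ) ≠ 0 := UpperHalfPlane.ne_zero z
  rw [ModularForm.SL_slash_apply, ModularGroup.denom_S, hPG, hsumeq]
  -- the sign `g ↦ -g`
  have hflip : ∑ g, ZMod.stdAddChar (b g h) * θ (vecD B p (s g)) z =
      ∑ g, ZMod.stdAddChar (-(b h g)) * θ (vecD B p (s g)) z := by
    rw [← Equiv.sum_comp (Equiv.neg D)]
    refine Finset.sum_congr rfl fun g _ => ?_
    rw [Equiv.neg_apply, hbneg, hθneg, hb_symm]
  rw [hflip]
  simp only [Pi.smul_apply, Finset.sum_apply, smul_eq_mul]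
  rw [_root_.zpow_neg]
  field_simp

end Main

end Fermat.Agent.S16.LB.ThetaS

end
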