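/-
PROJECT E (S16), slice E-LB-WEIL (helper13): THE WEIL REPRESENTATION BOOKKEEPING of the theta-series
lower bound, in abstract form.

`D` a finite abelian group of order `p²` with a nondegenerate quadratic form `t : D → ZMod p`
(bilinear form `b`), `Θ : D → ℍ → ℂ` a family of functions transforming under the two generators of
`SL(2, ℤ)` like the theta functions with characteristics of an even quaternary lattice of
discriminant group `D`:

* `(T)`  `Θ h ∣[2] T = e(t h / p) • Θ h`,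
* `(S)`  `Θ h ∣[2] S = -(1/p) • ∑ g, e(-b h g / p) • Θ g`,

and `Θ 0 ≠ 0`.  Then **`Θ 0` is invariant under `Γ₀(p)` in weight `2`** and every `SL(2, ℤ)`-translate
of `Θ 0` is a linear combination of the `Θ g` (`slash_theta_zero`).

No Gauss sum is evaluated: with `Ψ (c, d) := Θ 0` if `c = 0`, `-(1/p) ∑ g, e((d/c) t g / p) Θ g`
otherwise, one has `Θ 0 ∣[2] γ = Ψ (γ₁₀, γ₁₁)` for all `γ` by induction on words in `S, T`; the only
arithmetic input `G j := ∑ h, e(j t h / p) = -p` (`p ∤ j`) follows for `j = 1` from `(ST)³ = -1` and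
`Θ 0 ≠ 0` (Milgram), and for general `j` from the irreducibility of the cyclotomic polynomial.
-/
import Mathlib

set_option autoImplicit false
set_option linter.unusedSectionVars false

noncomputable section

namespace Fermat.Agent.S16.LB.Weil

open UpperHalfPlane ModularGroup Matrix.SpecialLinearGroup Finset
open scoped MatrixGroups ModularForm

variable {p : ℕ} [hp : Fact p.Prime] {D : Type} [Fintype D] [AddCommGroup D]

/-! ### The finite quadratic module -/

section Algebra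

variable (t : D → ZMod p) (b : D → D → ZMod p)
  (hb_add : ∀ x y z, b (x + y) z = b x z + b y z) (hb_symm : ∀ x y, b x y = b y x)
  (ht_add : ∀ x y, t (x + y) = t x + t y + b x y) (ht_neg : ∀ x, t (-x) = t x)

include hb_add in
theorem b_zero_left (z : D) : b 0 z = 0 := by
  have h := hb_add 0 0 z
  rw [add_zero] at h
  exact left_eq_add.1 h

include hb_add hb_symm in
theorem b_add_right (x y z : D) : b x (y + z) = b x y + b x z := by
  rw [hb_symm, hb_add, hb_symm y, hb_symm z]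

include hb_add hb_symm in
theorem b_zero_right (x : D) : b x 0 = 0 := by
  rw [hb_symm, b_zero_left b hb_add]

include hb_add hb_symm in
theorem b_neg_right (x y : D) : b x (-y) = -b x y := by
  have h := b_add_right b hb_add hb_symm x y (-y)
  rw [add_neg_cancel, b_zero_right b hb_add hb_symm] at h
  exact eq_neg_of_add_eq_zero_right h.symm

include hb_add ht_add in
theorem t_zero : t 0 = 0 := by
  have h := ht_add 0 0
  rw [add_zero, b_zero_left b hb_add, add_zero] at h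
  exact left_eq_add.1 h

include hb_add hb_symm ht_add ht_neg in
theorem b_self (x : D) : b x x = 2 * t x := by
  have h := ht_add x (-x)
  rw [add_neg_cancel, t_zero t b hb_add ht_add, ht_neg, b_neg_right b hb_add hb_symm] at h
  linear_combination h

include hb_add in
theorem b_nsmul_left (n : ℕ) (x y : D) : b (n • x) y = n * b x y := by
  induction n with
  | zero => simp [b_zero_left b hb_add]
  | succ n ih => rw [succ_nsmul, hb_add, ih]; push_cast; ring

include hb_add hb_symm in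
theorem b_nsmul_right (n : ℕ) (x y : D) : b x (n • y) = n * b x y := by
  rw [hb_symm, b_nsmul_left b hb_add, hb_symm]

include hb_add hb_symm ht_add ht_neg in
theorem t_nsmul (n : ℕ) (x : D) : t (n • x) = (n : ZMod p) ^ 2 * t x := by
  induction n with
  | zero => simp [t_zero t b hb_add ht_add]
  | succ n ih =>
    rw [succ_nsmul, ht_add, ih, b_nsmul_left b hb_add, b_self t b hb_add hb_symm ht_add ht_neg]
    push_cast; ring

/-- The Gauss sum `G j = ∑ h, e(j t(h) / p)`. -/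
def gauss (j : ZMod p) : ℂ := ∑ h : D, ZMod.stdAddChar (j * t h)

include hb_add hb_symm ht_add ht_neg in
/-- Completing the square. -/
theorem sum_char_sub (j : ZMod p) (hj : j ≠ 0) (k : D) :
    ∑ g : D, ZMod.stdAddChar (j * t g - b g k) = ZMod.stdAddChar (-(j⁻¹ * t k)) * gauss t j := by
  have hjn : j * ((j⁻¹).val : ZMod p) = 1 := by
    rw [ZMod.natCast_zmod_val, mul_inv_cancel₀ hj]
  set n : ℕ := (j⁻¹).val with hn
  have hn' : (n : ZMod p) = j⁻¹ := ZMod.natCast_zmod_val _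
  rw [← Equiv.sum_comp (Equiv.addRight (n • k)), gauss, mul_sum]
  refine sum_congr rfl fun g _ => ?_
  rw [← AddChar.map_add_eq_mul]
  congr 1
  simp only [Equiv.coe_addRight]
  rw [ht_add, hb_add, t_nsmul t b hb_add hb_symm ht_add ht_neg, b_nsmul_right b hb_add hb_symm,
    b_nsmul_left b hb_add, b_self t b hb_add hb_symm ht_add ht_neg, ← hn']
  linear_combination (n * t k + b g k) * hjn

include hb_add hb_symm in
/-- Orthogonality of the characters `g ↦ e(b h g / p)`. -/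
theorem sum_char_b (hnd : ∀ x, x ≠ 0 → ∃ y, b x y ≠ 0) (h : D) [DecidableEq D] :
    ∑ g : D, ZMod.stdAddChar (-(b h g)) = if h = 0 then (Fintype.card D : ℂ) else 0 := by
  split_ifs with h0
  · subst h0
    simp [b_zero_left b hb_add]
  · obtain ⟨y, hy⟩ := hnd h h0
    have h1 : ZMod.stdAddChar (-(b h y)) ≠ 1 := by
      intro h2
      rw [← (ZMod.stdAddChar (N := p)).map_zero_eq_one] at h2
      exact hy (neg_eq_zero.1 (ZMod.injective_stdAddChar h2))
    have h2 : ∑ g : D, ZMod.stdAddChar (-(b h g)) = ZMod.stdAddChar (-(b h y)) * ∑ g : D, ZMod.stdAddChar (-(b h g)) := by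
      have h2a : ∑ g : D, ZMod.stdAddChar (-(b h (g + y))) = ∑ g : D, ZMod.stdAddChar (-(b h g)) :=
        Equiv.sum_comp (Equiv.addRight y) (fun g => ZMod.stdAddChar (-(b h g)))
      refine h2a.symm.trans ?_
      rw [mul_sum]
      refine sum_congr rfl fun g _ => ?_
      rw [← AddChar.map_add_eq_mul]
      congr 1
      rw [b_add_right b hb_add hb_symm]
      ring
    have h3 : (1 - ZMod.stdAddChar (-(b h y))) * ∑ g : D, ZMod.stdAddChar (-(b h g)) = 0 := by
      rw [sub_mul, one_mul, ← h2, sub_self]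
    rcases mul_eq_zero.1 h3 with h4 | h4
    · exact absurd (sub_eq_zero.1 h4).symm h1
    · exact h4

end Algebra

/-! ### Slash computations -/

section Slash

variable (t : D → ZMod p) (b : D → D → ZMod p) (Θ : D → ℍ → ℂ)

theorem sum_smul_slash (a : D → ℂ) (γ : SL(2, ℤ)) :
    (∑ g, a g • Θ g) ∣[(2 : ℤ)] γ = ∑ g, a g • (Θ g ∣[(2 : ℤ)] γ) := by
  rw [SlashAction.sum_slash]
  exact sum_congr rfl fun g _ => ModularForm.SL_smul_slash _ _ _ _

/-- Weight `2` slash by `-1` is trivial. -/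
theorem slash_neg_one' (f : ℍ → ℂ) : f ∣[(2 : ℤ)] (-1 : SL(2, ℤ)) = f := by
  ext z
  rw [ModularForm.SL_slash_apply, ModularGroup.SL_neg_smul, one_smul]
  have h : denom ((-1 : SL(2, ℤ)) : GL (Fin 2) ℝ) z = -1 := by
    simp [denom]
  rw [h]
  norm_num

/-- The translates of `Θ 0`, indexed by the bottom row mod `p`. -/
def Psi (c d : ZMod p) : ℍ → ℂ :=
  if c = 0 then Θ 0 else (-(p : ℂ)⁻¹) • ∑ g : D, ZMod.stdAddChar (d * c⁻¹ * t g) • Θ g

variable (hb_add : ∀ x y z, b (x + y) z = b x z + b y z) (hb_symm : ∀ x y, b x y = b y x)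
  (ht_add : ∀ x y, t (x + y) = t x + t y + b x y) (ht_neg : ∀ x, t (-x) = t x)
  (hT : ∀ h, Θ h ∣[(2 : ℤ)] ModularGroup.T = ZMod.stdAddChar (t h) • Θ h)
  (hS : ∀ h, Θ h ∣[(2 : ℤ)] ModularGroup.S = (-(p : ℂ)⁻¹) • ∑ g : D, ZMod.stdAddChar (-(b h g)) • Θ g)

include hb_add ht_add hT in
theorem Psi_slash_T (c d : ZMod p) : Psi t Θ c d ∣[(2 : ℤ)] ModularGroup.T = Psi t Θ c (c + d) := by
  unfold Psi
  split_ifs with hc
  · rw [hT, t_zero t b hb_add ht_add, AddChar.map_zero_eq_one, one_smul]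
  · rw [ModularForm.SL_smul_slash, sum_smul_slash]
    congr 1
    refine sum_congr rfl fun g _ => ?_
    rw [hT, smul_smul, ← AddChar.map_add_eq_mul]
    congr 2
    field_simp
    ring

include hS in
theorem sum_slash_S (a : D → ℂ) :
    (∑ g, a g • Θ g) ∣[(2 : ℤ)] ModularGroup.S =
      (-(p : ℂ)⁻¹) • ∑ k : D, (∑ g : D, a g * ZMod.stdAddChar (-(b g k))) • Θ k := by
  rw [sum_smul_slash]
  simp_rw [hS, smul_comm _ (-(p : ℂ)⁻¹), ← smul_sum]
  congr 1
  simp_rw [smul_sum, smul_smul]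
  rw [sum_comm]
  refine sum_congr rfl fun k _ => ?_
  rw [sum_smul]

variable (hnd : ∀ x, x ≠ 0 → ∃ y, b x y ≠ 0) (hcard : Fintype.card D = p ^ 2)

include hb_add hb_symm ht_add ht_neg hS hnd hcard in
/-- The `S`-translate of `Ψ (c, d)` is a multiple of `Ψ (d, -c)`; the multiple is `1` unless
`c d ≠ 0`, when it is `-G(d/c)/p`. -/
theorem Psi_slash_S (c d : ZMod p) (hcd : c ≠ 0 ∨ d ≠ 0) :
    Psi t Θ c d ∣[(2 : ℤ)] ModularGroup.S =
      (if c = 0 ∨ d = 0 then 1 else -(p : ℂ)⁻¹ * gauss t (d * c⁻¹)) • Psi t Θ d (-c) := by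
  classical
  have hp0 : (p : ℂ) ≠ 0 := Nat.cast_ne_zero.2 hp.out.ne_zero
  by_cases hc : c = 0
  · -- `Θ 0 ∣ S`
    have hd : d ≠ 0 := by tauto
    subst hc
    rw [if_pos (Or.inl rfl), one_smul]
    unfold Psi
    rw [if_pos rfl, if_neg hd, hS]
    congr 1
    refine sum_congr rfl fun g _ => ?_
    rw [b_zero_left b hb_add, neg_zero, zero_mul, zero_mul]
  · by_cases hd : d = 0
    · subst hd
      rw [if_pos (Or.inr rfl), one_smul]
      unfold Psi
      rw [if_neg hc, if_pos rfl, ModularForm.SL_smul_slash, sum_slash_S b Θ hS, smul_smul]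
      have h1 : ∀ k : D, (∑ g : D, ZMod.stdAddChar (0 * c⁻¹ * t g) * ZMod.stdAddChar (-(b g k))) =
          if k = 0 then (Fintype.card D : ℂ) else 0 := by
        intro k
        rw [← sum_char_b b hb_add hb_symm hnd k]
        refine sum_congr rfl fun g _ => ?_
        rw [zero_mul, zero_mul, AddChar.map_zero_eq_one, one_mul, hb_symm]
      simp_rw [h1, ite_smul, zero_smul]
      rw [sum_ite_eq' univ (0 : D), if_pos (mem_univ _), hcard, smul_smul]
      have h2 : -(p : ℂ)⁻¹ * -(p : ℂ)⁻¹ * ((p ^ 2 : ℕ) : ℂ) = 1 := by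
        push_cast
        field_simp
      rw [h2, one_smul]
    · have hj : d * c⁻¹ ≠ 0 := mul_ne_zero hd (inv_ne_zero hc)
      rw [if_neg (by tauto)]
      unfold Psi
      rw [if_neg hc, if_neg hd, ModularForm.SL_smul_slash, sum_slash_S b Θ hS, smul_smul,
        smul_smul]
      have h1 : ∀ k : D, (∑ g : D, ZMod.stdAddChar (d * c⁻¹ * t g) * ZMod.stdAddChar (-(b g k))) =
          gauss t (d * c⁻¹) * ZMod.stdAddChar (-c * d⁻¹ * t k) := by
        intro k
        calc (∑ g : D, ZMod.stdAddChar (d * c⁻¹ * t g) * ZMod.stdAddChar (-(b g k)))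
            = ∑ g : D, ZMod.stdAddChar (d * c⁻¹ * t g - b g k) :=
              sum_congr rfl fun g _ => by rw [← AddChar.map_add_eq_mul, sub_eq_add_neg]
          _ = ZMod.stdAddChar (-((d * c⁻¹)⁻¹ * t k)) * gauss t (d * c⁻¹) :=
              sum_char_sub t b hb_add hb_symm ht_add ht_neg _ hj k
          _ = gauss t (d * c⁻¹) * ZMod.stdAddChar (-c * d⁻¹ * t k) := by
              rw [mul_comm]
              congr 2
              rw [mul_inv, inv_inv]
              ring
      have h2 : ∑ k : D, (∑ g : D, ZMod.stdAddChar (d * c⁻¹ * t g) *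
          ZMod.stdAddChar (-(b g k))) • Θ k =
          gauss t (d * c⁻¹) • ∑ k : D, ZMod.stdAddChar (-c * d⁻¹ * t k) • Θ k := by
        rw [smul_sum]
        refine sum_congr rfl fun k _ => ?_
        rw [h1 k, mul_smul]
      rw [h2, smul_smul]
      congr 1
      ring

end Slash

/-! ### The cyclotomic argument: `G(1) ∈ ℚ` forces `G(j) = G(1)` -/

section Cyclotomic

open Polynomial

theorem sum_stdAddChar_mul (j : ZMod p) (hj : j ≠ 0) :
    ∑ s : ZMod p, (ZMod.stdAddChar (j * s) : ℂ) = 0 := by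
  have h1 : ∑ s : ZMod p, (ZMod.stdAddChar (j * s) : ℂ) = ∑ s : ZMod p, (ZMod.stdAddChar s : ℂ) :=
    Equiv.sum_comp (Equiv.mulLeft₀ j hj) (fun s => (ZMod.stdAddChar s : ℂ))
  rw [h1]
  refine AddChar.sum_eq_zero_of_ne_one ?_
  intro h
  have h2 := DFunLike.congr_fun h (1 : ZMod p)
  rw [AddChar.one_apply, ← (ZMod.stdAddChar (N := p)).map_zero_eq_one] at h2
  exact one_ne_zero (ZMod.injective_stdAddChar h2)

theorem stdAddChar_eq_pow (s : ZMod p) :
    (ZMod.stdAddChar s : ℂ) = ZMod.stdAddChar (1 : ZMod p) ^ s.val := by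
  rw [← AddChar.map_nsmul_eq_pow, nsmul_one, ZMod.natCast_zmod_val]

theorem isPrimitiveRoot_stdAddChar_one :
    IsPrimitiveRoot (ZMod.stdAddChar (1 : ZMod p) : ℂ) p := by
  have h := ZMod.stdAddChar_coe (N := p) 1
  rw [Int.cast_one] at h
  rw [h]
  have h2 := Complex.isPrimitiveRoot_exp p hp.out.ne_zero
  convert h2 using 2
  push_cast
  ring

/-- A rational linear relation between the `p`-th roots of unity has constant coefficients. -/
theorem const_of_sum_eq_zero (c : ZMod p → ℚ)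
    (h : ∑ s : ZMod p, (c s : ℂ) * ZMod.stdAddChar s = 0) (s : ZMod p) : c s = c 0 := by
  classical
  set ζ : ℂ := ZMod.stdAddChar (1 : ZMod p) with hζ
  have hprim : IsPrimitiveRoot ζ p := isPrimitiveRoot_stdAddChar_one
  set P : ℚ[X] := ∑ s : ZMod p, C (c s) * X ^ s.val with hP
  have haeval : aeval ζ P = 0 := by
    rw [hP, map_sum, ← h]
    refine sum_congr rfl fun s _ => ?_
    rw [map_mul, aeval_C, map_pow, aeval_X, stdAddChar_eq_pow s]
    rfl
  have hdeg : P.degree ≤ ((p - 1 : ℕ) : WithBot ℕ) := by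
    refine (degree_sum_le _ _).trans (Finset.sup_le fun s _ => ?_)
    refine (degree_C_mul_X_pow_le _ _).trans ?_
    have := ZMod.val_lt s
    exact_mod_cast Nat.le_sub_one_of_lt this
  have hmin : cyclotomic p ℚ = minpoly ℚ ζ :=
    cyclotomic_eq_minpoly_rat hprim hp.out.pos
  obtain ⟨Q, hQ⟩ : cyclotomic p ℚ ∣ P := hmin ▸ minpoly.dvd ℚ ζ haeval
  have hcoeff : ∀ s : ZMod p, P.coeff s.val = c s := by
    intro s
    rw [hP, finsetSum_coeff]
    rw [Finset.sum_eq_single s]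
    · rw [coeff_C_mul, coeff_X_pow, if_pos rfl, mul_one]
    · intro s' _ hs'
      rw [coeff_C_mul, coeff_X_pow, if_neg, mul_zero]
      intro h'
      exact hs' (ZMod.val_injective p h'.symm)
    · intro h'; exact absurd (mem_univ _) h'
  have hQC : ∃ a : ℚ, Q = C a := by
    by_cases hQ0 : Q = 0
    · exact ⟨0, by rw [hQ0, map_zero]⟩
    · refine ⟨Q.coeff 0, eq_C_of_degree_le_zero ?_⟩
      have h1 : P.degree = (cyclotomic p ℚ).degree + Q.degree := by rw [hQ, degree_mul]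
      rw [degree_cyclotomic, Nat.totient_prime hp.out] at h1
      rw [h1] at hdeg
      have hQd : Q.degree = (Q.natDegree : WithBot ℕ) := degree_eq_natDegree hQ0
      rw [hQd] at hdeg ⊢
      have : (p - 1) + Q.natDegree ≤ p - 1 := by exact_mod_cast hdeg
      have : Q.natDegree = 0 := by omega
      rw [this]
      rfl
  obtain ⟨a, rfl⟩ := hQC
  have hall : ∀ s : ZMod p, c s = a := by
    intro s
    rw [← hcoeff s, hQ, cyclotomic_prime, mul_comm, coeff_C_mul, finsetSum_coeff]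
    rw [Finset.sum_eq_single s.val]
    · rw [coeff_X_pow, if_pos rfl, mul_one]
    · intro i _ hi
      rw [coeff_X_pow, if_neg (fun h' => hi h'.symm)]
    · intro h'
      exact absurd (Finset.mem_range.2 (ZMod.val_lt s)) h'
  rw [hall s, hall 0]

variable (t : D → ZMod p)

/-- **`G(1) = -p` implies `G(j) = -p` for all `j ≠ 0`.** -/
theorem gauss_eq_of_gauss_one (h1 : gauss t 1 = -(p : ℂ)) (j : ZMod p) (hj : j ≠ 0) :
    gauss t j = -(p : ℂ) := by
  classical
  -- fibre counts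
  set N : ZMod p → ℕ := fun s => (univ.filter fun h : D => t h = s).card with hN
  have hfib : ∀ j : ZMod p, gauss t j = ∑ s : ZMod p, (N s : ℂ) * ZMod.stdAddChar (j * s) := by
    intro j
    unfold gauss
    rw [← Finset.sum_fiberwise univ t]
    refine sum_congr rfl fun s _ => ?_
    rw [Finset.sum_congr rfl (g := fun _ => (ZMod.stdAddChar (j * s) : ℂ))
      (fun h hh => by rw [(Finset.mem_filter.1 hh).2])]
    rw [Finset.sum_const, nsmul_eq_mul]
  set c : ZMod p → ℚ := fun s => (N s : ℚ) + if s = 0 then (p : ℚ) else 0 with hc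
  have hc0 : c 0 = (N 0 : ℚ) + p := by simp [hc]
  have hcs : ∀ s : ZMod p, s ≠ 0 → c s = N s := by
    intro s hs
    simp [hc, hs]
  have hrel : ∑ s : ZMod p, (c s : ℂ) * ZMod.stdAddChar s = 0 := by
    have h2 : ∀ s : ZMod p, (c s : ℂ) * ZMod.stdAddChar s =
        (N s : ℂ) * ZMod.stdAddChar (1 * s) + if s = 0 then (p : ℂ) else 0 := by
      intro s
      rw [one_mul]
      by_cases hs : s = 0
      · subst hs
        rw [hc0, if_pos rfl, AddChar.map_zero_eq_one]
        push_cast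
        ring
      · rw [hcs s hs, if_neg hs, add_zero]
        push_cast
        ring
    simp_rw [h2]
    rw [Finset.sum_add_distrib, ← hfib 1, h1, Finset.sum_ite_eq' univ (0 : ZMod p),
      if_pos (mem_univ _)]
    ring
  have hconst := const_of_sum_eq_zero c hrel
  have h3 : ∀ s : ZMod p, (N s : ℂ) = (c 0 : ℂ) - if s = 0 then (p : ℂ) else 0 := by
    intro s
    by_cases hs : s = 0
    · subst hs
      rw [hc0, if_pos rfl]
      push_cast
      ring
    · rw [← hconst s, hcs s hs, if_neg hs, sub_zero]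
      push_cast
      ring
  rw [hfib j]
  simp_rw [h3, sub_mul, Finset.sum_sub_distrib, ite_mul, zero_mul]
  rw [← Finset.mul_sum, sum_stdAddChar_mul j hj, mul_zero, Finset.sum_ite_eq' univ (0 : ZMod p),
    if_pos (mem_univ _), mul_zero, AddChar.map_zero_eq_one, mul_one, zero_sub]

end Cyclotomic

/-! ### Milgram's formula and the main induction -/

section Main

variable (t : D → ZMod p) (b : D → D → ZMod p) (Θ : D → ℍ → ℂ)
  (hb_add : ∀ x y z, b (x + y) z = b x z + b y z) (hb_symm : ∀ x y, b x y = b y x)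
  (ht_add : ∀ x y, t (x + y) = t x + t y + b x y) (ht_neg : ∀ x, t (-x) = t x)
  (hnd : ∀ x, x ≠ 0 → ∃ y, b x y ≠ 0) (hcard : Fintype.card D = p ^ 2)
  (hT : ∀ h, Θ h ∣[(2 : ℤ)] ModularGroup.T = ZMod.stdAddChar (t h) • Θ h)
  (hS : ∀ h, Θ h ∣[(2 : ℤ)] ModularGroup.S =
    (-(p : ℂ)⁻¹) • ∑ g : D, ZMod.stdAddChar (-(b h g)) • Θ g)

include hb_add hb_symm ht_add ht_neg hnd hcard hT hS in
/-- **Milgram's formula** `G(1) = -p`, from `(ST)³ = -1`. -/
theorem gauss_one (h0 : Θ 0 ≠ 0) : gauss t 1 = -(p : ℂ) := by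
  have hp0 : (p : ℂ) ≠ 0 := Nat.cast_ne_zero.2 hp.out.ne_zero
  have h10 : (1 : ZMod p) ≠ 0 := one_ne_zero
  have hS' := Psi_slash_S t b Θ hb_add hb_symm ht_add ht_neg hS hnd hcard
  have hT' := Psi_slash_T t b Θ hb_add ht_add hT
  have hΨ : ∀ d : ZMod p, Psi t Θ 0 d = Θ 0 := fun d => by unfold Psi; rw [if_pos rfl]
  have e1 : Psi t Θ 0 1 ∣[(2 : ℤ)] ModularGroup.S = Psi t Θ 1 0 := by
    rw [hS' 0 1 (Or.inr h10), if_pos (Or.inl rfl), one_smul, neg_zero]
  have e2 : Psi t Θ 1 0 ∣[(2 : ℤ)] ModularGroup.T = Psi t Θ 1 1 := by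
    rw [hT', add_zero]
  have e3 : Psi t Θ 1 1 ∣[(2 : ℤ)] ModularGroup.S =
      (-(p : ℂ)⁻¹ * gauss t 1) • Psi t Θ 1 (-1) := by
    rw [hS' 1 1 (Or.inl h10), if_neg (by simp), inv_one, mul_one]
  have e4 : Psi t Θ 1 (-1) ∣[(2 : ℤ)] ModularGroup.T = Psi t Θ 1 0 := by
    rw [hT', add_neg_cancel]
  have e5 : Psi t Θ 1 0 ∣[(2 : ℤ)] ModularGroup.S = Psi t Θ 0 (-1) := by
    rw [hS' 1 0 (Or.inl h10), if_pos (Or.inr rfl), one_smul]
  have e6 : Psi t Θ 0 (-1) ∣[(2 : ℤ)] ModularGroup.T = Psi t Θ 0 (0 + -1) := hT' 0 (-1)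
  have key : Θ 0 ∣[(2 : ℤ)] (ModularGroup.S * ModularGroup.T * ModularGroup.S * ModularGroup.T *
      ModularGroup.S * ModularGroup.T) = (-(p : ℂ)⁻¹ * gauss t 1) • Θ 0 := by
    simp only [SlashAction.slash_mul]
    rw [← hΨ 1, e1, e2, e3, ModularForm.SL_smul_slash, e4, ModularForm.SL_smul_slash, e5,
      ModularForm.SL_smul_slash, e6, hΨ, hΨ]
  have hneg : ModularGroup.S * ModularGroup.T * ModularGroup.S * ModularGroup.T *
      ModularGroup.S * ModularGroup.T = (-1 : SL(2, ℤ)) := by decide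
  rw [hneg, slash_neg_one'] at key
  obtain ⟨z, hz⟩ : ∃ z, Θ 0 z ≠ 0 := by
    by_contra hcon
    push Not at hcon
    exact h0 (funext hcon)
  have h2 := congrFun key z
  rw [Pi.smul_apply, smul_eq_mul] at h2
  have h3 : -(p : ℂ)⁻¹ * gauss t 1 = 1 := by
    have h4 : (-(p : ℂ)⁻¹ * gauss t 1 - 1) * Θ 0 z = 0 := by
      rw [sub_mul, one_mul, ← h2, sub_self]
    rcases mul_eq_zero.1 h4 with h5 | h5
    · exact sub_eq_zero.1 h5
    · exact absurd h5 hz
  have h6 : gauss t 1 = -(p : ℂ) * (-(p : ℂ)⁻¹ * gauss t 1) := by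
    field_simp
  rw [h6, h3, mul_one]

include hb_add hb_symm ht_add ht_neg hnd hcard hT hS in
/-- With all Gauss sums equal to `-p`, `S` permutes the `Ψ`'s. -/
theorem Psi_slash_S' (h0 : Θ 0 ≠ 0) (c d : ZMod p) (hcd : c ≠ 0 ∨ d ≠ 0) :
    Psi t Θ c d ∣[(2 : ℤ)] ModularGroup.S = Psi t Θ d (-c) := by
  have hp0 : (p : ℂ) ≠ 0 := Nat.cast_ne_zero.2 hp.out.ne_zero
  rw [Psi_slash_S t b Θ hb_add hb_symm ht_add ht_neg hS hnd hcard c d hcd]
  split_ifs with h
  · rw [one_smul]
  · push Not at h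
    rw [gauss_eq_of_gauss_one t
      (gauss_one t b Θ hb_add hb_symm ht_add ht_neg hnd hcard hT hS h0) _
      (mul_ne_zero h.2 (inv_ne_zero h.1))]
    have : -(p : ℂ)⁻¹ * -(p : ℂ) = 1 := by field_simp
    rw [this, one_smul]

/-- The bottom row of `γ ∈ SL(2, ℤ)` is nonzero mod `p`. -/
theorem bottom_ne_zero (γ : SL(2, ℤ)) :
    ((γ 1 0 : ℤ) : ZMod p) ≠ 0 ∨ ((γ 1 1 : ℤ) : ZMod p) ≠ 0 := by
  by_contra hcon
  push Not at hcon
  have hdet := Matrix.SpecialLinearGroup.det_coe γ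
  rw [Matrix.det_fin_two] at hdet
  have h2 := congrArg (fun x : ℤ => (x : ZMod p)) hdet
  simp only [Int.cast_sub, Int.cast_mul, Int.cast_one, hcon.1, hcon.2, mul_zero, sub_zero] at h2
  exact zero_ne_one h2

theorem slash_right_injective (γ : SL(2, ℤ)) {f g : ℍ → ℂ}
    (h : f ∣[(2 : ℤ)] γ = g ∣[(2 : ℤ)] γ) : f = g := by
  have h2 := congrArg (fun F => F ∣[(2 : ℤ)] γ⁻¹) h
  simp only [← SlashAction.slash_mul, mul_inv_cancel, SlashAction.slash_one] at h2
  exact h2

theorem mul_S_one_zero (x : SL(2, ℤ)) : (x * ModularGroup.S) 1 0 = x 1 1 := by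
  simp [Matrix.SpecialLinearGroup.coe_mul, Matrix.mul_apply, Fin.sum_univ_two, ModularGroup.coe_S]

theorem mul_S_one_one (x : SL(2, ℤ)) : (x * ModularGroup.S) 1 1 = -x 1 0 := by
  simp [Matrix.SpecialLinearGroup.coe_mul, Matrix.mul_apply, Fin.sum_univ_two, ModularGroup.coe_S]

theorem mul_T_one_zero (x : SL(2, ℤ)) : (x * ModularGroup.T) 1 0 = x 1 0 := by
  simp [Matrix.SpecialLinearGroup.coe_mul, Matrix.mul_apply, Fin.sum_univ_two, ModularGroup.coe_T]

theorem mul_T_one_one (x : SL(2, ℤ)) : (x * ModularGroup.T) 1 1 = x 1 0 + x 1 1 := by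
  simp [Matrix.SpecialLinearGroup.coe_mul, Matrix.mul_apply, Fin.sum_univ_two, ModularGroup.coe_T]

include hb_add hb_symm ht_add ht_neg hnd hcard hT hS in
/-- **Every `SL(2, ℤ)`-translate of `Θ 0`** is the `Ψ` of its bottom row mod `p`. -/
theorem slash_eq_Psi (h0 : Θ 0 ≠ 0) (γ : SL(2, ℤ)) :
    Θ 0 ∣[(2 : ℤ)] γ = Psi t Θ ((γ 1 0 : ℤ) : ZMod p) ((γ 1 1 : ℤ) : ZMod p) := by
  have hS' := Psi_slash_S' t b Θ hb_add hb_symm ht_add ht_neg hnd hcard hT hS h0
  have hT' := Psi_slash_T t b Θ hb_add ht_add hT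
  have hmem : γ ∈ Subgroup.closure ({ModularGroup.S, ModularGroup.T} : Set SL(2, ℤ)) := by
    rw [_root_.SpecialLinearGroup.SL2Z_generators]; exact Subgroup.mem_top _
  induction hmem using Subgroup.closure_induction_right with
  | one =>
    rw [SlashAction.slash_one]
    unfold Psi
    simp
  | mul_right x hx y hy ih =>
    rw [SlashAction.slash_mul, ih]
    rcases hy with rfl | rfl
    · rw [hS' _ _ (bottom_ne_zero x), mul_S_one_zero, mul_S_one_one, Int.cast_neg]
    · rw [hT', mul_T_one_zero, mul_T_one_one, Int.cast_add]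
  | mul_inv_cancel x hx y hy ih =>
    rcases hy with rfl | rfl
    · -- `Ψ (c, d) ∣ S⁻¹ = Ψ (-d, c)`
      set x' := x * ModularGroup.S⁻¹ with hx'
      have hxx : x = x' * ModularGroup.S := by rw [hx', inv_mul_cancel_right]
      have e0 : (x 1 0 : ℤ) = x' 1 1 := by rw [hxx, mul_S_one_zero]
      have e1 : (x 1 1 : ℤ) = -x' 1 0 := by rw [hxx, mul_S_one_one]
      have h1 := hS' ((x' 1 0 : ℤ) : ZMod p) ((x' 1 1 : ℤ) : ZMod p) (bottom_ne_zero x')
      refine slash_right_injective ModularGroup.S ?_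
      rw [← SlashAction.slash_mul, ← hxx, ih, h1, e0, e1, Int.cast_neg]
    · set x' := x * ModularGroup.T⁻¹ with hx'
      have hxx : x = x' * ModularGroup.T := by rw [hx', inv_mul_cancel_right]
      have e0 : (x 1 0 : ℤ) = x' 1 0 := by rw [hxx, mul_T_one_zero]
      have e1 : (x 1 1 : ℤ) = x' 1 0 + x' 1 1 := by rw [hxx, mul_T_one_one]
      have h1 := hT' ((x' 1 0 : ℤ) : ZMod p) ((x' 1 1 : ℤ) : ZMod p)
      refine slash_right_injective ModularGroup.T ?_
      rw [← SlashAction.slash_mul, ← hxx, ih, h1, e0, e1, Int.cast_add]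

end Main

/-! ### The theorem -/

/-- **`Θ 0` is a weight-`2` invariant of `Γ₀(p)`**, every `SL(2, ℤ)`-translate of `Θ 0` is a linear
combination of the `Θ g`, and `Θ 0 ∣[2] S = -(1/p) ∑ g, Θ g` — from the transformation laws of the
family `Θ` under `S` and `T` alone. -/
theorem slash_theta_zero (t : D → ZMod p) (b : D → D → ZMod p)
    (hb_add : ∀ x y z, b (x + y) z = b x z + b y z) (hb_symm : ∀ x y, b x y = b y x)
    (ht_add : ∀ x y, t (x + y) = t x + t y + b x y) (ht_neg : ∀ x, t (-x) = t x)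
    (hnd : ∀ x, x ≠ 0 → ∃ y, b x y ≠ 0) (hcard : Fintype.card D = p ^ 2)
    (Θ : D → ℍ → ℂ)
    (hT : ∀ h, Θ h ∣[(2 : ℤ)] ModularGroup.T = ZMod.stdAddChar (t h) • Θ h)
    (hS : ∀ h, Θ h ∣[(2 : ℤ)] ModularGroup.S =
      (-(p : ℂ)⁻¹) • ∑ g : D, ZMod.stdAddChar (-(b h g)) • Θ g)
    (h0 : Θ 0 ≠ 0) :
    (∀ γ ∈ CongruenceSubgroup.Gamma0 p, Θ 0 ∣[(2 : ℤ)] γ = Θ 0) ∧
      (∀ γ : SL(2, ℤ), ∃ c : D → ℂ, Θ 0 ∣[(2 : ℤ)] γ = ∑ g : D, c g • Θ g) ∧
      Θ 0 ∣[(2 : ℤ)] ModularGroup.S = (-(p : ℂ)⁻¹) • ∑ g : D, Θ g := by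
  classical
  have key := slash_eq_Psi t b Θ hb_add hb_symm ht_add ht_neg hnd hcard hT hS h0
  refine ⟨fun γ hγ => ?_, fun γ => ?_, ?_⟩
  · rw [key γ]
    unfold Psi
    rw [if_pos (CongruenceSubgroup.Gamma0_mem.1 hγ)]
  · rw [key γ]
    unfold Psi
    split_ifs with hc
    · refine ⟨fun g => if g = 0 then 1 else 0, ?_⟩
      simp_rw [ite_smul, one_smul, zero_smul]
      rw [Finset.sum_ite_eq' univ (0 : D), if_pos (mem_univ _)]
    · refine ⟨fun g => -(p : ℂ)⁻¹ * ZMod.stdAddChar (((γ 1 1 : ℤ) : ZMod p) *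
        ((γ 1 0 : ℤ) : ZMod p)⁻¹ * t g), ?_⟩
      rw [Finset.smul_sum]
      exact sum_congr rfl fun g _ => (smul_smul _ _ _)
  · rw [hS 0]
    congr 1
    refine sum_congr rfl fun g _ => ?_
    rw [b_zero_left b hb_add, neg_zero, AddChar.map_zero_eq_one, one_smul]

end Fermat.Agent.S16.LB.Weil
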