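/-
E-LB-dg adapter (helper16): the facts of `LB/DiscForm.lean` restated in the hypothesis shapes of
the generic theta files (section `s`, bijection `e (g, x) = s g + A x`, `b` from `B` on the
section, sign symmetry, and the `(T)` input over `ℝ`).
-/
import Fermat.Agent.S16.LB.DiscForm
import Fermat.Agent.S16.LB.ThetaFun
import Fermat.Agent.S16.LB.ThetaS
import Fermat.Agent.S16.LB.Weil

set_option autoImplicit false
set_option linter.unusedSectionVars false

namespace Fermat.Agent.S16.LB.DiscAdapter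

open scoped Matrix
open Fermat.Agent.S16.QuatLattice Fermat.Agent.S16.LB.DiscForm

variable {p : ℕ} [Fact p.Prime] {m r s : ℤ}

/-- The section `s : D → ℤ⁴` of `ℤ⁴ → ℤ⁴ / A ℤ⁴ ≃ D`. -/
def sec (p : ℕ) (m : ℤ) : D p → Fin 4 → ℤ := wD p m

/-- The bijection `D × ℤ⁴ ≃ ℤ⁴`, `(g, x) ↦ s g + A x`. -/
noncomputable def eqv (h : (4 * m - 1) * s = r ^ 2 + p)
    (hq : ((4 * m - 1 : ℤ) : ZMod p) ≠ 0) : D p × (Fin 4 → ℤ) ≃ (Fin 4 → ℤ) :=
  (regroup h hq).symm

theorem eqv_apply (h : (4 * m - 1) * s = r ^ 2 + p) (hq : ((4 * m - 1 : ℤ) : ZMod p) ≠ 0)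
    (g : D p) (x : Fin 4 → ℤ) :
    eqv h hq (g, x) = sec p m g + (gram p m r s).mulVec x := by
  rw [eqv, regroup_symm_apply, add_comm]; rfl

theorem gramDual_mulVec_sec (g : D p) :
    (gramDual m r s).mulVec (sec p m g) = liftD p m r g :=
  gramDual_mulVec_wD p m r s g

/-- `s g ⬝ B (s g') = P(g, g')` over `ℤ`. -/
theorem sec_dotProduct (g g' : D p) :
    sec p m g ⬝ᵥ (gramDual m r s).mulVec (sec p m g') =
      P m (g.1.val : ℤ) (g.2.val : ℤ) (g'.1.val : ℤ) (g'.2.val : ℤ) := by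
  rw [gramDual_mulVec_sec]
  simp [sec, wD, wvec, liftD, lift, P, dotProduct, Fin.sum_univ_four]
  ring

/-- `b` is induced by `B` on the section. -/
theorem bform_eq_dot (g g' : D p) :
    bform p m g g' =
      ((sec p m g ⬝ᵥ (gramDual m r s).mulVec (sec p m g') : ℤ) : ZMod p) := by
  rw [sec_dotProduct, intCast_P, intCast_val_eq, intCast_val_eq, intCast_val_eq, intCast_val_eq]

/-- `s g ⬝ B (s g) = 2 T(g)` over `ℤ`. -/
theorem sec_dotProduct_self (g : D p) :
    sec p m g ⬝ᵥ (gramDual m r s).mulVec (sec p m g) =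
      2 * T m (g.1.val : ℤ) (g.2.val : ℤ) := by
  rw [sec_dotProduct]; simp only [P, T]; ring

/-- `2 t` is induced by `B` on the section. -/
theorem two_mul_tform_eq_dot (g : D p) :
    2 * tform p m g =
      ((sec p m g ⬝ᵥ (gramDual m r s).mulVec (sec p m g) : ℤ) : ZMod p) := by
  rw [sec_dotProduct_self]
  push_cast
  rw [intCast_T, intCast_val_eq, intCast_val_eq]

theorem bform_neg_right (g g' : D p) : bform p m g' (-g) = -bform p m g' g := by
  simp only [bform, Prod.fst_neg, Prod.snd_neg]; ring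

theorem bform_neg_left (g g' : D p) : bform p m (-g) g' = -bform p m g g' := by
  simp only [bform, Prod.fst_neg, Prod.snd_neg]; ring

theorem bform_self (g : D p) : bform p m g g = 2 * tform p m g := by
  simp only [bform, tform]; ring

/-- The class vectors `A⁻¹ (s g) = B (s g) / p` over `ℝ`. -/
noncomputable def vec (p : ℕ) (m r s : ℤ) (g : D p) : Fin 4 → ℝ :=
  fun i => (((gramDual m r s).mulVec (sec p m g) i : ℤ) : ℝ) / p

theorem vec_apply (g : D p) (i : Fin 4) :
    vec p m r s g i = ((liftD p m r g i : ℤ) : ℝ) / p := by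
  rw [vec, gramDual_mulVec_sec]

theorem vec_zero : vec p m r s 0 = 0 := by
  ext i; rw [vec_apply, liftD_zero]; simp

/-- **(D4)** `A⁻¹ s(-g) = -A⁻¹ s(g)` up to an integral vector. -/
theorem vec_neg (g : D p) :
    ∃ d : Fin 4 → ℤ, ∀ i, vec p m r s (-g) i = -vec p m r s g i + (d i : ℝ) := by
  obtain ⟨d, hd⟩ := liftD_neg (m := m) (r := r) g
  refine ⟨d, fun i => ?_⟩
  have hp0 : (p : ℝ) ≠ 0 := by exact_mod_cast (Fact.out : p.Prime).ne_zero
  rw [vec_apply, vec_apply, hd]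
  simp only [Pi.add_apply, Pi.neg_apply, Pi.smul_apply, smul_eq_mul]
  push_cast
  field_simp

/-- The real quadratic form `v ↦ vᵀ A v`. -/
noncomputable def qR (p m r s : ℤ) (v : Fin 4 → ℝ) : ℝ :=
  v ⬝ᵥ ((gram p m r s).map (Int.cast : ℤ → ℝ)).mulVec v

theorem qR_intCast (p m r s : ℤ) (y : Fin 4 → ℤ) :
    qR p m r s (fun i => (y i : ℝ)) = 2 * (Q p m r s y : ℝ) := by
  have := dotProduct_gram_mulVec p m r s y
  have h2 : ((y ⬝ᵥ (gram p m r s).mulVec y : ℤ) : ℝ) = 2 * (Q p m r s y : ℝ) := by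
    rw [this]; push_cast; ring
  rw [← h2]
  simp [qR, dotProduct, Matrix.mulVec, Fin.sum_univ_four]

theorem qR_div (p m r s : ℤ) (v : Fin 4 → ℝ) (c : ℝ) :
    qR p m r s (fun i => v i / c) = qR p m r s v / c ^ 2 := by
  simp only [qR, dotProduct, Matrix.mulVec, Fin.sum_univ_four, Matrix.map_apply]
  by_cases hc : c = 0
  · subst hc; simp
  · field_simp

/-- **(D1) over `ℝ`, the input of `(T)`**: for every `n : ℤ⁴`,
`(n + A⁻¹ s g)ᵀ A (n + A⁻¹ s g) = 2 (T(g) / p + integer)`. -/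
theorem qR_add_vec (h : (4 * m - 1) * s = r ^ 2 + p) (g : D p) (n : Fin 4 → ℤ) :
    qR p m r s (fun i => (n i : ℝ) + vec p m r s g i) =
      2 * ((T m (g.1.val : ℤ) (g.2.val : ℤ) : ℝ) / p
        + ((Q p m r s n + n ⬝ᵥ wD p m g : ℤ) : ℝ)) := by
  have hp0 : (p : ℝ) ≠ 0 := by exact_mod_cast (Fact.out : p.Prime).ne_zero
  have h1 : (fun i => (n i : ℝ) + vec p m r s g i) =
      fun i => ((((p : ℤ) • n + liftD p m r g) i : ℤ) : ℝ) / (p : ℝ) := by
    funext i
    rw [vec_apply]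
    simp only [Pi.add_apply, Pi.smul_apply, smul_eq_mul]
    push_cast
    field_simp
  rw [h1, qR_div, qR_intCast]
  have := Q_shift h n (g.1.val : ℤ) (g.2.val : ℤ)
  have h2 : Q p m r s ((p : ℤ) • n + liftD p m r g) =
      p * T m (g.1.val : ℤ) (g.2.val : ℤ) + (p : ℤ) ^ 2 * (Q p m r s n + n ⬝ᵥ wD p m g) := this
  rw [h2]
  push_cast
  field_simp

theorem intCast_T_val (g : D p) :
    ((T m (g.1.val : ℤ) (g.2.val : ℤ) : ℤ) : ZMod p) = tform p m g := by
  rw [intCast_T, intCast_val_eq, intCast_val_eq]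

/-! ### Bridges to the vocabulary of `LB/ThetaFun` and `LB/ThetaS` -/

open Fermat.Agent.S16.LB.ThetaFun Fermat.Agent.S16.LB.ThetaS

theorem quadR_gram (p m r s : ℤ) (v : Fin 4 → ℝ) : quadR (gram p m r s) v = qR p m r s v := rfl

theorem qA_gram (p m r s : ℤ) (v : Fin 4 → ℝ) : qA (gram p m r s) v = qR p m r s v := rfl

theorem vecD_sec (g : D p) : vecD (gramDual m r s) p (sec p m g) = vec p m r s g := rfl

/-- The hypothesis `hθ` of `ThetaS.slash_S_theta` for `θ := thetaV A`. -/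
theorem thetaV_eq_tsum_thetaTerm (A : Matrix (Fin 4) (Fin 4) ℤ) (v : Fin 4 → ℝ)
    (z : UpperHalfPlane) : thetaV A v z = ∑' n : Fin 4 → ℤ, thetaTerm A v z n := rfl

/-- The hypothesis `hθneg` of `ThetaS.slash_S_theta` for `θ := thetaV A`. -/
theorem thetaV_vecD_sec_neg (g : D p) :
    thetaV (gram p m r s) (vecD (gramDual m r s) p (sec p m (-g))) =
      thetaV (gram p m r s) (vecD (gramDual m r s) p (sec p m g)) := by
  obtain ⟨d, hd⟩ := vec_neg (p := p) (m := m) (r := r) (s := s) g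
  rw [vecD_sec, vecD_sec, ← thetaV_neg (vec p m r s g)]
  exact thetaV_congr_of_sub_int d (fun i => by rw [hd i]; rfl)

/-- The `(T)` input in `ThetaFun` vocabulary. -/
theorem quadR_add_vecD (h : (4 * m - 1) * s = r ^ 2 + p) (g : D p) (n : Fin 4 → ℤ) :
    quadR (gram p m r s) (fun i => (n i : ℝ) + vecD (gramDual m r s) p (sec p m g) i) =
      2 * ((T m (g.1.val : ℤ) (g.2.val : ℤ) : ℝ) / p
        + ((Q p m r s n + n ⬝ᵥ wD p m g : ℤ) : ℝ)) :=
  qR_add_vec h g n

/-! ### The `T`- and `S`-laws for the concrete family `Θ g := thetaV A (A⁻¹ s g)` -/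

open UpperHalfPlane Complex
open scoped MatrixGroups ModularForm Real

/-- The family of theta functions with characteristics of the quaternary lattice, indexed by the
discriminant group. -/
noncomputable def Theta (p : ℕ) (m r s : ℤ) (g : D p) : ℍ → ℂ :=
  thetaV (gram p m r s) (vecD (gramDual m r s) p (sec p m g))

theorem Theta_zero_eq (p : ℕ) [Fact p.Prime] (m r s : ℤ) :
    Theta p m r s 0 = thetaV (gram p m r s) 0 := by
  unfold Theta
  rw [vecD_sec, vec_zero]

/-- **The hypothesis `hT` of `Weil.slash_theta_zero`** for the family `Theta`. -/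
theorem slash_T_Theta (h : (4 * m - 1) * s = r ^ 2 + p) (g : D p) :
    Theta p m r s g ∣[(2 : ℤ)] ModularGroup.T =
      ZMod.stdAddChar (tform p m g) • Theta p m r s g := by
  have hp0 : (p : ℂ) ≠ 0 := by exact_mod_cast (Fact.out : p.Prime).ne_zero
  funext z
  have hden : denom (ModularGroup.T : SL(2, ℤ)) z = 1 := by
    rw [ModularGroup.denom_apply]
    simp [ModularGroup.T]
  rw [ModularForm.SL_slash_apply, hden, one_zpow, mul_one, modular_T_smul, Pi.smul_apply,
    smul_eq_mul]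
  unfold Theta thetaV
  rw [← tsum_mul_left]
  refine tsum_congr fun n => ?_
  rw [quadR_add_vecD h g n, ← intCast_T_val (m := m) g, ZMod.stdAddChar_coe, ← Complex.exp_add]
  have hk := Complex.exp_int_mul_two_pi_mul_I (Q p m r s n + n ⬝ᵥ wD p m g)
  have hsplit : (π : ℂ) * Complex.I * (((1 : ℝ) +ᵥ z : ℍ) : ℂ) *
        ((2 * ((T m (g.1.val : ℤ) (g.2.val : ℤ) : ℝ) / p
          + ((Q p m r s n + n ⬝ᵥ wD p m g : ℤ) : ℝ)) : ℝ) : ℂ)
      = (2 * π * Complex.I * ((T m (g.1.val : ℤ) (g.2.val : ℤ) : ℤ) : ℂ) / p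
          + π * Complex.I * (z : ℂ) * ((2 * ((T m (g.1.val : ℤ) (g.2.val : ℤ) : ℝ) / p
            + ((Q p m r s n + n ⬝ᵥ wD p m g : ℤ) : ℝ)) : ℝ) : ℂ))
        + ((Q p m r s n + n ⬝ᵥ wD p m g : ℤ) : ℂ) * (2 * π * Complex.I) := by
    rw [UpperHalfPlane.coe_vadd]
    push_cast
    field_simp
    ring
  rw [hsplit, Complex.exp_add, hk, mul_one]

/-- **The hypothesis `hS` of `Weil.slash_theta_zero`** for the family `Theta`, from the theta
inversion `hPG` and the summability `hsum` of the dual series. -/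
theorem slash_S_Theta (h : (4 * m - 1) * s = r ^ 2 + p) (hq : ((4 * m - 1 : ℤ) : ZMod p) ≠ 0)
    (hPG : ∀ v (z : ℍ), thetaV (gram p m r s) v (ModularGroup.S • z) =
      -((z : ℂ) ^ 2) / p * ∑' y : Fin 4 → ℤ, dualTerm (gramDual m r s) p v z y)
    (hsum : ∀ v (z : ℍ), Summable (dualTerm (gramDual m r s) p v z)) (g : D p) :
    Theta p m r s g ∣[(2 : ℤ)] ModularGroup.S =
      (-(p : ℂ)⁻¹) • ∑ g' : D p, ZMod.stdAddChar (-(bform p m g g')) • Theta p m r s g' :=
  slash_S_theta (gram_mul_gramDual h) (gramDual_mul_gram h) (gramDual_isSymm m r s)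
    (thetaV (gram p m r s)) (fun _ _ => rfl) hPG hsum (sec p m) (eqv h hq) (eqv_apply h hq)
    (bform p m) bform_eq_dot (bform_add_left p m) (bform_symm p m) thetaV_vecD_sec_neg g

/-- **The Weil-representation theorem applied to the quaternary lattice**: given the theta
inversion `hPG`, the dual summability `hsum` and `thetaV A 0 ≠ 0`, the theta series
`thetaV A 0 = ∑_x e(z Q(x))` is `Γ₀(p)`-invariant of weight `2`, and all its `SL(2, ℤ)`-translates
are linear combinations of the `Theta g`. -/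
theorem weil_Theta (h : (4 * m - 1) * s = r ^ 2 + p) (hq : ((4 * m - 1 : ℤ) : ZMod p) ≠ 0)
    (hPG : ∀ v (z : ℍ), thetaV (gram p m r s) v (ModularGroup.S • z) =
      -((z : ℂ) ^ 2) / p * ∑' y : Fin 4 → ℤ, dualTerm (gramDual m r s) p v z y)
    (hsum : ∀ v (z : ℍ), Summable (dualTerm (gramDual m r s) p v z))
    (h0 : thetaV (gram p m r s) 0 ≠ 0) :
    (∀ γ ∈ CongruenceSubgroup.Gamma0 p,
        thetaV (gram p m r s) 0 ∣[(2 : ℤ)] γ = thetaV (gram p m r s) 0) ∧
      (∀ γ : SL(2, ℤ), ∃ c : D p → ℂ,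
        thetaV (gram p m r s) 0 ∣[(2 : ℤ)] γ = ∑ g : D p, c g • Theta p m r s g) ∧
      thetaV (gram p m r s) 0 ∣[(2 : ℤ)] ModularGroup.S =
        (-(p : ℂ)⁻¹) • ∑ g : D p, Theta p m r s g := by
  have key := Fermat.Agent.S16.LB.Weil.slash_theta_zero (tform p m) (bform p m)
    (bform_add_left p m) (bform_symm p m) (tform_add p m) (tform_neg p m) (bform_nondeg p m hq)
    (card_D p) (Theta p m r s) (slash_T_Theta h) (slash_S_Theta h hq hPG hsum)
    (by rw [Theta_zero_eq]; exact h0)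
  rw [Theta_zero_eq] at key
  exact key

end Fermat.Agent.S16.LB.DiscAdapter
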