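/-
PROJECT E (S16), slice E-LB, file (LB-QX) (helper24): THE `q`-EXPANSION OF A THETA SERIES.

Pure regrouping, no modularity.  `N : ι → ℤ` a non-negative function with finite fibres
(`ι = Fin 4 → ℤ`, `N = Q` the quaternary form of `S16/QuatLattice`), and

  `f z = ∑' x, exp (2 π i z N x)`   (`z ∈ ℍ`, the family being summable).

* `hasSum_fibres_nat` / `hasSum_fibres` : `∑_x q^{N x} = ∑_k r(k) q^k`, `r(k) = #{x | N x = k}`;
* `hasSum_fibres_exp` : the same with `q = 𝕢 1 z = exp (2 π i z)`;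
* `periodic_of_fibres` : `f` is `1`-periodic;
* `qExpansion_coeff_of_fibres` : for `f` holomorphic and bounded at `i∞`,
  `(qExpansion 1 f).coeff k = r(k)`;
* `QuatLattice` instance: `coeff k = repNum p m r s k`, `coeff 0 = 1`, `coeff k` even for `k ≥ 1`.
-/
import Mathlib
import Fermat.Agent.S16.QuatLattice

set_option autoImplicit false

noncomputable section

namespace Fermat.Agent.S16.LB.ThetaQExp

open Complex Function
open UpperHalfPlane hiding I
open scoped Real MatrixGroups Manifold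

local notation "𝕢" => Periodic.qParam

/-! ### Regrouping a sum along the fibres -/

section Fibres

variable {ι : Type*}

/-- **Regrouping along the fibres of `M : ι → ℕ`.** -/
theorem hasSum_fibres_nat (M : ι → ℕ) (hfin : ∀ k : ℕ, {x | M x = k}.Finite) (q : ℂ)
    (hs : Summable fun x => q ^ M x) :
    HasSum (fun k : ℕ => (({x | M x = k}.ncard : ℕ) : ℂ) * q ^ k) (∑' x, q ^ M x) := by
  classical
  have h1 : HasSum (fun y : Σ k : ℕ, {x // M x = k} => q ^ M (Equiv.sigmaFiberEquiv M y))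
      (∑' x, q ^ M x) :=
    (Equiv.hasSum_iff (Equiv.sigmaFiberEquiv M)).mpr hs.hasSum
  refine h1.sigma fun k => ?_
  have : Fintype {x // M x = k} := (hfin k).fintype
  have h2 : ∀ c : {x // M x = k}, q ^ M (Equiv.sigmaFiberEquiv M ⟨k, c⟩) = q ^ k := fun c => by
    rw [show Equiv.sigmaFiberEquiv M ⟨k, c⟩ = c.1 from rfl, c.2]
  simp_rw [h2]
  have h3 : (({x | M x = k}.ncard : ℕ) : ℂ) * q ^ k = ∑ _c : {x // M x = k}, q ^ k := by
    rw [Finset.sum_const, Finset.card_univ, nsmul_eq_mul]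
    congr 2
    rw [← Nat.card_eq_fintype_card]
    exact (Nat.card_coe_set_eq {x | M x = k})
  rw [h3]
  exact hasSum_fintype _

variable (N : ι → ℤ) (hN : ∀ x, 0 ≤ N x) (hfin : ∀ k : ℤ, {x | N x = k}.Finite)

include hN in
theorem fibre_toNat (k : ℕ) : {x | (N x).toNat = k} = {x | N x = (k : ℤ)} := by
  ext x
  simp only [Set.mem_ofPred_eq]
  constructor
  · intro h
    rw [← h, Int.toNat_of_nonneg (hN x)]
  · intro h
    rw [h, Int.toNat_natCast]

include hN hfin in
/-- **Regrouping along the fibres of `N : ι → ℤ`, `N ≥ 0`.** -/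
theorem hasSum_fibres (q : ℂ) (hs : Summable fun x => q ^ (N x).toNat) :
    HasSum (fun k : ℕ => (({x | N x = (k : ℤ)}.ncard : ℕ) : ℂ) * q ^ k)
      (∑' x, q ^ (N x).toNat) := by
  have h := hasSum_fibres_nat (fun x => (N x).toNat)
    (fun k => by rw [fibre_toNat N hN k]; exact hfin k) q hs
  simpa only [fibre_toNat N hN] using h

include hN in
theorem exp_eq_qParam_pow (z : ℍ) (x : ι) :
    cexp (2 * π * I * z * (N x : ℂ)) = 𝕢 1 z ^ (N x).toNat := by
  have h1 : (N x : ℂ) = (((N x).toNat : ℕ) : ℂ) := by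
    have := Int.toNat_of_nonneg (hN x)
    exact_mod_cast congrArg (Int.cast : ℤ → ℂ) this.symm
  rw [Periodic.qParam, ← Complex.exp_nat_mul, h1]
  congr 1
  push_cast
  ring

include hN hfin in
/-- **Regrouping, exponential form**: `∑_x e(z N x) = ∑_k r(k) q^k`, `q = e(z)`. -/
theorem hasSum_fibres_exp (z : ℍ) (hs : Summable fun x => cexp (2 * π * I * z * (N x : ℂ))) :
    HasSum (fun k : ℕ => (({x | N x = (k : ℤ)}.ncard : ℕ) : ℂ) • 𝕢 1 z ^ k)
      (∑' x, cexp (2 * π * I * z * (N x : ℂ))) := by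
  simp only [exp_eq_qParam_pow N hN z] at hs ⊢
  simpa only [smul_eq_mul] using hasSum_fibres N hN hfin (𝕢 1 z) hs

/-- The theta function of `N` is `1`-periodic. -/
theorem periodic_of_fibres :
    Periodic ((fun z : ℍ => ∑' x, cexp (2 * π * I * z * (N x : ℂ))) ∘ ofComplex) 1 := by
  intro w
  simp only [Function.comp_apply]
  by_cases hw : 0 < w.im
  · have hw1 : 0 < (w + 1).im := by simpa using hw
    rw [ofComplex_apply_of_im_pos hw, ofComplex_apply_of_im_pos hw1]
    refine tsum_congr fun x => ?_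
    have : 2 * π * I * (w + 1) * (N x : ℂ) = 2 * π * I * w * (N x : ℂ) + (N x : ℤ) * (2 * π * I) := by
      ring
    rw [this, Complex.exp_add, Complex.exp_int_mul_two_pi_mul_I, mul_one]
  · have hw1 : ¬ 0 < (w + 1).im := by simpa using hw
    rw [ofComplex_apply_of_im_nonpos (not_lt.mp hw), ofComplex_apply_of_im_nonpos (not_lt.mp hw1)]

end Fibres

/-! ### Identification of the `q`-expansion -/

section QExp

/-- Uniqueness of the `q`-expansion coefficients of a plain function `ℍ → ℂ`. -/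
theorem coeff_unique {f : ℍ → ℂ} {c : ℕ → ℂ}
    (hper : Periodic (f ∘ ofComplex) 1) (hol : MDiff f) (hbdd : IsBoundedAtImInfty f)
    (hf : ∀ τ : ℍ, HasSum (fun m ↦ c m • 𝕢 1 τ ^ m) (f τ)) (m : ℕ) :
    (qExpansion 1 f).coeff m = c m := by
  have han := analyticAt_cuspFunction_zero one_pos hper hol hbdd
  have h1 := (hasFPowerSeriesOnBall_cuspFunction one_pos han hf).hasFPowerSeriesAt
  have h2 := han.hasFPowerSeriesAt
  have h3 := congr_arg (FormalMultilinearSeries.coeff · m) (h1.eq_formalMultilinearSeries h2)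
  simp only [FormalMultilinearSeries.coeff_ofScalars] at h3
  rw [h3, qExpansion_coeff, div_eq_mul_inv, mul_comm]

variable {ι : Type*} (N : ι → ℤ) (hN : ∀ x, 0 ≤ N x) (hfin : ∀ k : ℤ, {x | N x = k}.Finite)

include hN hfin in
/-- **The `q`-expansion of the theta series of `N`**: the `k`-th coefficient is the number of
representations of `k`. -/
theorem qExpansion_coeff_of_fibres {f : ℍ → ℂ} (hol : MDiff f) (hbdd : IsBoundedAtImInfty f)
    (hs : ∀ z : ℍ, Summable fun x => cexp (2 * π * I * z * (N x : ℂ)))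
    (hf : ∀ z : ℍ, f z = ∑' x, cexp (2 * π * I * z * (N x : ℂ))) (k : ℕ) :
    (qExpansion 1 f).coeff k = (({x | N x = (k : ℤ)}.ncard : ℕ) : ℂ) := by
  have hfun : f = fun z : ℍ => ∑' x, cexp (2 * π * I * z * (N x : ℂ)) := funext hf
  have hper : Periodic (f ∘ ofComplex) 1 := by
    rw [hfun]
    exact periodic_of_fibres N
  refine coeff_unique (c := fun k : ℕ => (({x | N x = (k : ℤ)}.ncard : ℕ) : ℂ)) hper hol hbdd
    (fun τ => ?_) k
  rw [hf τ]
  exact hasSum_fibres_exp N hN hfin τ (hs τ)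

include hN hfin in
/-- The same in the normalisation `exp (π i z W x)`, `W x = 2 N x` (e.g. `W x = xᵀ A x` for an even
Gram matrix `A`). -/
theorem qExpansion_coeff_of_fibres_pi {f : ℍ → ℂ} (hol : MDiff f) (hbdd : IsBoundedAtImInfty f)
    (W : ι → ℂ) (hW : ∀ x, W x = 2 * (N x : ℂ))
    (hs : ∀ z : ℍ, Summable fun x => cexp (π * I * z * W x))
    (hf : ∀ z : ℍ, f z = ∑' x, cexp (π * I * z * W x)) (k : ℕ) :
    (qExpansion 1 f).coeff k = (({x | N x = (k : ℤ)}.ncard : ℕ) : ℂ) := by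
  have e : ∀ (z : ℍ) (x : ι), cexp (π * I * z * W x) = cexp (2 * π * I * z * (N x : ℂ)) := by
    intro z x
    rw [hW x]
    congr 1
    ring
  refine qExpansion_coeff_of_fibres N hN hfin hol hbdd (fun z => ?_) (fun z => ?_) k
  · simpa only [e z] using hs z
  · simpa only [e z] using hf z

end QExp

/-! ### The quaternary lattice of `S16/QuatLattice` -/

section Quat

open Fermat.Agent.S16.QuatLattice

variable {p m r s : ℤ} (hp : 0 < p) (hm : 0 < m) (h : (4 * m - 1) * s = r ^ 2 + p)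

include hp hm h in
/-- The `q`-expansion coefficients of `θ_Q` are the representation numbers. -/
theorem qExpansion_coeff_thetaQ {f : ℍ → ℂ} (hol : MDiff f) (hbdd : IsBoundedAtImInfty f)
    (hs : ∀ z : ℍ, Summable fun x : Fin 4 → ℤ => cexp (2 * π * I * z * (Q p m r s x : ℂ)))
    (hf : ∀ z : ℍ, f z = ∑' x : Fin 4 → ℤ, cexp (2 * π * I * z * (Q p m r s x : ℂ))) (k : ℕ) :
    (qExpansion 1 f).coeff k = (repNum p m r s (k : ℤ) : ℂ) :=
  qExpansion_coeff_of_fibres (Q p m r s) (Q_nonneg hp.le hm h) (finite_reps hp hm h) hol hbdd hs hf k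

include hp hm h in
theorem qExpansion_coeff_thetaQ_zero {f : ℍ → ℂ} (hol : MDiff f) (hbdd : IsBoundedAtImInfty f)
    (hs : ∀ z : ℍ, Summable fun x : Fin 4 → ℤ => cexp (2 * π * I * z * (Q p m r s x : ℂ)))
    (hf : ∀ z : ℍ, f z = ∑' x : Fin 4 → ℤ, cexp (2 * π * I * z * (Q p m r s x : ℂ))) :
    (qExpansion 1 f).coeff 0 = 1 := by
  rw [qExpansion_coeff_thetaQ hp hm h hol hbdd hs hf 0, Nat.cast_zero, repNum_zero hp hm h,
    Nat.cast_one]

include hp hm h in
theorem qExpansion_coeff_thetaQ_even {f : ℍ → ℂ} (hol : MDiff f) (hbdd : IsBoundedAtImInfty f)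
    (hs : ∀ z : ℍ, Summable fun x : Fin 4 → ℤ => cexp (2 * π * I * z * (Q p m r s x : ℂ)))
    (hf : ∀ z : ℍ, f z = ∑' x : Fin 4 → ℤ, cexp (2 * π * I * z * (Q p m r s x : ℂ)))
    {k : ℕ} (hk : 0 < k) : ∃ c : ℤ, (qExpansion 1 f).coeff k = 2 * (c : ℂ) := by
  obtain ⟨c, hc⟩ := even_repNum hp hm h (k := (k : ℤ)) (by exact_mod_cast hk.ne')
  refine ⟨(c : ℤ), ?_⟩
  rw [qExpansion_coeff_thetaQ hp hm h hol hbdd hs hf k, hc]
  push_cast
  ring

include hp hm h in
/-- The three coefficient facts in the normalisation `exp (π i z W x)`, `W x = 2 Q x`. -/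
theorem qExpansion_coeff_thetaQ_pi {f : ℍ → ℂ} (hol : MDiff f) (hbdd : IsBoundedAtImInfty f)
    (W : (Fin 4 → ℤ) → ℂ) (hW : ∀ x, W x = 2 * (Q p m r s x : ℂ))
    (hs : ∀ z : ℍ, Summable fun x => cexp (π * I * z * W x))
    (hf : ∀ z : ℍ, f z = ∑' x, cexp (π * I * z * W x)) :
    (∀ k : ℕ, (qExpansion 1 f).coeff k = (repNum p m r s (k : ℤ) : ℂ)) ∧
      (qExpansion 1 f).coeff 0 = 1 ∧
      ∀ k : ℕ, 0 < k → ∃ c : ℤ, (qExpansion 1 f).coeff k = 2 * (c : ℂ) := by
  have e : ∀ (z : ℍ) (x : Fin 4 → ℤ),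
      cexp (π * I * z * W x) = cexp (2 * π * I * z * (Q p m r s x : ℂ)) := by
    intro z x
    rw [hW x]
    congr 1
    ring
  have hs' : ∀ z : ℍ, Summable fun x : Fin 4 → ℤ => cexp (2 * π * I * z * (Q p m r s x : ℂ)) :=
    fun z => by simpa only [e z] using hs z
  have hf' : ∀ z : ℍ, f z = ∑' x : Fin 4 → ℤ, cexp (2 * π * I * z * (Q p m r s x : ℂ)) :=
    fun z => by simpa only [e z] using hf z
  exact ⟨qExpansion_coeff_thetaQ hp hm h hol hbdd hs' hf',
    qExpansion_coeff_thetaQ_zero hp hm h hol hbdd hs' hf',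
    fun k hk => qExpansion_coeff_thetaQ_even hp hm h hol hbdd hs' hf' hk⟩

end Quat

end Fermat.Agent.S16.LB.ThetaQExp
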