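/-
E-LB (helper16): the theta series of the quaternary lattice as a modular form on `Γ₀(p)`, from the
three analytic inputs `ThetaData (gram)`, `hPG` (theta inversion) and `hsum` (dual summability):
`exists_thetaQ_of` is the hypothesis `hθ` of `LBTheta.hLB_of_theta` for one odd prime `p`.
Pure glue: `DiscAdapter.weil_Theta` + `SpanForm.exists_modularForm_of_span` +
`ThetaQExp.qExpansion_coeff_thetaQ_pi`.
-/
import Fermat.Agent.S16.LB.DiscAdapter
import Fermat.Agent.S16.LB.SpanForm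
import Fermat.Agent.S16.LB.ThetaQExp
import Fermat.Prelude.Def_FLTPrelim_Modularity

set_option autoImplicit false

open Complex UpperHalfPlane CongruenceSubgroup ModularFormClass
open scoped MatrixGroups ModularForm Real Manifold
open Fermat.Agent.S16.QuatLattice Fermat.Agent.S16.LB.DiscForm Fermat.Agent.S16.LB.DiscAdapter
open Fermat.Agent.S16.LB.ThetaFun Fermat.Agent.S16.LB.ThetaS

namespace Fermat.Agent.S16.LB.ThetaOf

variable {p : ℕ} [Fact p.Prime] {m r s : ℤ}

theorem quadR_cast_eq (p m r s : ℤ) (x : Fin 4 → ℤ) :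
    ((quadR (gram p m r s) (fun i => (x i : ℝ) + (0 : Fin 4 → ℝ) i) : ℝ) : ℂ)
      = 2 * (Q p m r s x : ℂ) := by
  have h1 : (fun i => (x i : ℝ) + (0 : Fin 4 → ℝ) i) = fun i => (x i : ℝ) := by
    funext i; simp
  rw [h1, quadR_intCast, quadZ, dotProduct_gram_mulVec]
  push_cast; ring

theorem exists_thetaQ_of (hm : 0 < m) (h : (4 * m - 1) * s = r ^ 2 + p)
    (hq : ((4 * m - 1 : ℤ) : ZMod p) ≠ 0) (hA : ThetaData (gram p m r s))
    (hPG : ∀ v (z : ℍ), thetaV (gram p m r s) v (ModularGroup.S • z) =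
      -((z : ℂ) ^ 2) / p * ∑' y : Fin 4 → ℤ, dualTerm (gramDual m r s) p v z y)
    (hsum : ∀ v (z : ℍ), Summable (dualTerm (gramDual m r s) p v z)) :
    ∃ θ : ModularForm (Gamma0 p) 2, qCoeff (⇑θ) 0 = 1 ∧
      ∀ n, 0 < n → ∃ c : ℤ, qCoeff (⇑θ) n = 2 * (c : ℂ) := by
  have hp0 : (0 : ℤ) < p := by exact_mod_cast (Fact.out : p.Prime).pos
  have : NeZero p := ⟨(Fact.out : p.Prime).ne_zero⟩
  set f : ℍ → ℂ := thetaV (gram p m r s) 0 with hfdef
  have hol : MDiff f := mdifferentiable_thetaV hA 0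
  have hbdd : IsBoundedAtImInfty f := isBoundedAtImInfty_thetaV hA 0
  have hcoef := Fermat.Agent.S16.LB.ThetaQExp.qExpansion_coeff_thetaQ_pi hp0 hm h hol hbdd
    (fun x => ((quadR (gram p m r s) (fun i => (x i : ℝ) + (0 : Fin 4 → ℝ) i) : ℝ) : ℂ))
    (fun x => quadR_cast_eq p m r s x)
    (fun z => summable_term hA 0 z.im_pos) (fun z => rfl)
  obtain ⟨-, hc0, hceven⟩ := hcoef
  have h0 : f ≠ 0 := by
    intro hf0
    rw [hf0, qExpansion_zero] at hc0
    simp at hc0
  obtain ⟨hinv, hspan, -⟩ := weil_Theta h hq hPG hsum h0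
  obtain ⟨F, hF⟩ := Fermat.Agent.S16.LB.SpanForm.exists_modularForm_of_span
    (Theta p m r s) f hinv hspan hol
    (fun g => isBoundedAtImInfty_thetaV hA _)
  refine ⟨F, ?_, fun n hn => ?_⟩
  · rw [hF]; exact hc0
  · rw [hF]; exact hceven n hn

end Fermat.Agent.S16.LB.ThetaOf
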