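/-
PROJECT E (S16), slice E-LB (P1) (helper5): THETA INVERSION IN `n` VARIABLES for a positive definite
quadratic form given in TRIANGULAR form, by iterating the one-variable Poisson summation formula
for Gaussians (Mathlib `Complex.tsum_exp_neg_quadratic`).

* `qform n a u z = Σ_i a_i (z_i + Σ_{j>i} u_{ij} z_j)²`  (`= zᵀ A z`),
  `qdual n a u y`  (`= yᵀ A⁻¹ y`), both defined by recursion on `n`;
* `term n a u τ b v x = exp(π i τ q(x + v) + 2π i b·x)`, `dterm n a u τ b v y =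
  exp(-π i q*(y - b)/τ + 2π i (y - b)·v)` (`b v : Fin n → ℝ` real characteristics);
* `summable_term`, `summable_dterm`, uniform bounds `exists_bound_normE`, `exists_bound_normD`;
* **`theta_inversion`** : `Σ_x term = (Π_i 1/(-i a_i τ)^{1/2}) Σ_y dterm`.
-/
import Mathlib

set_option autoImplicit false

noncomputable section

namespace Fermat.Agent.S16.LB.PoissonGauss

open Complex Real

/-! ## One variable -/

section OneVar

/-- `exp(π i τ a (m + c)² + 2π i b m)` -/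
def term1 (τ : ℂ) (a b c : ℝ) (m : ℤ) : ℂ :=
  cexp (π * I * τ * a * (m + c) ^ 2 + 2 * π * I * b * m)

/-- `exp(-π i (k - b)²/(a τ) + 2π i (k - b) c)` -/
def dterm1 (τ : ℂ) (a b c : ℝ) (k : ℤ) : ℂ :=
  cexp (-π * I * (k - b) ^ 2 / (a * τ) + 2 * π * I * (k - b) * c)

theorem term1_eq (τ : ℂ) (a b c : ℝ) (m : ℤ) :
    term1 τ a b c m = cexp (π * I * τ * a * c ^ 2) * jacobiTheta₂_term m (b + τ * a * c) (a * τ) := by
  rw [term1, jacobiTheta₂_term, ← Complex.exp_add]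
  congr 1
  ring

theorem dterm1_eq (τ : ℂ) (a b c : ℝ) (k : ℤ) :
    dterm1 τ a b c k = cexp (-π * I * b ^ 2 / (a * τ) - 2 * π * I * b * c) *
      jacobiTheta₂_term k (b / (a * τ) + c) (-1 / (a * τ)) := by
  rw [dterm1, jacobiTheta₂_term, ← Complex.exp_add]
  congr 1
  ring

theorem im_neg_one_div_pos {τ : ℂ} (hτ : 0 < τ.im) : 0 < (-1 / τ).im := by
  rw [neg_div, neg_im, one_div, inv_im, neg_div, neg_neg]
  exact div_pos hτ (normSq_pos.mpr (fun h => by simp [h] at hτ))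

theorem summable_term1 {τ : ℂ} (hτ : 0 < τ.im) {a : ℝ} (ha : 0 < a) (b c : ℝ) :
    Summable (term1 τ a b c) := by
  have h : 0 < ((a : ℂ) * τ).im := by
    rw [im_ofReal_mul]
    exact mul_pos ha hτ
  have := ((summable_jacobiTheta₂_term_iff (b + τ * a * c) (a * τ)).mpr h).mul_left
    (cexp (π * I * τ * a * c ^ 2))
  exact this.congr fun m => (term1_eq τ a b c m).symm

theorem summable_dterm1 {τ : ℂ} (hτ : 0 < τ.im) {a : ℝ} (ha : 0 < a) (b c : ℝ) :
    Summable (dterm1 τ a b c) := by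
  have h : 0 < (-1 / ((a : ℂ) * τ)).im := by
    apply im_neg_one_div_pos
    rw [im_ofReal_mul]
    exact mul_pos ha hτ
  have := ((summable_jacobiTheta₂_term_iff (b / (a * τ) + c) (-1 / (a * τ))).mpr h).mul_left
    (cexp (-π * I * b ^ 2 / (a * τ) - 2 * π * I * b * c))
  exact this.congr fun m => (dterm1_eq τ a b c m).symm

theorem norm_term1 (τ : ℂ) (a b c : ℝ) (m : ℤ) :
    ‖term1 τ a b c m‖ = rexp (-(π * τ.im * a) * ((m : ℝ) + c) ^ 2) := by
  rw [term1, Complex.norm_exp]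
  congr 1
  have h1 : (π : ℂ) * I * τ * a * (m + c) ^ 2 = ((π * a * ((m : ℝ) + c) ^ 2 : ℝ) : ℂ) * (I * τ) := by
    push_cast
    ring
  have h2 : (2 : ℂ) * π * I * b * m = ((2 * π * b * m : ℝ) : ℂ) * I := by
    push_cast
    ring
  rw [h1, h2, add_re, re_ofReal_mul, re_ofReal_mul, I_re, mul_zero, add_zero, mul_re, I_re, I_im]
  ring

theorem norm_dterm1 (τ : ℂ) (a b c : ℝ) (k : ℤ) :
    ‖dterm1 τ a b c k‖ = rexp (-(π * (-1 / τ).im / a) * ((k : ℝ) - b) ^ 2) := by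
  rw [dterm1, Complex.norm_exp]
  congr 1
  have h1 : -(π : ℂ) * I * (k - b) ^ 2 / (a * τ) =
      ((π * ((k : ℝ) - b) ^ 2 / a : ℝ) : ℂ) * (I * (-1 / τ)) := by
    push_cast
    ring
  have h2 : (2 : ℂ) * π * I * (k - b) * c = ((2 * π * ((k : ℝ) - b) * c : ℝ) : ℂ) * I := by
    push_cast
    ring
  rw [h1, h2, add_re, re_ofReal_mul, re_ofReal_mul, I_re, mul_zero, add_zero, mul_re, I_re, I_im]
  ring

/-- **One-variable theta inversion with real characteristics.** -/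
theorem one_dim {τ : ℂ} (hτ : 0 < τ.im) {a : ℝ} (ha : 0 < a) (b c : ℝ) :
    ∑' m : ℤ, term1 τ a b c m =
      1 / (-I * a * τ) ^ (1 / 2 : ℂ) * ∑' k : ℤ, dterm1 τ a b c k := by
  have hre : 0 < (-I * a * τ).re := by
    have : -I * a * τ = ((a : ℝ) : ℂ) * (-I * τ) := by ring
    rw [this, re_ofReal_mul, mul_re]
    simp only [neg_re, I_re, neg_zero, zero_mul, neg_im, I_im, zero_sub]
    simpa using mul_pos ha hτ
  have hτ0 : τ ≠ 0 := fun h => by simp [h] at hτ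
  have ha0 : (a : ℂ) ≠ 0 := by exact_mod_cast ha.ne'
  have key := Complex.tsum_exp_neg_quadratic hre (I * (b + τ * a * c))
  have e1 : ∀ m : ℤ, term1 τ a b c m = cexp (π * I * τ * a * c ^ 2) *
      cexp (-π * (-I * a * τ) * m ^ 2 + 2 * π * (I * (b + τ * a * c)) * m) := by
    intro m
    rw [term1, ← Complex.exp_add]
    congr 1
    ring
  have e2 : ∀ k : ℤ, cexp (π * I * τ * a * c ^ 2) *
      cexp (-π / (-I * a * τ) * (k + I * (I * (b + τ * a * c))) ^ 2) = dterm1 τ a b c k := by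
    intro k
    rw [dterm1, ← Complex.exp_add]
    congr 1
    have hI : (-I * a * τ) ≠ 0 := by
      simp [ha0, hτ0]
    field_simp
    ring_nf
    simp only [I_sq, I_pow_four]
    ring
  calc ∑' m : ℤ, term1 τ a b c m
      = cexp (π * I * τ * a * c ^ 2) *
          ∑' m : ℤ, cexp (-π * (-I * a * τ) * m ^ 2 + 2 * π * (I * (b + τ * a * c)) * m) := by
        rw [← tsum_mul_left]
        exact tsum_congr e1
    _ = cexp (π * I * τ * a * c ^ 2) * (1 / (-I * a * τ) ^ (1 / 2 : ℂ) *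
          ∑' k : ℤ, cexp (-π / (-I * a * τ) * (k + I * (I * (b + τ * a * c))) ^ 2)) := by
        rw [key]
    _ = 1 / (-I * a * τ) ^ (1 / 2 : ℂ) * ∑' k : ℤ, dterm1 τ a b c k := by
        rw [mul_left_comm, ← tsum_mul_left]
        congr 1
        exact tsum_congr e2

end OneVar

/-! ## Uniform bounds for shifted Gaussian sums -/

section Unif

theorem summable_gauss {σ : ℝ} (hσ : 0 < σ) : Summable fun m : ℤ => rexp (-σ * (m : ℝ) ^ 2) := by
  have h : 0 < (I * (σ / π : ℝ) : ℂ).im := by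
    rw [mul_comm, im_ofReal_mul, I_im, mul_one]
    exact div_pos hσ pi_pos
  have := ((summable_jacobiTheta₂_term_iff 0 (I * (σ / π : ℝ))).mpr h).norm
  refine this.congr fun m => ?_
  rw [norm_jacobiTheta₂_term, mul_comm I, im_ofReal_mul, I_im, mul_one, zero_im, mul_zero, sub_zero]
  congr 1
  field_simp

theorem gauss_shift_le {σ : ℝ} (hσ : 0 < σ) {θ : ℝ} (h0 : 0 ≤ θ) (h1 : θ < 1) (m : ℤ) :
    rexp (-σ * ((m : ℝ) + θ) ^ 2) ≤
      rexp (-σ * (m : ℝ) ^ 2) + rexp (-σ * ((m + 1 : ℤ) : ℝ) ^ 2) := by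
  rcases le_or_gt 0 m with hm | hm
  · have hm' : (0 : ℝ) ≤ m := by exact_mod_cast hm
    have : rexp (-σ * ((m : ℝ) + θ) ^ 2) ≤ rexp (-σ * (m : ℝ) ^ 2) := by
      apply Real.exp_le_exp.mpr
      have : (m : ℝ) ^ 2 ≤ ((m : ℝ) + θ) ^ 2 := by nlinarith
      nlinarith
    exact this.trans (le_add_of_nonneg_right (Real.exp_pos _).le)
  · have hm' : (m : ℝ) + 1 ≤ 0 := by exact_mod_cast hm
    have : rexp (-σ * ((m : ℝ) + θ) ^ 2) ≤ rexp (-σ * ((m + 1 : ℤ) : ℝ) ^ 2) := by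
      apply Real.exp_le_exp.mpr
      push_cast
      have : ((m : ℝ) + 1) ^ 2 ≤ ((m : ℝ) + θ) ^ 2 := by nlinarith
      nlinarith
    exact this.trans (le_add_of_nonneg_left (Real.exp_pos _).le)

/-- The sums `Σ_m exp(-σ (m + s)²)` converge and are bounded uniformly in the shift `s`. -/
theorem exists_bound_gauss {σ : ℝ} (hσ : 0 < σ) :
    ∃ K : ℝ, 0 ≤ K ∧ ∀ s : ℝ, Summable (fun m : ℤ => rexp (-σ * ((m : ℝ) + s) ^ 2)) ∧
      ∑' m : ℤ, rexp (-σ * ((m : ℝ) + s) ^ 2) ≤ K := by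
  have hg := summable_gauss hσ
  have hg1 : Summable fun m : ℤ => rexp (-σ * ((m + 1 : ℤ) : ℝ) ^ 2) :=
    (Equiv.addRight (1 : ℤ)).summable_iff.mpr hg
  have hg1' : ∑' m : ℤ, rexp (-σ * ((m + 1 : ℤ) : ℝ) ^ 2) = ∑' m : ℤ, rexp (-σ * (m : ℝ) ^ 2) :=
    (Equiv.addRight (1 : ℤ)).tsum_eq fun m : ℤ => rexp (-σ * (m : ℝ) ^ 2)
  refine ⟨2 * ∑' m : ℤ, rexp (-σ * (m : ℝ) ^ 2),
    mul_nonneg zero_le_two (tsum_nonneg fun _ => (Real.exp_pos _).le), fun s => ?_⟩
  -- reduce to `0 ≤ θ < 1`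
  have hshift : ∀ m : ℤ, rexp (-σ * ((m : ℝ) + s) ^ 2) =
      (fun m : ℤ => rexp (-σ * ((m : ℝ) + Int.fract s) ^ 2)) (Equiv.addRight ⌊s⌋ m) := by
    intro m
    simp only [Equiv.coe_addRight, Int.cast_add]
    congr 2
    rw [add_assoc, Int.floor_add_fract]
  have hθ : Summable (fun m : ℤ => rexp (-σ * ((m : ℝ) + Int.fract s) ^ 2)) :=
    Summable.of_nonneg_of_le (fun _ => (Real.exp_pos _).le)
      (gauss_shift_le hσ (Int.fract_nonneg s) (Int.fract_lt_one s)) (hg.add hg1)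
  constructor
  · exact ((Equiv.addRight ⌊s⌋).summable_iff.mpr hθ).congr fun m => (hshift m).symm
  · calc ∑' m : ℤ, rexp (-σ * ((m : ℝ) + s) ^ 2)
        = ∑' m : ℤ, (fun m : ℤ => rexp (-σ * ((m : ℝ) + Int.fract s) ^ 2))
            (Equiv.addRight ⌊s⌋ m) := tsum_congr hshift
      _ = ∑' m : ℤ, rexp (-σ * ((m : ℝ) + Int.fract s) ^ 2) :=
          (Equiv.addRight ⌊s⌋).tsum_eq fun m : ℤ => rexp (-σ * ((m : ℝ) + Int.fract s) ^ 2)
      _ ≤ ∑' m : ℤ, (rexp (-σ * (m : ℝ) ^ 2) + rexp (-σ * ((m + 1 : ℤ) : ℝ) ^ 2)) :=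
          hθ.tsum_le_tsum (gauss_shift_le hσ (Int.fract_nonneg s) (Int.fract_lt_one s))
            (hg.add hg1)
      _ = 2 * ∑' m : ℤ, rexp (-σ * (m : ℝ) ^ 2) := by
          rw [hg.tsum_add hg1, hg1']
          ring

/-- Fubini-type bound: if every fibre sum is `≤ K * g a` with `g` summable, the family is summable
with sum `≤ K * Σ g`. -/
theorem summable_prod_of_fiber_le {α β : Type*} (f : α × β → ℝ) (hf : ∀ p, 0 ≤ f p) (g : α → ℝ)
    (K : ℝ) (h1 : ∀ a, Summable fun b => f (a, b)) (h2 : ∀ a, ∑' b, f (a, b) ≤ K * g a)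
    (hg : Summable g) : Summable f ∧ ∑' p, f p ≤ K * ∑' a, g a := by
  have hs : Summable fun a => ∑' b, f (a, b) :=
    Summable.of_nonneg_of_le (fun a => tsum_nonneg fun b => hf (a, b)) h2 (hg.mul_left K)
  have hsum : Summable f := (summable_prod_of_nonneg hf).mpr ⟨h1, hs⟩
  refine ⟨hsum, ?_⟩
  rw [hsum.tsum_prod' h1, ← tsum_mul_left]
  exact hs.tsum_le_tsum h2 (hg.mul_left K)

end Unif

/-! ## Triangular quadratic forms -/

section Forms

/-- `Σ_i a_i (z_i + Σ_{j>i} u_{ij} z_j)²`, by recursion on the number of variables. -/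
def qform : (n : ℕ) → (Fin n → ℝ) → (Fin n → Fin n → ℝ) → (Fin n → ℝ) → ℝ
  | 0, _, _, _ => 0
  | n + 1, a, u, z => a 0 * (z 0 + ∑ j : Fin n, u 0 j.succ * z j.succ) ^ 2 +
      qform n (Fin.tail a) (fun i j => u i.succ j.succ) (Fin.tail z)

/-- The dual form `yᵀ A⁻¹ y` of `qform` (`A = Lᵀ diag(a) L`), by recursion. -/
def qdual : (n : ℕ) → (Fin n → ℝ) → (Fin n → Fin n → ℝ) → (Fin n → ℝ) → ℝ
  | 0, _, _, _ => 0
  | n + 1, a, u, y => (y 0) ^ 2 / a 0 +
      qdual n (Fin.tail a) (fun i j => u i.succ j.succ) (fun j => y j.succ - y 0 * u 0 j.succ)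

theorem qform_zero (a : Fin 0 → ℝ) (u : Fin 0 → Fin 0 → ℝ) (z : Fin 0 → ℝ) :
    qform 0 a u z = 0 := rfl

theorem qdual_zero (a : Fin 0 → ℝ) (u : Fin 0 → Fin 0 → ℝ) (z : Fin 0 → ℝ) :
    qdual 0 a u z = 0 := rfl

theorem qform_succ (n : ℕ) (a : Fin (n + 1) → ℝ) (u : Fin (n + 1) → Fin (n + 1) → ℝ)
    (z : Fin (n + 1) → ℝ) :
    qform (n + 1) a u z = a 0 * (z 0 + ∑ j : Fin n, u 0 j.succ * z j.succ) ^ 2 +
      qform n (Fin.tail a) (fun i j => u i.succ j.succ) (Fin.tail z) := rfl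

theorem qdual_succ (n : ℕ) (a : Fin (n + 1) → ℝ) (u : Fin (n + 1) → Fin (n + 1) → ℝ)
    (y : Fin (n + 1) → ℝ) :
    qdual (n + 1) a u y = (y 0) ^ 2 / a 0 +
      qdual n (Fin.tail a) (fun i j => u i.succ j.succ)
        (fun j => y j.succ - y 0 * u 0 j.succ) := rfl

theorem qform_nonneg : ∀ (n : ℕ) (a : Fin n → ℝ) (u : Fin n → Fin n → ℝ) (_ : ∀ i, 0 ≤ a i)
    (z : Fin n → ℝ), 0 ≤ qform n a u z
  | 0, _, _, _, _ => le_rfl
  | n + 1, a, u, ha, z => by
    rw [qform_succ]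
    exact add_nonneg (mul_nonneg (ha 0) (sq_nonneg _))
      (qform_nonneg n _ _ (fun i => ha i.succ) _)

theorem qdual_nonneg : ∀ (n : ℕ) (a : Fin n → ℝ) (u : Fin n → Fin n → ℝ) (_ : ∀ i, 0 ≤ a i)
    (y : Fin n → ℝ), 0 ≤ qdual n a u y
  | 0, _, _, _, _ => le_rfl
  | n + 1, a, u, ha, y => by
    rw [qdual_succ]
    exact add_nonneg (div_nonneg (sq_nonneg _) (ha 0))
      (qdual_nonneg n _ _ (fun i => ha i.succ) _)

/-- `(x', m) ↦ (m, x')` as a vector. -/
def consR (n : ℕ) : (Fin n → ℤ) × ℤ ≃ (Fin (n + 1) → ℤ) where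
  toFun p := Fin.cons p.2 p.1
  invFun x := (Fin.tail x, x 0)
  left_inv p := by simp
  right_inv x := by simp

/-- `(m, x') ↦ (m, x')` as a vector. -/
def consL (n : ℕ) : ℤ × (Fin n → ℤ) ≃ (Fin (n + 1) → ℤ) where
  toFun p := Fin.cons p.1 p.2
  invFun x := (x 0, Fin.tail x)
  left_inv p := by simp
  right_inv x := by simp

theorem cast_cons_add (n : ℕ) (m : ℤ) (x' : Fin n → ℤ) (v : Fin (n + 1) → ℝ) :
    (fun i => (((Fin.cons m x' : Fin (n + 1) → ℤ) i : ℤ) : ℝ) + v i) =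
      Fin.cons ((m : ℝ) + v 0) (fun j => (x' j : ℝ) + v j.succ) := by
  funext i
  refine Fin.cases ?_ (fun j => ?_) i <;> simp

theorem cast_cons_sub (n : ℕ) (m : ℤ) (x' : Fin n → ℤ) (v : Fin (n + 1) → ℝ) :
    (fun i => (((Fin.cons m x' : Fin (n + 1) → ℤ) i : ℤ) : ℝ) - v i) =
      Fin.cons ((m : ℝ) - v 0) (fun j => (x' j : ℝ) - v j.succ) := by
  funext i
  refine Fin.cases ?_ (fun j => ?_) i <;> simp

theorem qform_cons (n : ℕ) (a : Fin (n + 1) → ℝ) (u : Fin (n + 1) → Fin (n + 1) → ℝ) (m : ℝ)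
    (z' : Fin n → ℝ) :
    qform (n + 1) a u (Fin.cons m z') = a 0 * (m + ∑ j : Fin n, u 0 j.succ * z' j) ^ 2 +
      qform n (Fin.tail a) (fun i j => u i.succ j.succ) z' := by
  rw [qform_succ]
  simp

theorem qdual_cons (n : ℕ) (a : Fin (n + 1) → ℝ) (u : Fin (n + 1) → Fin (n + 1) → ℝ) (m : ℝ)
    (y' : Fin n → ℝ) :
    qdual (n + 1) a u (Fin.cons m y') = m ^ 2 / a 0 +
      qdual n (Fin.tail a) (fun i j => u i.succ j.succ) (fun j => y' j - m * u 0 j.succ) := by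
  rw [qdual_succ]
  simp

/-- `|term|`: `exp(-π t q(x + v))` -/
def normE (n : ℕ) (a : Fin n → ℝ) (u : Fin n → Fin n → ℝ) (t : ℝ) (v : Fin n → ℝ)
    (x : Fin n → ℤ) : ℝ :=
  rexp (-(π * t) * qform n a u (fun i => (x i : ℝ) + v i))

/-- `|dterm|`: `exp(-π t q*(y - b))` -/
def normD (n : ℕ) (a : Fin n → ℝ) (u : Fin n → Fin n → ℝ) (t : ℝ) (b : Fin n → ℝ)
    (y : Fin n → ℤ) : ℝ :=
  rexp (-(π * t) * qdual n a u (fun i => (y i : ℝ) - b i))

theorem normE_cons (n : ℕ) (a : Fin (n + 1) → ℝ) (u : Fin (n + 1) → Fin (n + 1) → ℝ) (t : ℝ)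
    (v : Fin (n + 1) → ℝ) (m : ℤ) (x' : Fin n → ℤ) :
    normE (n + 1) a u t v (Fin.cons m x') =
      rexp (-(π * t * a 0) * ((m : ℝ) +
        (v 0 + ∑ j : Fin n, u 0 j.succ * ((x' j : ℝ) + v j.succ))) ^ 2) *
      normE n (Fin.tail a) (fun i j => u i.succ j.succ) t (Fin.tail v) x' := by
  rw [normE, normE, cast_cons_add, qform_cons, ← Real.exp_add]
  congr 1
  simp only [Fin.tail]
  ring

theorem normD_cons (n : ℕ) (a : Fin (n + 1) → ℝ) (u : Fin (n + 1) → Fin (n + 1) → ℝ) (t : ℝ)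
    (b : Fin (n + 1) → ℝ) (k : ℤ) (y' : Fin n → ℤ) :
    normD (n + 1) a u t b (Fin.cons k y') =
      rexp (-(π * t / a 0) * ((k : ℝ) + -b 0) ^ 2) *
      normD n (Fin.tail a) (fun i j => u i.succ j.succ) t
        (fun j => b j.succ + ((k : ℝ) - b 0) * u 0 j.succ) y' := by
  rw [normD, normD, cast_cons_sub, qdual_cons, ← Real.exp_add]
  congr 1
  have : (fun j : Fin n => ((y' j : ℝ) - b j.succ) - ((k : ℝ) - b 0) * u 0 j.succ) =
      fun j => (y' j : ℝ) - (b j.succ + ((k : ℝ) - b 0) * u 0 j.succ) := by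
    funext j
    ring
  rw [this]
  ring

/-- Uniform bound for `Σ_x exp(-π t q(x + v))`. -/
theorem exists_bound_normE : ∀ (n : ℕ) (a : Fin n → ℝ) (u : Fin n → Fin n → ℝ)
    (_ : ∀ i, 0 < a i) {t : ℝ} (_ : 0 < t),
    ∃ K : ℝ, 0 ≤ K ∧ ∀ v : Fin n → ℝ, Summable (normE n a u t v) ∧ ∑' x, normE n a u t v x ≤ K
  | 0, a, u, _, t, _ => by
    refine ⟨1, zero_le_one, fun v => ⟨(hasSum_fintype _).summable, ?_⟩⟩
    rw [tsum_fintype]
    simp [normE, qform_zero]
  | n + 1, a, u, ha, t, ht => by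
    obtain ⟨K', hK', h'⟩ := exists_bound_normE n (Fin.tail a) (fun i j => u i.succ j.succ)
      (fun i => ha i.succ) ht
    obtain ⟨K₁, hK₁, h₁⟩ := exists_bound_gauss (σ := π * t * a 0)
      (mul_pos (mul_pos pi_pos ht) (ha 0))
    refine ⟨K₁ * K', mul_nonneg hK₁ hK', fun v => ?_⟩
    have key := summable_prod_of_fiber_le
      (fun p : (Fin n → ℤ) × ℤ => normE (n + 1) a u t v (consR n p))
      (fun p => (Real.exp_pos _).le)
      (normE n (Fin.tail a) (fun i j => u i.succ j.succ) t (Fin.tail v)) K₁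
      (fun x' => by
        have := (h₁ (v 0 + ∑ j : Fin n, u 0 j.succ * ((x' j : ℝ) + v j.succ))).1.mul_right
          (normE n (Fin.tail a) (fun i j => u i.succ j.succ) t (Fin.tail v) x')
        refine this.congr fun m => ?_
        simp only [consR, Equiv.coe_fn_mk]
        rw [normE_cons])
      (fun x' => by
        have e : ∀ m : ℤ, normE (n + 1) a u t v (consR n (x', m)) =
            rexp (-(π * t * a 0) * ((m : ℝ) +
              (v 0 + ∑ j : Fin n, u 0 j.succ * ((x' j : ℝ) + v j.succ))) ^ 2) *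
            normE n (Fin.tail a) (fun i j => u i.succ j.succ) t (Fin.tail v) x' := by
          intro m
          simp only [consR, Equiv.coe_fn_mk]
          rw [normE_cons]
        rw [tsum_congr e, tsum_mul_right]
        exact mul_le_mul_of_nonneg_right
          (by simpa only [neg_mul] using
            (h₁ (v 0 + ∑ j : Fin n, u 0 j.succ * ((x' j : ℝ) + v j.succ))).2)
          (Real.exp_pos _).le)
      (h' (Fin.tail v)).1
    refine ⟨(consR n).summable_iff.mp key.1, ?_⟩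
    rw [← (consR n).tsum_eq]
    exact key.2.trans (mul_le_mul_of_nonneg_left (h' (Fin.tail v)).2 hK₁)

/-- Uniform bound for `Σ_y exp(-π t q*(y - b))`. -/
theorem exists_bound_normD : ∀ (n : ℕ) (a : Fin n → ℝ) (u : Fin n → Fin n → ℝ)
    (_ : ∀ i, 0 < a i) {t : ℝ} (_ : 0 < t),
    ∃ K : ℝ, 0 ≤ K ∧ ∀ b : Fin n → ℝ, Summable (normD n a u t b) ∧ ∑' y, normD n a u t b y ≤ K
  | 0, a, u, _, t, _ => by
    refine ⟨1, zero_le_one, fun v => ⟨(hasSum_fintype _).summable, ?_⟩⟩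
    rw [tsum_fintype]
    simp [normD, qdual_zero]
  | n + 1, a, u, ha, t, ht => by
    obtain ⟨K', hK', h'⟩ := exists_bound_normD n (Fin.tail a) (fun i j => u i.succ j.succ)
      (fun i => ha i.succ) ht
    obtain ⟨K₁, hK₁, h₁⟩ := exists_bound_gauss (σ := π * t / a 0)
      (div_pos (mul_pos pi_pos ht) (ha 0))
    refine ⟨K' * K₁, mul_nonneg hK' hK₁, fun b => ?_⟩
    have key := summable_prod_of_fiber_le
      (fun p : ℤ × (Fin n → ℤ) => normD (n + 1) a u t b (consL n p))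
      (fun p => (Real.exp_pos _).le)
      (fun k : ℤ => rexp (-(π * t / a 0) * ((k : ℝ) + -b 0) ^ 2)) K'
      (fun k => by
        have := (h' (fun j => b j.succ + ((k : ℝ) - b 0) * u 0 j.succ)).1.mul_left
          (rexp (-(π * t / a 0) * ((k : ℝ) + -b 0) ^ 2))
        refine this.congr fun y' => ?_
        simp only [consL, Equiv.coe_fn_mk]
        rw [normD_cons])
      (fun k => by
        have e : ∀ y' : Fin n → ℤ, normD (n + 1) a u t b (consL n (k, y')) =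
            rexp (-(π * t / a 0) * ((k : ℝ) + -b 0) ^ 2) *
            normD n (Fin.tail a) (fun i j => u i.succ j.succ) t
              (fun j => b j.succ + ((k : ℝ) - b 0) * u 0 j.succ) y' := by
          intro y'
          simp only [consL, Equiv.coe_fn_mk]
          rw [normD_cons]
        rw [tsum_congr e, tsum_mul_left, mul_comm]
        exact mul_le_mul_of_nonneg_right
          (h' (fun j => b j.succ + ((k : ℝ) - b 0) * u 0 j.succ)).2 (Real.exp_pos _).le)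
      (by simpa only [neg_mul] using (h₁ (-b 0)).1)
    refine ⟨(consL n).summable_iff.mp key.1, ?_⟩
    rw [← (consL n).tsum_eq]
    exact key.2.trans (mul_le_mul_of_nonneg_left
      (by simpa only [neg_mul] using (h₁ (-b 0)).2) hK')

end Forms

/-! ## The theta series in `n` variables and its inversion -/

section Main

/-- `exp(π i τ q(x + v) + 2π i b·x)` -/
def term (n : ℕ) (a : Fin n → ℝ) (u : Fin n → Fin n → ℝ) (τ : ℂ) (b v : Fin n → ℝ)
    (x : Fin n → ℤ) : ℂ :=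
  cexp (π * I * τ * ((qform n a u (fun i => (x i : ℝ) + v i) : ℝ) : ℂ) +
    2 * π * I * ((∑ i, b i * (x i : ℝ) : ℝ) : ℂ))

/-- `exp(-π i q*(y - b)/τ + 2π i (y - b)·v)` -/
def dterm (n : ℕ) (a : Fin n → ℝ) (u : Fin n → Fin n → ℝ) (τ : ℂ) (b v : Fin n → ℝ)
    (y : Fin n → ℤ) : ℂ :=
  cexp (-π * I * ((qdual n a u (fun i => (y i : ℝ) - b i) : ℝ) : ℂ) / τ +
    2 * π * I * ((∑ i, ((y i : ℝ) - b i) * v i : ℝ) : ℂ))

theorem norm_term (n : ℕ) (a : Fin n → ℝ) (u : Fin n → Fin n → ℝ) (τ : ℂ) (b v : Fin n → ℝ)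
    (x : Fin n → ℤ) : ‖term n a u τ b v x‖ = normE n a u τ.im v x := by
  rw [term, normE, Complex.norm_exp]
  congr 1
  generalize qform n a u (fun i => (x i : ℝ) + v i) = r
  generalize (∑ i, b i * (x i : ℝ)) = s
  have h1 : (π : ℂ) * I * τ * (r : ℂ) = ((π * r : ℝ) : ℂ) * (I * τ) := by
    push_cast
    ring
  have h2 : (2 : ℂ) * π * I * (s : ℂ) = ((2 * π * s : ℝ) : ℂ) * I := by
    push_cast
    ring
  rw [h1, h2, add_re, re_ofReal_mul, re_ofReal_mul, I_re, mul_zero, add_zero, mul_re, I_re, I_im]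
  ring

theorem norm_dterm (n : ℕ) (a : Fin n → ℝ) (u : Fin n → Fin n → ℝ) (τ : ℂ) (b v : Fin n → ℝ)
    (y : Fin n → ℤ) : ‖dterm n a u τ b v y‖ = normD n a u (-1 / τ).im b y := by
  rw [dterm, normD, Complex.norm_exp]
  congr 1
  generalize qdual n a u (fun i => (y i : ℝ) - b i) = r
  generalize (∑ i, ((y i : ℝ) - b i) * v i) = s
  have h1 : -(π : ℂ) * I * (r : ℂ) / τ = ((π * r : ℝ) : ℂ) * (I * (-1 / τ)) := by
    push_cast
    ring
  have h2 : (2 : ℂ) * π * I * (s : ℂ) = ((2 * π * s : ℝ) : ℂ) * I := by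
    push_cast
    ring
  rw [h1, h2, add_re, re_ofReal_mul, re_ofReal_mul, I_re, mul_zero, add_zero, mul_re, I_re, I_im]
  ring

theorem summable_term (n : ℕ) (a : Fin n → ℝ) (u : Fin n → Fin n → ℝ) (ha : ∀ i, 0 < a i)
    {τ : ℂ} (hτ : 0 < τ.im) (b v : Fin n → ℝ) : Summable (term n a u τ b v) := by
  obtain ⟨K, -, h⟩ := exists_bound_normE n a u ha hτ
  exact Summable.of_norm ((h v).1.congr fun x => (norm_term n a u τ b v x).symm)

theorem summable_dterm (n : ℕ) (a : Fin n → ℝ) (u : Fin n → Fin n → ℝ) (ha : ∀ i, 0 < a i)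
    {τ : ℂ} (hτ : 0 < τ.im) (b v : Fin n → ℝ) : Summable (dterm n a u τ b v) := by
  obtain ⟨K, -, h⟩ := exists_bound_normD n a u ha (im_neg_one_div_pos hτ)
  exact Summable.of_norm ((h b).1.congr fun y => (norm_dterm n a u τ b v y).symm)

theorem term_cons (n : ℕ) (a : Fin (n + 1) → ℝ) (u : Fin (n + 1) → Fin (n + 1) → ℝ) (τ : ℂ)
    (b v : Fin (n + 1) → ℝ) (m : ℤ) (x' : Fin n → ℤ) :
    term (n + 1) a u τ b v (Fin.cons m x') =
      term1 τ (a 0) (b 0) (v 0 + ∑ j : Fin n, u 0 j.succ * ((x' j : ℝ) + v j.succ)) m *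
        term n (Fin.tail a) (fun i j => u i.succ j.succ) τ (Fin.tail b) (Fin.tail v) x' := by
  rw [term, term, term1, ← Complex.exp_add, cast_cons_add, qform_cons, Fin.sum_univ_succ]
  congr 1
  simp only [Fin.tail, Fin.cons_zero, Fin.cons_succ]
  generalize qform n (fun i => a i.succ) (fun i j => u i.succ j.succ)
    (fun j => (x' j : ℝ) + v j.succ) = r
  generalize (∑ j : Fin n, u 0 j.succ * ((x' j : ℝ) + v j.succ)) = s
  generalize (∑ i : Fin n, b i.succ * (x' i : ℝ)) = w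
  push_cast
  ring

theorem dterm1_mul_term (n : ℕ) (a : Fin (n + 1) → ℝ) (u : Fin (n + 1) → Fin (n + 1) → ℝ)
    (τ : ℂ) (b v : Fin (n + 1) → ℝ) (k : ℤ) (x' : Fin n → ℤ) :
    dterm1 τ (a 0) (b 0) (v 0 + ∑ j : Fin n, u 0 j.succ * ((x' j : ℝ) + v j.succ)) k *
        term n (Fin.tail a) (fun i j => u i.succ j.succ) τ (Fin.tail b) (Fin.tail v) x' =
      cexp (-π * I * (k - b 0) ^ 2 / (a 0 * τ) +
          2 * π * I * (k - b 0) * ((v 0 + ∑ j : Fin n, u 0 j.succ * v j.succ : ℝ) : ℂ)) *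
        term n (Fin.tail a) (fun i j => u i.succ j.succ) τ
          (fun j => b j.succ + ((k : ℝ) - b 0) * u 0 j.succ) (Fin.tail v) x' := by
  have h1 : ∑ j : Fin n, u 0 j.succ * ((x' j : ℝ) + v j.succ) =
      ∑ j : Fin n, u 0 j.succ * (x' j : ℝ) + ∑ j : Fin n, u 0 j.succ * v j.succ := by
    simp only [mul_add, Finset.sum_add_distrib]
  have h2 : ∑ j : Fin n, (b j.succ + ((k : ℝ) - b 0) * u 0 j.succ) * (x' j : ℝ) =
      ∑ j : Fin n, b j.succ * (x' j : ℝ) +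
        ((k : ℝ) - b 0) * ∑ j : Fin n, u 0 j.succ * (x' j : ℝ) := by
    simp only [add_mul, Finset.sum_add_distrib, Finset.mul_sum, mul_assoc]
  rw [dterm1, term, term, ← Complex.exp_add, ← Complex.exp_add, h1, h2]
  congr 1
  simp only [Fin.tail]
  generalize qform n (fun i => a i.succ) (fun i j => u i.succ j.succ)
    (fun j => (x' j : ℝ) + v j.succ) = r
  generalize (∑ j : Fin n, u 0 j.succ * (x' j : ℝ)) = s₁
  generalize (∑ j : Fin n, u 0 j.succ * v j.succ) = s₂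
  generalize (∑ j : Fin n, b j.succ * (x' j : ℝ)) = s₃
  push_cast
  ring

theorem dterm_cons (n : ℕ) (a : Fin (n + 1) → ℝ) (u : Fin (n + 1) → Fin (n + 1) → ℝ)
    (τ : ℂ) (b v : Fin (n + 1) → ℝ) (k : ℤ) (y' : Fin n → ℤ) :
    cexp (-π * I * (k - b 0) ^ 2 / (a 0 * τ) +
          2 * π * I * (k - b 0) * ((v 0 + ∑ j : Fin n, u 0 j.succ * v j.succ : ℝ) : ℂ)) *
        dterm n (Fin.tail a) (fun i j => u i.succ j.succ) τ
          (fun j => b j.succ + ((k : ℝ) - b 0) * u 0 j.succ) (Fin.tail v) y' =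
      dterm (n + 1) a u τ b v (Fin.cons k y') := by
  have h0 : (fun j : Fin n => (y' j : ℝ) - (b j.succ + ((k : ℝ) - b 0) * u 0 j.succ)) =
      fun j => ((y' j : ℝ) - b j.succ) - ((k : ℝ) - b 0) * u 0 j.succ := by
    funext j
    ring
  have h1 : ∑ j : Fin n, ((y' j : ℝ) - (b j.succ + ((k : ℝ) - b 0) * u 0 j.succ)) * v j.succ =
      ∑ j : Fin n, ((y' j : ℝ) - b j.succ) * v j.succ -
        ((k : ℝ) - b 0) * ∑ j : Fin n, u 0 j.succ * v j.succ := by
    simp only [sub_mul, add_mul, Finset.sum_sub_distrib, Finset.sum_add_distrib, Finset.mul_sum,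
      mul_assoc]
    ring
  rw [dterm, dterm, ← Complex.exp_add, cast_cons_sub, qdual_cons, Fin.sum_univ_succ, h0]
  congr 1
  generalize qdual n (Fin.tail a) (fun i j => u i.succ j.succ)
    (fun j => ((y' j : ℝ) - b j.succ) - ((k : ℝ) - b 0) * u 0 j.succ) = r
  simp only [Fin.tail, Fin.cons_zero, Fin.cons_succ]
  rw [h1]
  generalize (∑ j : Fin n, u 0 j.succ * v j.succ) = s₂
  generalize (∑ j : Fin n, ((y' j : ℝ) - b j.succ) * v j.succ) = s₃
  push_cast
  ring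


/-- **Theta inversion in `n` variables** for a positive definite form in triangular form, with real
characteristics `b`, `v`. -/
theorem theta_inversion : ∀ (n : ℕ) (a : Fin n → ℝ) (u : Fin n → Fin n → ℝ) (_ : ∀ i, 0 < a i)
    {τ : ℂ} (_ : 0 < τ.im) (b v : Fin n → ℝ),
    ∑' x : Fin n → ℤ, term n a u τ b v x =
      (∏ i, 1 / (-I * a i * τ) ^ (1 / 2 : ℂ)) * ∑' y : Fin n → ℤ, dterm n a u τ b v y
  | 0, a, u, _, τ, _, b, v => by
    rw [tsum_fintype, tsum_fintype]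
    simp [term, dterm, qform_zero, qdual_zero]
  | n + 1, a, u, ha, τ, hτ, b, v => by
    have ha' : ∀ i : Fin n, 0 < Fin.tail a i := fun i => ha i.succ
    have ht' := im_neg_one_div_pos hτ
    -- abbreviations
    set a' : Fin n → ℝ := Fin.tail a with ha'_def
    set u' : Fin n → Fin n → ℝ := fun i j => u i.succ j.succ with hu'_def
    set v' : Fin n → ℝ := Fin.tail v with hv'_def
    set c : (Fin n → ℤ) → ℝ :=
      fun x' => v 0 + ∑ j : Fin n, u 0 j.succ * ((x' j : ℝ) + v j.succ) with hc_def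
    set b'' : ℤ → Fin n → ℝ := fun k j => b j.succ + ((k : ℝ) - b 0) * u 0 j.succ with hb''_def
    set ck : ℤ → ℂ := fun k => cexp (-π * I * (k - b 0) ^ 2 / (a 0 * τ) +
      2 * π * I * (k - b 0) * ((v 0 + ∑ j : Fin n, u 0 j.succ * v j.succ : ℝ) : ℂ)) with hck_def
    set P₀ : ℂ := 1 / (-I * a 0 * τ) ^ (1 / 2 : ℂ) with hP₀
    set P' : ℂ := ∏ i : Fin n, 1 / (-I * a' i * τ) ^ (1 / 2 : ℂ) with hP'
    -- Step A: sum over `x₀` first
    have hsumm := summable_term (n + 1) a u ha hτ b v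
    have hA : ∑' x : Fin (n + 1) → ℤ, term (n + 1) a u τ b v x =
        ∑' x' : Fin n → ℤ, ∑' m : ℤ, term (n + 1) a u τ b v (consR n (x', m)) := by
      rw [← (consR n).tsum_eq]
      exact ((consR n).summable_iff.mpr hsumm).tsum_prod
    -- Step B: the inner sum by the one-variable formula
    have hB : ∀ x' : Fin n → ℤ, ∑' m : ℤ, term (n + 1) a u τ b v (consR n (x', m)) =
        P₀ * ∑' k : ℤ, dterm1 τ (a 0) (b 0) (c x') k * term n a' u' τ (Fin.tail b) v' x' := by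
      intro x'
      have e : ∀ m : ℤ, term (n + 1) a u τ b v (consR n (x', m)) =
          term1 τ (a 0) (b 0) (c x') m * term n a' u' τ (Fin.tail b) v' x' := by
        intro m
        simp only [consR, Equiv.coe_fn_mk]
        rw [term_cons]
      rw [tsum_congr e, tsum_mul_right, one_dim hτ (ha 0), mul_assoc, tsum_mul_right]
    -- Step C: interchange the sums over `x'` and `k`
    have hG : Summable (Function.uncurry fun (x' : Fin n → ℤ) (k : ℤ) =>
        dterm1 τ (a 0) (b 0) (c x') k * term n a' u' τ (Fin.tail b) v' x') := by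
      apply Summable.of_norm
      obtain ⟨K, -, hK⟩ := exists_bound_normE n a' u' ha' hτ
      have h1 : Summable fun k : ℤ => rexp (-(π * (-1 / τ).im / a 0) * ((k : ℝ) - b 0) ^ 2) := by
        have := (summable_dterm1 hτ (ha 0) (b 0) 0).norm
        exact this.congr fun k => norm_dterm1 τ (a 0) (b 0) 0 k
      have := Summable.mul_of_nonneg (hK v').1 h1 (fun _ => (Real.exp_pos _).le)
        (fun _ => (Real.exp_pos _).le)
      refine this.congr fun p => ?_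
      rw [Function.uncurry, norm_mul, norm_dterm1, norm_term, mul_comm]
    have hC : ∑' x' : Fin n → ℤ, ∑' k : ℤ,
          dterm1 τ (a 0) (b 0) (c x') k * term n a' u' τ (Fin.tail b) v' x' =
        ∑' k : ℤ, ∑' x' : Fin n → ℤ,
          dterm1 τ (a 0) (b 0) (c x') k * term n a' u' τ (Fin.tail b) v' x' :=
      hG.tsum_comm.symm
    -- Step D: the inner sum over `x'` by the induction hypothesis
    have hD : ∀ k : ℤ, ∑' x' : Fin n → ℤ,
          dterm1 τ (a 0) (b 0) (c x') k * term n a' u' τ (Fin.tail b) v' x' =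
        P' * ∑' y' : Fin n → ℤ, dterm (n + 1) a u τ b v (consL n (k, y')) := by
      intro k
      have e : ∀ x' : Fin n → ℤ,
          dterm1 τ (a 0) (b 0) (c x') k * term n a' u' τ (Fin.tail b) v' x' =
          ck k * term n a' u' τ (b'' k) v' x' := fun x' => dterm1_mul_term n a u τ b v k x'
      rw [tsum_congr e, tsum_mul_left, theta_inversion n a' u' ha' hτ (b'' k) v', mul_left_comm,
        ← tsum_mul_left]
      congr 1
      refine tsum_congr fun y' => ?_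
      simp only [consL, Equiv.coe_fn_mk]
      exact dterm_cons n a u τ b v k y'
    -- Step E: reassemble
    have hsummD := summable_dterm (n + 1) a u ha hτ b v
    have hE : ∑' k : ℤ, ∑' y' : Fin n → ℤ, dterm (n + 1) a u τ b v (consL n (k, y')) =
        ∑' y : Fin (n + 1) → ℤ, dterm (n + 1) a u τ b v y := by
      rw [← (consL n).tsum_eq]
      exact ((consL n).summable_iff.mpr hsummD).tsum_prod.symm
    have hprod : (∏ i : Fin (n + 1), 1 / (-I * a i * τ) ^ (1 / 2 : ℂ)) = P₀ * P' := by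
      rw [Fin.prod_univ_succ]
      rfl
    rw [hA, tsum_congr hB, tsum_mul_left, hC, tsum_congr hD, tsum_mul_left, hE, hprod, mul_assoc]

end Main

/-! ## Complements for the consumers -/

section Complements

theorem summable_normE (n : ℕ) (a : Fin n → ℝ) (u : Fin n → Fin n → ℝ) (ha : ∀ i, 0 < a i)
    {t : ℝ} (ht : 0 < t) (v : Fin n → ℝ) : Summable (normE n a u t v) := by
  obtain ⟨K, -, h⟩ := exists_bound_normE n a u ha ht
  exact (h v).1

theorem summable_normD (n : ℕ) (a : Fin n → ℝ) (u : Fin n → Fin n → ℝ) (ha : ∀ i, 0 < a i)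
    {t : ℝ} (ht : 0 < t) (b : Fin n → ℝ) : Summable (normD n a u t b) := by
  obtain ⟨K, -, h⟩ := exists_bound_normD n a u ha ht
  exact (h b).1

/-- Locally uniform domination (for holomorphy and boundedness of the theta series):
for `ε ≤ Im τ` the terms are dominated by the summable family `normE n a u ε v`. -/
theorem norm_term_le (n : ℕ) (a : Fin n → ℝ) (u : Fin n → Fin n → ℝ) (ha : ∀ i, 0 < a i)
    {τ : ℂ} {ε : ℝ} (hε : ε ≤ τ.im) (b v : Fin n → ℝ) (x : Fin n → ℤ) :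
    ‖term n a u τ b v x‖ ≤ normE n a u ε v x := by
  rw [norm_term, normE, normE]
  apply Real.exp_le_exp.mpr
  have hq := qform_nonneg n a u (fun i => (ha i).le) (fun i => (x i : ℝ) + v i)
  have : π * ε ≤ π * τ.im := mul_le_mul_of_nonneg_left hε pi_pos.le
  nlinarith

theorem norm_dterm_le (n : ℕ) (a : Fin n → ℝ) (u : Fin n → Fin n → ℝ) (ha : ∀ i, 0 < a i)
    {τ : ℂ} {ε : ℝ} (hε : ε ≤ (-1 / τ).im) (b v : Fin n → ℝ) (y : Fin n → ℤ) :
    ‖dterm n a u τ b v y‖ ≤ normD n a u ε b y := by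
  rw [norm_dterm, normD, normD]
  apply Real.exp_le_exp.mpr
  have hq := qdual_nonneg n a u (fun i => (ha i).le) (fun i => (y i : ℝ) - b i)
  have : π * ε ≤ π * (-1 / τ).im := mul_le_mul_of_nonneg_left hε pi_pos.le
  nlinarith

/-- `((-iτ)^{1/2})² = -iτ` -/
theorem sqrt_sq (w : ℂ) : (w ^ (1 / 2 : ℂ)) ^ 2 = w := by
  rw [one_div]
  exact_mod_cast Complex.cpow_nat_inv_pow w two_ne_zero

theorem cpow_half_ofReal_mul {r : ℝ} (hr : 0 < r) {w : ℂ} (hw : w ≠ 0) :
    ((r : ℂ) * w) ^ (1 / 2 : ℂ) = (Real.sqrt r : ℂ) * w ^ (1 / 2 : ℂ) := by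
  have hr0 : (r : ℂ) ≠ 0 := by exact_mod_cast hr.ne'
  rw [Complex.cpow_def_of_ne_zero (mul_ne_zero hr0 hw), Complex.cpow_def_of_ne_zero hw,
    Complex.log_ofReal_mul hr hw, add_mul, Complex.exp_add]
  congr 1
  rw [Real.sqrt_eq_rpow, Complex.ofReal_cpow hr.le, Complex.cpow_def_of_ne_zero hr0,
    Complex.ofReal_log hr.le]
  push_cast
  rfl

/-- The prefactor: `Π_i (-i a_i τ)^{-1/2} = (Π_i √a_i)⁻¹ ((-iτ)^{1/2})^{-n}`. -/
theorem prefactor_eq (n : ℕ) (a : Fin n → ℝ) (ha : ∀ i, 0 < a i) {τ : ℂ} (hτ : τ ≠ 0) :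
    (∏ i, 1 / (-I * a i * τ) ^ (1 / 2 : ℂ)) =
      ((∏ i, Real.sqrt (a i) : ℝ) : ℂ)⁻¹ * (((-I * τ) ^ (1 / 2 : ℂ)) ^ n)⁻¹ := by
  have hw : -I * τ ≠ 0 := mul_ne_zero (neg_ne_zero.mpr I_ne_zero) hτ
  have e : ∀ i, 1 / (-I * a i * τ) ^ (1 / 2 : ℂ) =
      ((Real.sqrt (a i) : ℝ) : ℂ)⁻¹ * ((-I * τ) ^ (1 / 2 : ℂ))⁻¹ := by
    intro i
    have : -I * a i * τ = ((a i : ℝ) : ℂ) * (-I * τ) := by ring
    rw [this, cpow_half_ofReal_mul (ha i) hw, one_div, mul_inv]
  rw [Finset.prod_congr rfl fun i _ => e i, Finset.prod_mul_distrib, Finset.prod_const,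
    Finset.card_univ, Fintype.card_fin, Complex.ofReal_prod, Finset.prod_inv_distrib, inv_pow]

/-- **The `S`-transformation** of the theta series with characteristic `v`, in explicit form:
`Σ_x exp(π i (-1/z) q(x + v)) = (Π √a_i)⁻¹ ((i/z)^{1/2})^{-n} Σ_y exp(π i z q*(y) + 2π i y·v)`. -/
theorem theta_inversion_S (n : ℕ) (a : Fin n → ℝ) (u : Fin n → Fin n → ℝ) (ha : ∀ i, 0 < a i)
    {z : ℂ} (hz : 0 < z.im) (v : Fin n → ℝ) :
    ∑' x : Fin n → ℤ, cexp (π * I * (-1 / z) *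
        ((qform n a u (fun i => (x i : ℝ) + v i) : ℝ) : ℂ)) =
      ((∏ i, Real.sqrt (a i) : ℝ) : ℂ)⁻¹ * (((-I * (-1 / z)) ^ (1 / 2 : ℂ)) ^ n)⁻¹ *
        ∑' y : Fin n → ℤ, cexp (π * I * z * ((qdual n a u (fun i => (y i : ℝ)) : ℝ) : ℂ) +
          2 * π * I * ((∑ i, (y i : ℝ) * v i : ℝ) : ℂ)) := by
  have hz0 : z ≠ 0 := fun h => by simp [h] at hz
  have hτ : (-1 / z) ≠ 0 := div_ne_zero (neg_ne_zero.mpr one_ne_zero) hz0
  have key := theta_inversion n a u ha (im_neg_one_div_pos hz) 0 v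
  rw [prefactor_eq n a ha hτ] at key
  have e1 : ∀ x : Fin n → ℤ, term n a u (-1 / z) 0 v x = cexp (π * I * (-1 / z) *
      ((qform n a u (fun i => (x i : ℝ) + v i) : ℝ) : ℂ)) := by
    intro x
    simp [term]
  have e2 : ∀ y : Fin n → ℤ, dterm n a u (-1 / z) 0 v y =
      cexp (π * I * z * ((qdual n a u (fun i => (y i : ℝ)) : ℝ) : ℂ) +
          2 * π * I * ((∑ i, (y i : ℝ) * v i : ℝ) : ℂ)) := by
    intro y
    simp only [dterm, Pi.zero_apply, sub_zero]
    congr 2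
    field_simp
  rw [tsum_congr e1, tsum_congr e2] at key
  exact key

/-- For four variables the prefactor is `-z² / Π √a_i`. -/
theorem prefactor_four {z : ℂ} (hz : z ≠ 0) :
    (((-I * (-1 / z)) ^ (1 / 2 : ℂ)) ^ 4)⁻¹ = -z ^ 2 := by
  have : ((-I * (-1 / z)) ^ (1 / 2 : ℂ)) ^ 4 = ((-I * (-1 / z)) ^ 2) := by
    rw [show (4 : ℕ) = 2 * 2 from rfl, pow_mul, sqrt_sq]
  rw [this]
  field_simp
  ring_nf
  simp [I_sq]

end Complements

end Fermat.Agent.S16.LB.PoissonGauss
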