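/-
PROJECT E (S16), slice E-LB, glue (helper5): from the theta inversion of `LB/PoissonGauss`
(triangular form `qform 4 a u`, dual `qdual 4 a u`) to the analytic hypotheses of

* `LB/ThetaS.slash_S_theta` / `LB/ThetaSQuat.slash_S_charD` (helper25): `hPG`, `hsum`;
* `LB/ThetaFun.ThetaData` (helper2): `nonneg`, `summ`.

GENERIC in the lattice `(A, B, p)` and the triangular data `(a, u)`: the three bridge identities
(`Bridge.hq`, `Bridge.hqd`, `Bridge.hprod`) are hypotheses (`LB/LatticeBridge`, helper1, proves them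
for the quaternion lattice of `QuatLattice`).
-/
import Mathlib
import Fermat.Agent.S16.LB.PoissonGauss
import Fermat.Agent.S16.LB.ThetaS
import Fermat.Agent.S16.LB.ThetaFun

set_option autoImplicit false

noncomputable section

namespace Fermat.Agent.S16.LB.PGBridge

open Complex UpperHalfPlane Matrix
open Fermat.Agent.S16.LB.PoissonGauss Fermat.Agent.S16.LB.ThetaS
open scoped MatrixGroups ModularForm Real

/-- The triangular data `(a, u)` computes the real quadratic form of `A` and (through `qdual`) the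
form `yᵀ A⁻¹ y = yᵀ B y / p`; `det A = Π a_i = p²`. -/
structure Bridge (A B : Matrix (Fin 4) (Fin 4) ℤ) (p : ℕ) (a : Fin 4 → ℝ)
    (u : Fin 4 → Fin 4 → ℝ) : Prop where
  hp : p ≠ 0
  pos : ∀ i, 0 < a i
  hq : ∀ x : Fin 4 → ℝ, qform 4 a u x = qA A x
  hqd : ∀ y : Fin 4 → ℝ, qdual 4 a u y = (y ⬝ᵥ castMat B *ᵥ y) / p
  hprod : a 0 * a 1 * a 2 * a 3 = (p : ℝ) ^ 2

variable {A B : Matrix (Fin 4) (Fin 4) ℤ} {p : ℕ} {a : Fin 4 → ℝ} {u : Fin 4 → Fin 4 → ℝ}

theorem qA_eq_quadR (A : Matrix (Fin 4) (Fin 4) ℤ) (x : Fin 4 → ℝ) :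
    qA A x = ThetaFun.quadR A x := rfl

theorem castVec_add_eq (n : Fin 4 → ℤ) (v : Fin 4 → ℝ) :
    castVec n + v = fun i => (n i : ℝ) + v i := rfl

namespace Bridge

/-- `ThetaData.nonneg` -/
theorem nonneg (h : Bridge A B p a u) (x : Fin 4 → ℝ) : 0 ≤ ThetaFun.quadR A x := by
  rw [← qA_eq_quadR, ← h.hq]
  exact qform_nonneg 4 a u (fun i => (h.pos i).le) x

/-- `ThetaData.summ` -/
theorem summ (h : Bridge A B p a u) (ε : ℝ) (hε : 0 < ε) (v : Fin 4 → ℝ) :
    Summable fun n : Fin 4 → ℤ =>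
      Real.exp (-(π * ε * ThetaFun.quadR A (fun i => (n i : ℝ) + v i))) := by
  refine (summable_normE 4 a u h.pos hε v).congr fun n => ?_
  rw [normE, h.hq, qA_eq_quadR]
  congr 1
  ring

/-- The hypotheses of `ThetaFun` from the bridge (symmetry and evenness are lattice facts). -/
theorem thetaData (h : Bridge A B p a u) (hsymm : A.IsSymm) (heven : ∀ i, Even (A i i)) :
    ThetaFun.ThetaData A :=
  ⟨hsymm, heven, h.nonneg, h.summ⟩

theorem qdual_castVec (h : Bridge A B p a u) (y : Fin 4 → ℤ) :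
    qdual 4 a u (fun i => (y i : ℝ)) = ((y ⬝ᵥ B *ᵥ y : ℤ) : ℝ) / p := by
  rw [h.hqd, cast_dotProduct, castVec_mulVec]
  rfl

theorem dterm_eq_dualTerm (h : Bridge A B p a u) (v : Fin 4 → ℝ) (z : ℍ) (y : Fin 4 → ℤ) :
    dterm 4 a u (-1 / (z : ℂ)) 0 v y = dualTerm B p v z y := by
  have hz0 : (z : ℂ) ≠ 0 := ne_zero z
  simp only [dterm, dualTerm, Pi.zero_apply, sub_zero]
  rw [h.qdual_castVec]
  congr 2
  field_simp

/-- `hsum` of `ThetaS.slash_S_theta`. -/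
theorem hsum (h : Bridge A B p a u) (v : Fin 4 → ℝ) (z : ℍ) : Summable (dualTerm B p v z) :=
  (summable_dterm 4 a u h.pos (im_neg_one_div_pos z.im_pos) 0 v).congr
    fun y => h.dterm_eq_dualTerm v z y

theorem prod_sqrt (h : Bridge A B p a u) : ∏ i, Real.sqrt (a i) = (p : ℝ) := by
  rw [Fin.prod_univ_four, ← Real.sqrt_mul (h.pos 0).le, ← Real.sqrt_mul
    (mul_pos (h.pos 0) (h.pos 1)).le, ← Real.sqrt_mul
    (mul_pos (mul_pos (h.pos 0) (h.pos 1)) (h.pos 2)).le, h.hprod,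
    Real.sqrt_sq (Nat.cast_nonneg p)]

/-- `hPG` of `ThetaS.slash_S_theta` (with `θ v z := ∑' n, thetaTerm A v z n`). -/
theorem hPG (h : Bridge A B p a u) (v : Fin 4 → ℝ) (z : ℍ) :
    ∑' n : Fin 4 → ℤ, thetaTerm A v (ModularGroup.S • z) n =
      -((z : ℂ) ^ 2) / p * ∑' y : Fin 4 → ℤ, dualTerm B p v z y := by
  have hz0 : (z : ℂ) ≠ 0 := ne_zero z
  have key := theta_inversion_S 4 a u h.pos z.im_pos v
  rw [prefactor_four hz0, h.prod_sqrt] at key
  have hS : ((ModularGroup.S • z : ℍ) : ℂ) = -1 / (z : ℂ) := by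
    rw [UpperHalfPlane.modular_S_smul]
    simp [neg_div, inv_neg]
  have e1 : ∀ n : Fin 4 → ℤ, thetaTerm A v (ModularGroup.S • z) n =
      cexp (π * Complex.I * (-1 / (z : ℂ)) * ((qform 4 a u (fun i => (n i : ℝ) + v i) : ℝ) : ℂ)) := by
    intro n
    rw [thetaTerm, hS, h.hq, castVec_add_eq]
  have e2 : ∀ y : Fin 4 → ℤ, dualTerm B p v z y =
      cexp (π * Complex.I * z * ((qdual 4 a u (fun i => (y i : ℝ)) : ℝ) : ℂ) +
        2 * π * Complex.I * ((∑ i, (y i : ℝ) * v i : ℝ) : ℂ)) := by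
    intro y
    rw [dualTerm, h.qdual_castVec]
  rw [tsum_congr e1, tsum_congr e2, key]
  push_cast
  ring

/-- `hθ` of `ThetaS.slash_S_theta` for `θ := ThetaFun.thetaV A`. -/
theorem thetaV_eq (A : Matrix (Fin 4) (Fin 4) ℤ) (v : Fin 4 → ℝ) (z : ℍ) :
    ThetaFun.thetaV A v z = ∑' n : Fin 4 → ℤ, thetaTerm A v z n := rfl

/-- `hPG` of `ThetaS.slash_S_theta` for `θ := ThetaFun.thetaV A`. -/
theorem hPG_thetaV (h : Bridge A B p a u) (v : Fin 4 → ℝ) (z : ℍ) :
    ThetaFun.thetaV A v (ModularGroup.S • z) =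
      -((z : ℂ) ^ 2) / p * ∑' y : Fin 4 → ℤ, dualTerm B p v z y :=
  h.hPG v z

end Bridge

end Fermat.Agent.S16.LB.PGBridge
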