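/-
PROJECT E (S16), slice E-LB (bridge, hedge twin of `LB/LatticeBridge`) (helper25): the triangular
decomposition of the quaternary form `gram p m r s` of `S16/QuatLattice.lean`:

`xᵀ A x = 2 (x₀ + x₁/2)² + (q/2) (x₁ + (2r/q) x₃)² + 2pm (x₂ + x₃/(2m))² + (p/(2mq)) x₃²`
(`q = 4m - 1`, `q s = r² + p`), the dual form `yᵀ A⁻¹ y = yᵀ B y / p` (`B = gramDual m r s`),
positivity of the diagonal and `Π aᵢ = p²`, i.e. ONE term
`bridge_gram : PGBridge.Bridge (gram p m r s) (gramDual m r s) p (tA p m) (tU m r)`.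
-/
import Fermat.Agent.S16.QuatLattice
import Fermat.Agent.S16.LB.PGBridge

set_option autoImplicit false

noncomputable section

namespace Fermat.Agent.S16.LB.TriGram

open Matrix
open Fermat.Agent.S16.QuatLattice Fermat.Agent.S16.LB.PoissonGauss Fermat.Agent.S16.LB.ThetaS
open Fermat.Agent.S16.LB.PGBridge

/-- Diagonal of the triangular decomposition of `gram p m r s`. -/
def tA (p : ℕ) (m : ℤ) : Fin 4 → ℝ :=
  ![2, (4 * (m : ℝ) - 1) / 2, 2 * (p : ℝ) * m, (p : ℝ) / (2 * m * (4 * m - 1))]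

/-- Unipotent part of the triangular decomposition of `gram p m r s`. -/
def tU (m r : ℤ) : Fin 4 → Fin 4 → ℝ :=
  ![![0, 1 / 2, 0, 0], ![0, 0, 0, 2 * (r : ℝ) / (4 * m - 1)], ![0, 0, 0, 1 / (2 * (m : ℝ))],
    ![0, 0, 0, 0]]

theorem qform_tri (p : ℕ) (m r s : ℤ) (h : (4 * m - 1) * s = r ^ 2 + p) (hm : 0 < m)
    (x : Fin 4 → ℝ) :
    qform 4 (tA p m) (tU m r) x = qA (QuatLattice.gram p m r s) x := by
  have hmR : (0 : ℝ) < m := by exact_mod_cast hm
  have hqR : (0 : ℝ) < 4 * (m : ℝ) - 1 := by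
    have : (1 : ℝ) ≤ m := by exact_mod_cast hm
    linarith
  have hR : (4 * (m : ℝ) - 1) * s = r ^ 2 + p := by exact_mod_cast h
  have hs : (s : ℝ) = (r ^ 2 + p) / (4 * (m : ℝ) - 1) := by
    field_simp
    linarith
  simp only [qform_succ, qform_zero, Fin.sum_univ_succ, Fin.tail, tA, tU, qA, castMat,
    dotProduct, mulVec, Matrix.map_apply]
  simp [QuatLattice.gram]
  rw [hs]
  field_simp
  ring

theorem qdual_tri (p : ℕ) (hp : p ≠ 0) (m r s : ℤ) (h : (4 * m - 1) * s = r ^ 2 + p) (hm : 0 < m)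
    (y : Fin 4 → ℝ) :
    qdual 4 (tA p m) (tU m r) y = (y ⬝ᵥ castMat (gramDual m r s) *ᵥ y) / p := by
  have hmR : (0 : ℝ) < m := by exact_mod_cast hm
  have hpR : (p : ℝ) ≠ 0 := by exact_mod_cast hp
  have hqR : (0 : ℝ) < 4 * (m : ℝ) - 1 := by
    have : (1 : ℝ) ≤ m := by exact_mod_cast hm
    linarith
  have hR : (4 * (m : ℝ) - 1) * s = r ^ 2 + p := by exact_mod_cast h
  have hs : (s : ℝ) = (r ^ 2 + p) / (4 * (m : ℝ) - 1) := by
    field_simp
    linarith
  simp only [qdual_succ, qdual_zero, Fin.tail, tA, tU, castMat,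
    dotProduct, mulVec, Matrix.map_apply]
  simp [QuatLattice.gramDual, Fin.sum_univ_succ]
  rw [hs]
  field_simp
  ring

theorem tA_pos (p : ℕ) (hp : p ≠ 0) (m : ℤ) (hm : 0 < m) (i : Fin 4) : 0 < tA p m i := by
  have hmR : (0 : ℝ) < m := by exact_mod_cast hm
  have hpR : (0 : ℝ) < p := by exact_mod_cast Nat.pos_of_ne_zero hp
  have hqR : (0 : ℝ) < 4 * (m : ℝ) - 1 := by
    have : (1 : ℝ) ≤ m := by exact_mod_cast hm
    linarith
  fin_cases i
  · simp [tA]
  · simpa [tA] using hqR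
  · simp only [tA]
    show (0 : ℝ) < 2 * (p : ℝ) * m
    positivity
  · simp only [tA]
    show (0 : ℝ) < (p : ℝ) / (2 * m * (4 * m - 1))
    positivity

theorem tA_prod (p : ℕ) (m : ℤ) (hm : 0 < m) :
    tA p m 0 * tA p m 1 * tA p m 2 * tA p m 3 = (p : ℝ) ^ 2 := by
  have hmR : (0 : ℝ) < m := by exact_mod_cast hm
  have hqR : (0 : ℝ) < 4 * (m : ℝ) - 1 := by
    have : (1 : ℝ) ≤ m := by exact_mod_cast hm
    linarith
  simp [tA]
  field_simp

/-- **The bridge term for the quaternary lattice**: all analytic hypotheses of the theta series of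
`gram p m r s` (`hPG`, `hsum`, `ThetaData`) follow from it through `LB/PGBridge`. -/
theorem bridge_gram (p : ℕ) (hp : p ≠ 0) (m r s : ℤ) (h : (4 * m - 1) * s = r ^ 2 + p)
    (hm : 0 < m) :
    Bridge (QuatLattice.gram p m r s) (gramDual m r s) p (tA p m) (tU m r) :=
  ⟨hp, tA_pos p hp m hm, qform_tri p m r s h hm, qdual_tri p hp m r s h hm, tA_prod p m hm⟩

end Fermat.Agent.S16.LB.TriGram
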