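/-
Project E (S16), E-LB: generic analytic facts for exponential sums
`F z = ∑' x, c x * exp (2 π i z w x)` on the upper half plane (`w x ≥ 0`),
given a Gaussian-type majorant: holomorphy, boundedness at `i∞`, and, for integral exponents
with finite fibres, periodicity and the `q`-expansion.
-/
import Mathlib

set_option autoImplicit false

open UpperHalfPlane hiding I
open Complex Filter Function
open scoped Real Topology Manifold

noncomputable section

namespace Fermat.Agent.S16.LB.ExpSum

local notation "𝕢" => Function.Periodic.qParam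

variable {ι : Type*} (c : ι → ℂ) (w : ι → ℝ)

/-- The general term of the exponential sum, as a function of `z : ℂ`. -/
def term (x : ι) (z : ℂ) : ℂ := c x * cexp (2 * π * I * z * w x)

/-- The exponential sum on `ℂ` (only meaningful for `0 < z.im`). -/
def expSumC (z : ℂ) : ℂ := ∑' x, term c w x z

/-- The exponential sum on the upper half plane. -/
def expSum (z : ℍ) : ℂ := expSumC c w (z : ℂ)

theorem expSum_def (z : ℍ) : expSum c w z = ∑' x, c x * cexp (2 * π * I * (z : ℂ) * w x) := rfl

theorem norm_term (x : ι) (z : ℂ) :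
    ‖term c w x z‖ = ‖c x‖ * Real.exp (-2 * π * z.im * w x) := by
  rw [term, norm_mul, Complex.norm_exp]
  congr 2
  simp only [mul_re, mul_im, re_ofNat, im_ofNat, ofReal_re, ofReal_im, Complex.I_re, Complex.I_im]
  ring

variable {c w}

theorem norm_term_le (hw : ∀ x, 0 ≤ w x) (x : ι) {z : ℂ} {ε : ℝ} (hz : ε ≤ z.im) :
    ‖term c w x z‖ ≤ ‖c x‖ * Real.exp (-2 * π * ε * w x) := by
  rw [norm_term]
  refine mul_le_mul_of_nonneg_left (Real.exp_le_exp.mpr ?_) (norm_nonneg _)
  have h1 : ε * w x ≤ z.im * w x := mul_le_mul_of_nonneg_right hz (hw x)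
  have hpi : 0 ≤ 2 * π := by positivity
  nlinarith [mul_le_mul_of_nonneg_left h1 hpi]

/-- The standing hypothesis: a Gaussian-type majorant. -/
def Majorant (c : ι → ℂ) (w : ι → ℝ) : Prop :=
  ∀ ε : ℝ, 0 < ε → Summable fun x => ‖c x‖ * Real.exp (-2 * π * ε * w x)

theorem summable_norm_term (hw : ∀ x, 0 ≤ w x) (hs : Majorant c w) {z : ℂ} (hz : 0 < z.im) :
    Summable fun x => ‖term c w x z‖ :=
  Summable.of_nonneg_of_le (fun _ => norm_nonneg _) (fun x => norm_term_le hw x le_rfl)
    (hs z.im hz)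

theorem summable_term (hw : ∀ x, 0 ≤ w x) (hs : Majorant c w) {z : ℂ} (hz : 0 < z.im) :
    Summable fun x => term c w x z :=
  (summable_norm_term hw hs hz).of_norm

theorem hasSum_expSum (hw : ∀ x, 0 ≤ w x) (hs : Majorant c w) (z : ℍ) :
    HasSum (fun x => c x * cexp (2 * π * I * (z : ℂ) * w x)) (expSum c w z) :=
  (summable_term hw hs z.im_pos).hasSum

/-! ### Holomorphy -/

theorem differentiable_term (x : ι) : Differentiable ℂ (term c w x) := by
  unfold term
  fun_prop

theorem differentiableOn_expSumC (hw : ∀ x, 0 ≤ w x) (hs : Majorant c w) {ε : ℝ} (hε : 0 < ε) :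
    DifferentiableOn ℂ (expSumC c w) {z : ℂ | ε < z.im} := by
  have hopen : IsOpen {z : ℂ | ε < z.im} := isOpen_lt continuous_const Complex.continuous_im
  exact differentiableOn_tsum_of_summable_norm (hs ε hε)
    (fun x => (differentiable_term x).differentiableOn) hopen
    (fun x z hz => norm_term_le hw x (le_of_lt hz))

theorem differentiableAt_expSumC (hw : ∀ x, 0 ≤ w x) (hs : Majorant c w) {z : ℂ}
    (hz : 0 < z.im) : DifferentiableAt ℂ (expSumC c w) z := by
  have hε : 0 < z.im / 2 := by positivity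
  have hopen' : IsOpen {u : ℂ | z.im / 2 < u.im} :=
    isOpen_lt continuous_const Complex.continuous_im
  exact (differentiableOn_expSumC hw hs hε).differentiableAt
    (hopen'.mem_nhds (show z.im / 2 < z.im by linarith))

theorem expSum_comp_ofComplex_eventuallyEq {z : ℂ} (hz : 0 < z.im) :
    (expSum c w ∘ ofComplex) =ᶠ[𝓝 z] expSumC c w := by
  filter_upwards [isOpen_upperHalfPlaneSet.mem_nhds hz] with u hu
  simp only [Function.comp_apply, expSum]
  rw [ofComplex_apply_of_im_pos hu]

/-- **Holomorphy** of the exponential sum. -/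
theorem mdifferentiable_expSum (hw : ∀ x, 0 ≤ w x) (hs : Majorant c w) : MDiff (expSum c w) := by
  intro z
  rw [UpperHalfPlane.mdifferentiableAt_iff]
  exact (differentiableAt_expSumC hw hs z.im_pos).congr_of_eventuallyEq
    (expSum_comp_ofComplex_eventuallyEq z.im_pos)

/-! ### Boundedness at `i∞` -/

theorem norm_expSum_le (hw : ∀ x, 0 ≤ w x) (hs : Majorant c w) {z : ℍ} {ε : ℝ} (hε : 0 < ε)
    (hz : ε ≤ z.im) : ‖expSum c w z‖ ≤ ∑' x, ‖c x‖ * Real.exp (-2 * π * ε * w x) := by
  have h1 : ‖expSum c w z‖ ≤ ∑' x, ‖term c w x (z : ℂ)‖ :=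
    norm_tsum_le_tsum_norm (summable_norm_term hw hs z.im_pos)
  refine h1.trans ?_
  exact Summable.tsum_le_tsum (fun x => norm_term_le hw x hz) (summable_norm_term hw hs z.im_pos)
    (hs ε hε)

/-- **Boundedness at `i∞`** of the exponential sum. -/
theorem isBoundedAtImInfty_expSum (hw : ∀ x, 0 ≤ w x) (hs : Majorant c w) :
    IsBoundedAtImInfty (expSum c w) := by
  rw [UpperHalfPlane.isBoundedAtImInfty_iff]
  exact ⟨∑' x, ‖c x‖ * Real.exp (-2 * π * 1 * w x), 1,
    fun z hz => norm_expSum_le hw hs one_pos hz⟩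

/-! ### Integral exponents: periodicity and `q`-expansion -/

/-- Uniqueness of `q`-expansion coefficients for a plain function on `ℍ`. -/
theorem coeff_unique_of_hasSum {f : ℍ → ℂ} {h : ℝ} {a : ℕ → ℂ} (hh : 0 < h)
    (hfanalytic : AnalyticAt ℂ (cuspFunction h f) 0)
    (hf : ∀ τ : ℍ, HasSum (fun m ↦ a m • 𝕢 h τ ^ m) (f τ)) (m : ℕ) :
    a m = (qExpansion h f).coeff m := by
  have h1 := (hasFPowerSeriesOnBall_cuspFunction hh hfanalytic hf).hasFPowerSeriesAt
  have h2 := hfanalytic.hasFPowerSeriesAt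
  have h3 := congr_arg (FormalMultilinearSeries.coeff · m) (h1.eq_formalMultilinearSeries h2)
  simp only [FormalMultilinearSeries.coeff_ofScalars] at h3
  rw [h3, qExpansion_coeff, div_eq_mul_inv, mul_comm]

section integral

variable {N : ι → ℕ}

theorem term_natCast (x : ι) (z : ℂ) :
    term c (fun x => (N x : ℝ)) x z = c x * 𝕢 1 z ^ N x := by
  unfold term Function.Periodic.qParam
  rw [← Complex.exp_nat_mul]
  congr 2
  push_cast
  ring

theorem term_natCast_add_one (x : ι) (z : ℂ) :
    term c (fun x => (N x : ℝ)) x (z + 1) = term c (fun x => (N x : ℝ)) x z := by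
  unfold term
  congr 1
  have : 2 * (π : ℂ) * I * (z + 1) * ((N x : ℝ) : ℂ) =
      2 * π * I * z * ((N x : ℝ) : ℂ) + (N x : ℂ) * (2 * π * I) := by
    push_cast
    ring
  rw [this, Complex.exp_add, Complex.exp_nat_mul_two_pi_mul_I, mul_one]

theorem expSumC_add_one (z : ℂ) :
    expSumC c (fun x => (N x : ℝ)) (z + 1) = expSumC c (fun x => (N x : ℝ)) z := by
  unfold expSumC
  exact tsum_congr fun x => term_natCast_add_one x z

/-- **Periodicity** of the exponential sum with integral exponents. -/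
theorem periodic_expSum :
    Function.Periodic (expSum c (fun x => (N x : ℝ)) ∘ ofComplex) 1 := by
  intro u
  by_cases hu : 0 < u.im
  · have hu1 : 0 < (u + 1).im := by simpa using hu
    simp only [Function.comp_apply, ofComplex_apply_of_im_pos hu1, ofComplex_apply_of_im_pos hu,
      expSum]
    exact expSumC_add_one u
  · have hu' : u.im ≤ 0 := not_lt.1 hu
    have hu1 : (u + 1).im ≤ 0 := by simpa using hu'
    simp [ofComplex_apply_of_im_nonpos hu1, ofComplex_apply_of_im_nonpos hu']

variable (hs : Majorant c (fun x => (N x : ℝ)))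

include hs in
theorem analyticAt_cuspFunction_expSum :
    AnalyticAt ℂ (cuspFunction 1 (expSum c (fun x => (N x : ℝ)))) 0 :=
  analyticAt_cuspFunction_zero one_pos periodic_expSum
    (mdifferentiable_expSum (fun _ => Nat.cast_nonneg _) hs)
    (isBoundedAtImInfty_expSum (fun _ => Nat.cast_nonneg _) hs)

variable (hfin : ∀ n : ℕ, {x : ι | N x = n}.Finite)

/-- The sum of the coefficients over the fibre `N = n`. -/
def fibreSum (c : ι → ℂ) {N : ι → ℕ} (hfin : ∀ n : ℕ, {x : ι | N x = n}.Finite) (n : ℕ) : ℂ :=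
  ∑ x ∈ (hfin n).toFinset, c x

include hs in
/-- Regrouping the exponential sum along the fibres of `N`. -/
theorem hasSum_fibres (z : ℍ) :
    HasSum (fun n : ℕ => fibreSum c hfin n • 𝕢 1 (z : ℂ) ^ n) (expSum c (fun x => (N x : ℝ)) z) := by
  classical
  have h0 : HasSum (fun x => c x * 𝕢 1 (z : ℂ) ^ N x) (expSum c (fun x => (N x : ℝ)) z) := by
    have h00 : HasSum (fun x => term c (fun x => (N x : ℝ)) x (z : ℂ))
        (expSum c (fun x => (N x : ℝ)) z) :=
      (summable_term (fun x => Nat.cast_nonneg _) hs z.im_pos).hasSum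
    have hfun : (fun x => term c (fun x => (N x : ℝ)) x (z : ℂ)) =
        fun x => c x * 𝕢 1 (z : ℂ) ^ N x := funext fun x => term_natCast x z
    rw [hfun] at h00
    exact h00
  have h1 : HasSum (fun y : (Σ n : ℕ, {x : ι // N x = n}) => c y.2.1 * 𝕢 1 (z : ℂ) ^ N y.2.1)
      (expSum c (fun x => (N x : ℝ)) z) := by
    rw [← (Equiv.sigmaFiberEquiv N).hasSum_iff] at h0
    exact h0
  refine h1.sigma fun n => ?_
  have : Fintype {x : ι // N x = n} := (hfin n).fintype
  have h2 := hasSum_fintype (fun y : {x : ι // N x = n} => c y.1 * 𝕢 1 (z : ℂ) ^ N y.1)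
  convert h2 using 1
  rw [fibreSum, Finset.sum_smul]
  have : ∀ y : {x : ι // N x = n}, c y.1 * 𝕢 1 (z : ℂ) ^ N y.1 = c y.1 • 𝕢 1 (z : ℂ) ^ n := by
    intro y
    rw [y.2, smul_eq_mul]
  simp only [this]
  rw [← Finset.sum_subtype (s := (hfin n).toFinset) (p := fun x => N x = n)
    (fun x => by simp) (fun x => c x • 𝕢 1 (z : ℂ) ^ n)]

include hs in
/-- **`q`-expansion** of the exponential sum with integral exponents: the `n`-th coefficient
is the sum of the `c x` over the fibre `N x = n`. -/
theorem qExpansion_coeff_expSum (n : ℕ) :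
    (qExpansion 1 (expSum c (fun x => (N x : ℝ)))).coeff n = fibreSum c hfin n :=
  (coeff_unique_of_hasSum one_pos
    (analyticAt_cuspFunction_expSum hs) (hasSum_fibres hs hfin) n).symm

include hs in
theorem expSum_ne_zero {n : ℕ} (hn : fibreSum c hfin n ≠ 0) :
    expSum c (fun x => (N x : ℝ)) ≠ 0 := by
  intro h0
  have h1 := qExpansion_coeff_expSum hs hfin n
  rw [h0, qExpansion_zero] at h1
  exact hn (by simpa using h1.symm)

theorem fibreSum_one (n : ℕ) :
    fibreSum (fun _ : ι => (1 : ℂ)) hfin n = ({x : ι | N x = n}.ncard : ℂ) := by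
  rw [fibreSum, Finset.sum_const, nsmul_eq_mul, mul_one, Set.ncard_eq_toFinset_card _ (hfin n)]

end integral

/-! ### Translation by one when all exponents are congruent modulo `1` -/

section translate

theorem term_add_one_of_frac {r : ℝ} (hr : ∀ x, ∃ k : ℤ, w x = r + k) (x : ι) (z : ℂ) :
    term c w x (z + 1) = cexp (2 * π * I * r) * term c w x z := by
  obtain ⟨k, hk⟩ := hr x
  unfold term
  have : 2 * (π : ℂ) * I * (z + 1) * ((w x : ℝ) : ℂ) =
      2 * π * I * z * ((w x : ℝ) : ℂ) + (2 * π * I * r + (k : ℂ) * (2 * π * I)) := by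
    rw [hk]
    push_cast
    ring
  rw [this, Complex.exp_add, Complex.exp_add, Complex.exp_int_mul_two_pi_mul_I, mul_one]
  ring

theorem expSumC_add_one_of_frac {r : ℝ} (hr : ∀ x, ∃ k : ℤ, w x = r + k) (z : ℂ) :
    expSumC c w (z + 1) = cexp (2 * π * I * r) * expSumC c w z := by
  unfold expSumC
  rw [← tsum_mul_left]
  exact tsum_congr fun x => term_add_one_of_frac hr x z

/-- The `T`-law: if all exponents are `≡ r mod 1`, then `F (z + 1) = e(r) F z`. -/
theorem expSum_vadd_one_of_frac {r : ℝ} (hr : ∀ x, ∃ k : ℤ, w x = r + k) (z : ℍ) :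
    expSum c w ((1 : ℝ) +ᵥ z) = cexp (2 * π * I * r) * expSum c w z := by
  unfold expSum
  rw [← expSumC_add_one_of_frac hr]
  congr 1
  rw [UpperHalfPlane.coe_vadd]
  push_cast
  ring

end translate

end Fermat.Agent.S16.LB.ExpSum
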