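/-
PROJECT E (S16), slice E-LB (bridge) (helper1): the glue between the quaternary lattice of
`S16/QuatLattice.lean` (`A = gram p m r s`, `B = gramDual m r s`, `A B = p`) and the triangular
data `a`, `u` of `LB/PoissonGauss.lean`.

With `q = 4 m - 1`, `a = (2, q/2, 2 p m, p/(2 m q))`, `u₀₁ = 1/2`, `u₁₃ = 2r/q`, `u₂₃ = 1/(2m)`
(all other `u` zero) one has, for REAL vectors, `qform 4 a u x = xᵀ A x` and
`qdual 4 a u y = yᵀ B y / p`, `Π a = p²`.  Consequences: the Gaussian summability and the theta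
inversion of `LB/PoissonGauss` in the shapes used by `LB/ThetaFun` (`ThetaData`) and by
`LB/ThetaS`, `LB/ThetaSQuat` (`hPG`, `hsum`).
-/
import Fermat.Agent.S16.QuatLattice
import Fermat.Agent.S16.LB.PoissonGauss
import Fermat.Agent.S16.LB.ThetaFun
import Fermat.Agent.S16.LB.ThetaS

set_option autoImplicit false

noncomputable section

namespace Fermat.Agent.S16.LB.LatticeBridge

open scoped Matrix
open Fermat.Agent.S16.QuatLattice Fermat.Agent.S16.LB.PoissonGauss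

/-! ### The triangular data of the quaternary lattice -/

/-- The diagonal coefficients of the triangular form of `xᵀ A x` (`A = gram p m r s`). -/
def triA (p m : ℤ) : Fin 4 → ℝ :=
  ![2, (4 * (m : ℝ) - 1) / 2, 2 * ((p : ℝ) * m), (p : ℝ) / (2 * m * (4 * m - 1))]

/-- The unipotent coefficients of the triangular form of `xᵀ A x`. -/
def triU (m r : ℤ) : Fin 4 → Fin 4 → ℝ :=
  !![0, 1 / 2, 0, 0;
     0, 0, 0, 2 * (r : ℝ) / (4 * m - 1);
     0, 0, 0, 1 / (2 * (m : ℝ));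
     0, 0, 0, 0]

theorem four_mul_sub_one_pos {m : ℤ} (hm : 0 < m) : (0 : ℝ) < 4 * m - 1 := by
  have : (1 : ℝ) ≤ m := by exact_mod_cast hm
  linarith

theorem triA_pos {p m : ℤ} (hp : 0 < p) (hm : 0 < m) (i : Fin 4) : 0 < triA p m i := by
  have hmR : (0 : ℝ) < m := by exact_mod_cast hm
  have hpR : (0 : ℝ) < p := by exact_mod_cast hp
  have hq := four_mul_sub_one_pos hm
  fin_cases i
  · simp [triA]
  · simp [triA]; linarith
  · simp [triA]; positivity
  · simp [triA]; positivity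

theorem prod_triA {p m : ℤ} (hm : 0 < m) : ∏ i, triA p m i = (p : ℝ) ^ 2 := by
  have hmR : (0 : ℝ) < m := by exact_mod_cast hm
  have hq := four_mul_sub_one_pos hm
  simp [triA, Fin.prod_univ_four]
  field_simp

theorem prod_sqrt_triA {p m : ℤ} (hp : 0 < p) (hm : 0 < m) :
    ∏ i, Real.sqrt (triA p m i) = (p : ℝ) := by
  have hpR : (0 : ℝ) < p := by exact_mod_cast hp
  have h2 : (∏ i, Real.sqrt (triA p m i)) ^ 2 = (p : ℝ) ^ 2 := by
    rw [← Finset.prod_pow, ← prod_triA hm]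
    exact Finset.prod_congr rfl fun i _ => Real.sq_sqrt (triA_pos hp hm i).le
  exact (sq_eq_sq₀ (Finset.prod_nonneg fun i _ => Real.sqrt_nonneg _) hpR.le).mp h2

/-! ### The forms `qform 4`, `qdual 4` written out -/

theorem qform_four (a : Fin 4 → ℝ) (u : Fin 4 → Fin 4 → ℝ) (z : Fin 4 → ℝ) :
    qform 4 a u z =
      a 0 * (z 0 + (u 0 1 * z 1 + u 0 2 * z 2 + u 0 3 * z 3)) ^ 2
      + a 1 * (z 1 + (u 1 2 * z 2 + u 1 3 * z 3)) ^ 2
      + a 2 * (z 2 + u 2 3 * z 3) ^ 2 + a 3 * (z 3) ^ 2 := by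
  simp [qform, Fin.sum_univ_succ, Fin.tail]
  ring

theorem qdual_four (a : Fin 4 → ℝ) (u : Fin 4 → Fin 4 → ℝ) (y : Fin 4 → ℝ) :
    qdual 4 a u y =
      (y 0) ^ 2 / a 0
      + (y 1 - y 0 * u 0 1) ^ 2 / a 1
      + (y 2 - y 0 * u 0 2 - (y 1 - y 0 * u 0 1) * u 1 2) ^ 2 / a 2
      + (y 3 - y 0 * u 0 3 - (y 1 - y 0 * u 0 1) * u 1 3
          - (y 2 - y 0 * u 0 2 - (y 1 - y 0 * u 0 1) * u 1 2) * u 2 3) ^ 2 / a 3 := by
  simp [qdual, Fin.tail]
  ring

/-! ### The bridge identities (real vectors) -/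

section Bridge

variable {p m r s : ℤ}

theorem cast_p_eq (h : (4 * m - 1) * s = r ^ 2 + p) :
    (p : ℝ) = (4 * m - 1) * s - r ^ 2 := by
  have : (p : ℝ) = (((4 * m - 1) * s - r ^ 2 : ℤ) : ℝ) := by
    congr 1; linarith
  rw [this]; push_cast; ring

/-- `xᵀ A x` for a real vector, as a polynomial: `2 Q(x)`. -/
theorem dotProduct_gram_real (p m r s : ℤ) (x : Fin 4 → ℝ) :
    x ⬝ᵥ ((gram p m r s).map (Int.cast : ℤ → ℝ)).mulVec x =
      2 * (x 0 ^ 2 + x 0 * x 1 + m * x 1 ^ 2 + p * m * x 2 ^ 2 + s * x 3 ^ 2 + r * x 1 * x 3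
        + p * x 2 * x 3) := by
  simp [gram, dotProduct, Matrix.mulVec, Fin.sum_univ_four]
  ring

/-- `xᵀ A x` for a real vector in completed-squares form (explicit). -/
theorem dotProduct_gram_real_squares (hm : 0 < m) (h : (4 * m - 1) * s = r ^ 2 + p)
    (x : Fin 4 → ℝ) :
    x ⬝ᵥ ((gram p m r s).map (Int.cast : ℤ → ℝ)).mulVec x =
      2 * ((x 0 + x 1 / 2) ^ 2
        + ((4 * m - 1 : ℝ) / 4) * (x 1 + 2 * r / (4 * m - 1) * x 3) ^ 2
        + (p * m : ℝ) * (x 2 + x 3 / (2 * m)) ^ 2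
        + (p : ℝ) / (4 * m * (4 * m - 1)) * x 3 ^ 2) := by
  have hmR : (0 : ℝ) < m := by exact_mod_cast hm
  have hq := four_mul_sub_one_pos hm
  rw [dotProduct_gram_real,
    real_identity (4 * m - 1) m hq.ne' hmR.ne' rfl p r s (x 0) (x 1) (x 2) (x 3) (cast_p_eq h)]

/-- **`qform 4 a u x = xᵀ A x`** for real `x`. -/
theorem qform_triA (hm : 0 < m) (h : (4 * m - 1) * s = r ^ 2 + p) (x : Fin 4 → ℝ) :
    qform 4 (triA p m) (triU m r) x =
      x ⬝ᵥ ((gram p m r s).map (Int.cast : ℤ → ℝ)).mulVec x := by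
  have hmR : (0 : ℝ) < m := by exact_mod_cast hm
  have hq := four_mul_sub_one_pos hm
  rw [dotProduct_gram_real_squares hm h, qform_four]
  simp [triA, triU]
  field_simp
  ring

/-- **`qdual 4 a u y = yᵀ B y / p`** for real `y` (`B = p A⁻¹`). -/
theorem qdual_triA (hp : 0 < p) (hm : 0 < m) (h : (4 * m - 1) * s = r ^ 2 + p)
    (y : Fin 4 → ℝ) :
    qdual 4 (triA p m) (triU m r) y =
      (y ⬝ᵥ ((gramDual m r s).map (Int.cast : ℤ → ℝ)).mulVec y) / p := by
  have hmR : (0 : ℝ) < m := by exact_mod_cast hm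
  have hpR0 : (0 : ℝ) < p := by exact_mod_cast hp
  have hq := four_mul_sub_one_pos hm
  have hs : (s : ℝ) = (p + r ^ 2) / (4 * m - 1) := by
    have := cast_p_eq h
    field_simp; linarith
  rw [qdual_four]
  simp [triA, triU, gramDual, dotProduct, Matrix.mulVec, Fin.sum_univ_four]
  rw [hs]
  field_simp
  ring


/-- **Positive definiteness over `ℝ`.** -/
theorem dotProduct_gram_real_pos (hp : 0 < p) (hm : 0 < m) (h : (4 * m - 1) * s = r ^ 2 + p)
    {x : Fin 4 → ℝ} (hx : x ≠ 0) :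
    0 < x ⬝ᵥ ((gram p m r s).map (Int.cast : ℤ → ℝ)).mulVec x := by
  have hmR : (0 : ℝ) < m := by exact_mod_cast hm
  have hpR : (0 : ℝ) < p := by exact_mod_cast hp
  have hq := four_mul_sub_one_pos hm
  rw [dotProduct_gram_real_squares hm h]
  by_contra hneg
  have hneg := not_lt.mp hneg
  have c1 : (0 : ℝ) < (4 * m - 1 : ℝ) / 4 := by positivity
  have c2 : (0 : ℝ) < (p * m : ℝ) := by positivity
  have c3 : (0 : ℝ) < (p : ℝ) / (4 * m * (4 * m - 1)) := by positivity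
  have e0 : 0 ≤ (x 0 + x 1 / 2) ^ 2 := sq_nonneg _
  have e1 : 0 ≤ ((4 * m - 1 : ℝ) / 4) * (x 1 + 2 * r / (4 * m - 1) * x 3) ^ 2 :=
    mul_nonneg c1.le (sq_nonneg _)
  have e2 : 0 ≤ (p * m : ℝ) * (x 2 + x 3 / (2 * m)) ^ 2 := mul_nonneg c2.le (sq_nonneg _)
  have e3 : 0 ≤ (p : ℝ) / (4 * m * (4 * m - 1)) * x 3 ^ 2 := mul_nonneg c3.le (sq_nonneg _)
  have z3 : (p : ℝ) / (4 * m * (4 * m - 1)) * x 3 ^ 2 = 0 := by linarith
  have z2 : (p * m : ℝ) * (x 2 + x 3 / (2 * m)) ^ 2 = 0 := by linarith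
  have z1 : ((4 * m - 1 : ℝ) / 4) * (x 1 + 2 * r / (4 * m - 1) * x 3) ^ 2 = 0 := by linarith
  have z0 : (x 0 + x 1 / 2) ^ 2 = 0 := by linarith
  have x3 : x 3 = 0 := by
    rcases mul_eq_zero.mp z3 with h' | h'
    · exact absurd h' c3.ne'
    · exact pow_eq_zero_iff (two_ne_zero) |>.mp h'
  have x2 : x 2 = 0 := by
    rcases mul_eq_zero.mp z2 with h' | h'
    · exact absurd h' c2.ne'
    · have := pow_eq_zero_iff (two_ne_zero) |>.mp h'
      rw [x3] at this
      simpa using this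
  have x1 : x 1 = 0 := by
    rcases mul_eq_zero.mp z1 with h' | h'
    · exact absurd h' c1.ne'
    · have := pow_eq_zero_iff (two_ne_zero) |>.mp h'
      rw [x3] at this
      simpa using this
  have x0 : x 0 = 0 := by
    have := pow_eq_zero_iff (two_ne_zero) |>.mp z0
    rw [x1] at this
    simpa using this
  apply hx
  funext i
  fin_cases i
  · exact x0
  · exact x1
  · exact x2
  · exact x3

theorem dotProduct_gram_real_nonneg (hp : 0 < p) (hm : 0 < m) (h : (4 * m - 1) * s = r ^ 2 + p)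
    (x : Fin 4 → ℝ) :
    0 ≤ x ⬝ᵥ ((gram p m r s).map (Int.cast : ℤ → ℝ)).mulVec x := by
  rw [← qform_triA hm h]
  exact qform_nonneg 4 _ _ (fun i => (triA_pos hp hm i).le) x

end Bridge

/-! ### The spellings of `LB/ThetaFun` (`quadR`) and `LB/ThetaS` (`qA`) -/

section Spellings

open Fermat.Agent.S16.LB.ThetaFun Fermat.Agent.S16.LB.ThetaS

variable {p m r s : ℤ}

theorem qA_eq_quadR (A : Matrix (Fin 4) (Fin 4) ℤ) (v : Fin 4 → ℝ) : qA A v = quadR A v := rfl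

theorem quadR_gram (hm : 0 < m) (h : (4 * m - 1) * s = r ^ 2 + p) (x : Fin 4 → ℝ) :
    quadR (gram p m r s) x = qform 4 (triA p m) (triU m r) x :=
  (qform_triA hm h x).symm

theorem qA_gram (hm : 0 < m) (h : (4 * m - 1) * s = r ^ 2 + p) (x : Fin 4 → ℝ) :
    qA (gram p m r s) x = qform 4 (triA p m) (triU m r) x :=
  (qform_triA hm h x).symm

theorem quadR_gramDual (hp : 0 < p) (hm : 0 < m) (h : (4 * m - 1) * s = r ^ 2 + p)
    (y : Fin 4 → ℝ) :
    quadR (gramDual m r s) y / p = qdual 4 (triA p m) (triU m r) y :=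
  (qdual_triA hp hm h y).symm

/-- On integer vectors: `qdual 4 a u y = (yᵀ B y) / p`, the quadratic form of `ThetaS.dualTerm`. -/
theorem qdual_triA_intCast (hp : 0 < p) (hm : 0 < m) (h : (4 * m - 1) * s = r ^ 2 + p)
    (y : Fin 4 → ℤ) :
    qdual 4 (triA p m) (triU m r) (fun i => (y i : ℝ)) =
      ((y ⬝ᵥ (gramDual m r s) *ᵥ y : ℤ) : ℝ) / p := by
  rw [← quadR_gramDual hp hm h, quadR_intCast]
  rfl

/-- **The analytic hypotheses of `LB/ThetaFun` hold for the quaternary lattice.** -/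
theorem thetaData_gram (hp : 0 < p) (hm : 0 < m) (h : (4 * m - 1) * s = r ^ 2 + p) :
    ThetaData (gram p m r s) where
  symm := gram_isSymm p m r s
  even := even_gram_diag p m r s
  nonneg := dotProduct_gram_real_nonneg hp hm h
  summ := by
    intro ε hε v
    refine (summable_normE 4 (triA p m) (triU m r) (triA_pos hp hm) hε v).congr fun n => ?_
    rw [normE, quadR_gram hm h]
    congr 1
    ring

end Spellings

/-! ### The analytic hypotheses `hPG`, `hsum` of `LB/ThetaS`, `LB/ThetaSQuat` -/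

section Inversion

open Complex UpperHalfPlane
open scoped Real MatrixGroups ModularForm
open Fermat.Agent.S16.LB.ThetaFun Fermat.Agent.S16.LB.ThetaS

variable {p : ℕ} {m r s : ℤ}

theorem coe_S_smul (z : ℍ) : ((ModularGroup.S • z : ℍ) : ℂ) = -1 / (z : ℂ) := by
  rw [UpperHalfPlane.modular_S_smul]
  show (-(z : ℂ))⁻¹ = -1 / (z : ℂ)
  rw [neg_div, one_div, inv_neg]

theorem im_neg_one_div_coe_pos (z : ℍ) : 0 < (-1 / (z : ℂ)).im := by
  rw [← coe_S_smul]
  exact (ModularGroup.S • z).im_pos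

/-- The dual term of `LB/PoissonGauss` at `τ = -1/z`, `b = 0` is the dual term of `LB/ThetaS`. -/
theorem dterm_eq_dualTerm (hp : 0 < p) (hm : 0 < m) (h : (4 * m - 1) * s = r ^ 2 + (p : ℤ))
    (v : Fin 4 → ℝ) (z : ℍ) (y : Fin 4 → ℤ) :
    dterm 4 (triA p m) (triU m r) (-1 / (z : ℂ)) 0 v y = dualTerm (gramDual m r s) p v z y := by
  have hz : (z : ℂ) ≠ 0 := UpperHalfPlane.ne_zero z
  have hpZ : (0 : ℤ) < (p : ℤ) := by exact_mod_cast hp
  simp only [dterm, dualTerm, Pi.zero_apply, sub_zero]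
  rw [qdual_triA_intCast hpZ hm h, Int.cast_natCast]
  congr 2
  field_simp

/-- **`hsum` of `ThetaSQuat.slash_S_charD`.** -/
theorem summable_dualTerm (hp : 0 < p) (hm : 0 < m) (h : (4 * m - 1) * s = r ^ 2 + (p : ℤ))
    (v : Fin 4 → ℝ) (z : ℍ) : Summable (dualTerm (gramDual m r s) p v z) := by
  have hpZ : (0 : ℤ) < (p : ℤ) := by exact_mod_cast hp
  refine (summable_dterm 4 (triA p m) (triU m r) (triA_pos hpZ hm)
    (im_neg_one_div_coe_pos z) 0 v).congr fun y => ?_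
  exact dterm_eq_dualTerm hp hm h v z y

/-- **`hPG` of `ThetaSQuat.slash_S_charD`**: the theta inversion for the quaternary lattice. -/
theorem tsum_thetaTerm_S_smul (hp : 0 < p) (hm : 0 < m)
    (h : (4 * m - 1) * s = r ^ 2 + (p : ℤ)) (v : Fin 4 → ℝ) (z : ℍ) :
    ∑' n : Fin 4 → ℤ, thetaTerm (gram p m r s) v (ModularGroup.S • z) n =
      -((z : ℂ) ^ 2) / p * ∑' y : Fin 4 → ℤ, dualTerm (gramDual m r s) p v z y := by
  have hz : (z : ℂ) ≠ 0 := UpperHalfPlane.ne_zero z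
  have hpZ : (0 : ℤ) < (p : ℤ) := by exact_mod_cast hp
  have hpC : (p : ℂ) ≠ 0 := by exact_mod_cast hp.ne'
  have key := theta_inversion_S 4 (triA p m) (triU m r) (triA_pos hpZ hm) z.im_pos v
  rw [prefactor_four hz, prod_sqrt_triA hpZ hm] at key
  have e1 : ∀ n : Fin 4 → ℤ, thetaTerm (gram p m r s) v (ModularGroup.S • z) n =
      cexp (π * Complex.I * (-1 / (z : ℂ)) *
        ((qform 4 (triA p m) (triU m r) (fun i => (n i : ℝ) + v i) : ℝ) : ℂ)) := by
    intro n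
    rw [thetaTerm, coe_S_smul, qA_gram hm h]
    rfl
  have e2 : ∀ y : Fin 4 → ℤ, dualTerm (gramDual m r s) p v z y =
      cexp (π * Complex.I * z * ((qdual 4 (triA p m) (triU m r) (fun i => (y i : ℝ)) : ℝ) : ℂ) +
          2 * π * Complex.I * ((∑ i, (y i : ℝ) * v i : ℝ) : ℂ)) := by
    intro y
    rw [dualTerm, qdual_triA_intCast hpZ hm h, Int.cast_natCast]
  rw [tsum_congr e1, tsum_congr e2, key]
  push_cast
  field_simp

/-- `hPG` in the exact shape of `ThetaS.slash_S_theta` / `ThetaSQuat.slash_S_charD`. -/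
theorem hPG_gram (hp : 0 < p) (hm : 0 < m) (h : (4 * m - 1) * s = r ^ 2 + (p : ℤ))
    (θ : (Fin 4 → ℝ) → ℍ → ℂ)
    (hθ : ∀ v z, θ v z = ∑' n : Fin 4 → ℤ, thetaTerm (gram p m r s) v z n)
    (v : Fin 4 → ℝ) (z : ℍ) :
    θ v (ModularGroup.S • z) =
      -((z : ℂ) ^ 2) / p * ∑' y : Fin 4 → ℤ, dualTerm (gramDual m r s) p v z y := by
  rw [hθ, tsum_thetaTerm_S_smul hp hm h]

/-- `thetaV` of `LB/ThetaFun` is the series of `thetaTerm`s of `LB/ThetaS` (definitionally). -/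
theorem thetaV_eq_tsum_thetaTerm (A : Matrix (Fin 4) (Fin 4) ℤ) (v : Fin 4 → ℝ) (z : ℍ) :
    thetaV A v z = ∑' n : Fin 4 → ℤ, thetaTerm A v z n := by
  unfold thetaV thetaTerm
  refine tsum_congr fun n => ?_
  rw [qA_eq_quadR]
  rfl

end Inversion

end Fermat.Agent.S16.LB.LatticeBridge

end
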