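/-
S16 (PROJECT E), slice E-LB (P3), part A (helper22): MODULAR FORMS FROM A SPAN OF FUNCTIONS BOUNDED
AT `i∞`.  Mathlib only.

* `isBoundedAtImInfty_sum` : a finite linear combination of functions bounded at `i∞` is bounded
  at `i∞`;
* `exists_modularForm_of_span` : a holomorphic function `f`, invariant under `Γ₀(N)` in weight `k`,
  all of whose `SL₂(ℤ)`-translates `f ∣[k] γ` lie in the span of a finite family of functions
  bounded at `i∞`, is (the coercion of) a modular form of level `Γ₀(N)` and weight `k`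
  (consumer: the theta series `Θ₀` with the family `Θ_h`, `h ∈ D`, of the Weil representation,
  `S16/LB/Weil.slash_theta_zero` (ii));
* `exists_modularForm_of_forall_bounded`, `exists_cuspForm_of_forall_zero` : the same with the
  translates themselves bounded (resp. zero) at `i∞`.
-/
import Mathlib

set_option autoImplicit false

noncomputable section

namespace Fermat.Agent.S16.LB.SpanForm

open UpperHalfPlane CongruenceSubgroup Matrix.SpecialLinearGroup ModularForm

open scoped ModularForm Manifold MatrixGroups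

/-- A finite linear combination of functions bounded at `i∞` is bounded at `i∞`. -/
theorem isBoundedAtImInfty_sum {ι : Type*} [Fintype ι] (Θ : ι → ℍ → ℂ)
    (hbdd : ∀ g, IsBoundedAtImInfty (Θ g)) (c : ι → ℂ) :
    IsBoundedAtImInfty (∑ g, c g • Θ g) := by
  classical
  have key : ∀ s : Finset ι, IsBoundedAtImInfty (∑ g ∈ s, c g • Θ g) := by
    intro s
    induction s using Finset.induction_on with
    | empty =>
      rw [Finset.sum_empty]
      exact zero_form_isBoundedAtImInfty
    | insert a s ha ih =>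
      rw [Finset.sum_insert ha]
      exact ((hbdd a).const_smul_left (c a)).add ih
  exact key Finset.univ

/-- A holomorphic function invariant under `Γ₀(N)` in weight `k`, all of whose
`SL₂(ℤ)`-translates are bounded at `i∞`, is a modular form of level `Γ₀(N)`. -/
theorem exists_modularForm_of_forall_bounded {N : ℕ} [NeZero N] {k : ℤ} (f : ℍ → ℂ)
    (hinv : ∀ γ ∈ Gamma0 N, f ∣[k] γ = f) (hol : MDiff f)
    (hbdd : ∀ γ : SL(2, ℤ), IsBoundedAtImInfty (f ∣[k] γ)) :
    ∃ F : ModularForm (Gamma0 N) k, ⇑F = f := by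
  refine ⟨{ toFun := f
            slash_action_eq' := ?_
            holo' := hol
            bdd_at_cusps' := ?_ }, rfl⟩
  · rintro _ ⟨γ, hγ, rfl⟩
    exact hinv γ hγ
  · intro c hc
    rw [Subgroup.IsArithmetic.isCusp_iff_isCusp_SL2Z] at hc
    rw [OnePoint.isBoundedAt_iff_forall_SL2Z hc]
    intro γ _
    exact hbdd γ

/-- A holomorphic function invariant under `Γ₀(N)` in weight `k`, all of whose
`SL₂(ℤ)`-translates vanish at `i∞`, is a cusp form of level `Γ₀(N)`. -/
theorem exists_cuspForm_of_forall_zero {N : ℕ} [NeZero N] {k : ℤ} (f : ℍ → ℂ)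
    (hinv : ∀ γ ∈ Gamma0 N, f ∣[k] γ = f) (hol : MDiff f)
    (hzero : ∀ γ : SL(2, ℤ), IsZeroAtImInfty (f ∣[k] γ)) :
    ∃ F : CuspForm (Gamma0 N) k, ⇑F = f := by
  refine ⟨{ toFun := f
            slash_action_eq' := ?_
            holo' := hol
            zero_at_cusps' := ?_ }, rfl⟩
  · rintro _ ⟨γ, hγ, rfl⟩
    exact hinv γ hγ
  · intro c hc
    rw [Subgroup.IsArithmetic.isCusp_iff_isCusp_SL2Z] at hc
    rw [OnePoint.isZeroAt_iff_forall_SL2Z hc]
    intro γ _
    exact hzero γ

/-- **A modular form from a span of functions bounded at `i∞`**: a holomorphic function invariant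
under `Γ₀(N)` in weight `k`, all of whose `SL₂(ℤ)`-translates lie in the span of finitely many
functions bounded at `i∞`, is a modular form of level `Γ₀(N)`. -/
theorem exists_modularForm_of_span {N : ℕ} [NeZero N] {k : ℤ} {ι : Type*} [Fintype ι]
    (Θ : ι → ℍ → ℂ) (f : ℍ → ℂ) (hinv : ∀ γ ∈ Gamma0 N, f ∣[k] γ = f)
    (hspan : ∀ γ : SL(2, ℤ), ∃ c : ι → ℂ, f ∣[k] γ = ∑ g, c g • Θ g)
    (hol : MDiff f) (hbdd : ∀ g, IsBoundedAtImInfty (Θ g)) :
    ∃ F : ModularForm (Gamma0 N) k, ⇑F = f := by
  refine exists_modularForm_of_forall_bounded f hinv hol fun γ => ?_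
  obtain ⟨c', hc'⟩ := hspan γ
  rw [hc']
  exact isBoundedAtImInfty_sum Θ hbdd c'

end Fermat.Agent.S16.LB.SpanForm
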