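/-
E-LB (P2a, second part) (helper2): the `T`-transformation of the theta functions with
characteristics, `Θ 0 ≠ 0`, and the concrete family `Theta : D p → ℍ → ℂ` attached to the
quaternary lattice of `S16/QuatLattice.lean` with the discriminant data of `LB/DiscForm.lean`,
in the exact shapes consumed by `LB/Weil.slash_theta_zero` and `LB/ThetaS.slash_S_theta`.
-/
import Fermat.Agent.S16.LB.ThetaFun
import Fermat.Agent.S16.LB.ThetaS
import Fermat.Agent.S16.LB.DiscForm

set_option autoImplicit false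

open Complex UpperHalfPlane Matrix
open scoped Real MatrixGroups ModularForm Manifold

noncomputable section

namespace Fermat.Agent.S16.LB.ThetaChar

open Fermat.Agent.S16.LB.ThetaFun

variable {A : Matrix (Fin 4) (Fin 4) ℤ}

/-! ### The `T`-law, generic form -/

theorem coe_T_smul (z : ℍ) : ((ModularGroup.T • z : ℍ) : ℂ) = (z : ℂ) + 1 := by
  rw [UpperHalfPlane.modular_T_smul, UpperHalfPlane.coe_vadd]
  push_cast
  ring

theorem denom_T (z : ℍ) : denom (ModularGroup.T : SL(2, ℤ)) z = 1 := by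
  rw [ModularGroup.denom_apply]
  simp [ModularGroup.T]

/-- **The `T`-law**: if `A v ∈ ℤ⁴` then `thetaV A v ∣[2] T = exp(π i vᵀ A v) • thetaV A v`. -/
theorem slash_T_thetaV (hA : ThetaData A) (v : Fin 4 → ℝ) (h : Fin 4 → ℤ)
    (hv : (A.map (Int.cast : ℤ → ℝ)).mulVec v = fun i => (h i : ℝ)) :
    thetaV A v ∣[(2 : ℤ)] ModularGroup.T = cexp (π * Complex.I * quadR A v) • thetaV A v := by
  funext z
  rw [ModularForm.SL_slash_apply, denom_T, _root_.one_zpow, mul_one, Pi.smul_apply, smul_eq_mul]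
  unfold thetaV
  rw [← tsum_mul_left]
  refine tsum_congr fun n => ?_
  rw [coe_T_smul, ← Complex.exp_add]
  have hq : quadR A (fun i => (n i : ℝ) + v i)
      = (quadZ A n : ℝ) + 2 * ((n ⬝ᵥ h : ℤ) : ℝ) + quadR A v := by
    have : (fun i => (n i : ℝ) + v i) = (fun i => (n i : ℝ)) + v := rfl
    rw [this, quadR_add A hA.symm, quadR_intCast, bilR_intCast_of_mulVec_eq A n v h hv]
  obtain ⟨k, hk⟩ := even_quadZ A hA.symm hA.even n
  have e1 : (π : ℂ) * Complex.I * ((z : ℂ) + 1) * ((quadR A (fun i => (n i : ℝ) + v i) : ℝ) : ℂ)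
      = (π * Complex.I * ((quadR A v : ℝ) : ℂ)
          + π * Complex.I * z * ((quadR A (fun i => (n i : ℝ) + v i) : ℝ) : ℂ))
        + ((k + n ⬝ᵥ h : ℤ) : ℂ) * (2 * π * Complex.I) := by
    rw [hq, hk]
    push_cast
    ring
  rw [e1, Complex.exp_add _ (_ * (2 * π * Complex.I)), Complex.exp_int_mul_two_pi_mul_I, mul_one]

/-- The phase `exp(π i r)` for `r = 2 T₀ / p` is the standard additive character at `T₀ mod p`. -/
theorem cexp_eq_stdAddChar {p : ℕ} [NeZero p] (r : ℝ) (T0 : ℤ) (hr : r = 2 * (T0 : ℝ) / p) :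
    cexp (π * Complex.I * (r : ℂ)) = ZMod.stdAddChar ((T0 : ℤ) : ZMod p) := by
  rw [ZMod.stdAddChar_coe, hr]
  congr 1
  push_cast
  ring

/-- The `T`-law in the shape of `LB/Weil`: if `A v ∈ ℤ⁴` and `vᵀ A v = 2 T₀ / p`. -/
theorem slash_T_thetaV_stdAddChar {p : ℕ} [NeZero p] (hA : ThetaData A) (v : Fin 4 → ℝ)
    (h : Fin 4 → ℤ) (hv : (A.map (Int.cast : ℤ → ℝ)).mulVec v = fun i => (h i : ℝ))
    (T0 : ℤ) (hr : quadR A v = 2 * (T0 : ℝ) / p) :
    thetaV A v ∣[(2 : ℤ)] ModularGroup.T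
      = (ZMod.stdAddChar ((T0 : ℤ) : ZMod p) : ℂ) • thetaV A v := by
  rw [slash_T_thetaV hA v h hv, cexp_eq_stdAddChar (quadR A v) T0 hr]

/-! ### `Θ 0 ≠ 0` -/

theorem thetaV_zero_ne_zero (hA : ThetaData A) : thetaV A 0 ≠ 0 := by
  intro h0
  have h1 : thetaV A 0 UpperHalfPlane.I = 0 := by rw [h0]; rfl
  have hs := hA.summ 1 one_pos 0
  have hterm : ∀ n : Fin 4 → ℤ,
      cexp (π * Complex.I * ((UpperHalfPlane.I : ℍ) : ℂ)
        * ((quadR A (fun i => (n i : ℝ) + (0 : Fin 4 → ℝ) i) : ℝ) : ℂ))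
      = ((Real.exp (-(π * 1 * quadR A (fun i => (n i : ℝ) + (0 : Fin 4 → ℝ) i))) : ℝ) : ℂ) := by
    intro n
    rw [UpperHalfPlane.coe_I, Complex.ofReal_exp]
    congr 1
    push_cast
    linear_combination ((π : ℂ) * ((quadR A (fun i => (n i : ℝ) + (0 : Fin 4 → ℝ) i) : ℝ) : ℂ))
      * Complex.I_mul_I
  unfold thetaV at h1
  simp_rw [hterm] at h1
  rw [← Complex.ofReal_tsum, Complex.ofReal_eq_zero] at h1
  have h2 := hs.le_tsum (0 : Fin 4 → ℤ) (fun j _ => (Real.exp_pos _).le)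
  have h3 : Real.exp (-(π * 1 * quadR A (fun i => (((0 : Fin 4 → ℤ) i : ℤ) : ℝ)
      + (0 : Fin 4 → ℝ) i))) = 1 := by
    have : (fun i => (((0 : Fin 4 → ℤ) i : ℤ) : ℝ) + (0 : Fin 4 → ℝ) i) = (0 : Fin 4 → ℝ) := by
      funext i; simp
    rw [this, quadR_zero]; simp
  rw [h3, h1] at h2
  linarith

/-! ### Scaling of the quadratic form -/

theorem quadR_div (A : Matrix (Fin 4) (Fin 4) ℤ) (x : Fin 4 → ℝ) (c : ℝ) :
    quadR A (fun i => x i / c) = quadR A x / c ^ 2 := by
  have : (fun i => x i / c) = c⁻¹ • x := by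
    funext i; simp [div_eq_inv_mul]
  rw [this]
  simp only [quadR, bilR, mulVec_smul, dotProduct_smul, smul_dotProduct, smul_eq_mul]
  rw [div_eq_inv_mul, ← inv_pow]
  ring

/-! ### The concrete family attached to the quaternary lattice -/

section Concrete

open Fermat.Agent.S16.QuatLattice Fermat.Agent.S16.LB.DiscForm Fermat.Agent.S16.LB.ThetaS

/-- Bridge to the shape of `LB/ThetaS.slash_S_theta` (its hypothesis `hθ`). -/
theorem thetaV_eq_tsum_thetaTerm (A : Matrix (Fin 4) (Fin 4) ℤ) (v : Fin 4 → ℝ) (z : ℍ) :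
    thetaV A v z = ∑' n : Fin 4 → ℤ, thetaTerm A v z n := rfl

variable (p : ℕ) (m r s : ℤ)

/-- The theta functions with characteristics of the quaternary lattice, indexed by the
discriminant group `D p = ZMod p × ZMod p` of `LB/DiscForm`; the characteristic of `g` is
`A⁻¹ (wD g) = liftD g / p`. -/
def Theta (g : D p) : ℍ → ℂ :=
  thetaV (gram p m r s) (vecD (gramDual m r s) p (wD p m g))

theorem vecD_wD (g : D p) :
    vecD (gramDual m r s) p (wD p m g) = fun i => (liftD p m r g i : ℝ) / p := by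
  unfold vecD
  rw [gramDual_mulVec_wD]

variable {p m r s}

theorem castMat_mulVec_vecD_wD [NeZero p] (h : (4 * m - 1) * s = r ^ 2 + p) (g : D p) :
    ((gram p m r s).map (Int.cast : ℤ → ℝ)).mulVec (vecD (gramDual m r s) p (wD p m g))
      = fun i => (wD p m g i : ℝ) := by
  have hp : (p : ℝ) ≠ 0 := Nat.cast_ne_zero.mpr (NeZero.ne p)
  rw [vecD_wD]
  funext j
  have e : (((gram p m r s).mulVec (liftD p m r g) j : ℤ) : ℝ) = (p : ℝ) * (wD p m g j : ℝ) := by
    rw [gram_mulVec_liftD h g]; simp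
  simp only [mulVec, dotProduct, map_apply] at e ⊢
  push_cast at e
  calc ∑ i, ((gram p m r s j i : ℤ) : ℝ) * ((liftD p m r g i : ℝ) / p)
      = (∑ i, ((gram p m r s j i : ℤ) : ℝ) * (liftD p m r g i : ℝ)) / p := by
        rw [Finset.sum_div]
        exact Finset.sum_congr rfl fun i _ => by ring
    _ = (wD p m g j : ℝ) := by rw [e]; field_simp

theorem quadR_vecD_wD [Fact p.Prime] (h : (4 * m - 1) * s = r ^ 2 + p) (g : D p) :
    ∃ T0 : ℤ, (T0 : ZMod p) = tform p m g ∧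
      quadR (gram p m r s) (vecD (gramDual m r s) p (wD p m g)) = 2 * (T0 : ℝ) / p := by
  have hp : (p : ℝ) ≠ 0 := Nat.cast_ne_zero.mpr (Fact.out : p.Prime).ne_zero
  obtain ⟨k, hk, T0, hT0, hk2⟩ := Q_shift_liftD h g 0
  refine ⟨T0, hT0, ?_⟩
  have hQ : Q p m r s (liftD p m r g) = p * T0 := by
    have h0 : Q (p : ℤ) m r s 0 = 0 := by simp [Q]
    rw [smul_zero, zero_add] at hk
    rw [hk, hk2, h0, zero_dotProduct]
    ring
  rw [vecD_wD, quadR_div, quadR_intCast]
  have hq : quadZ (gram p m r s) (liftD p m r g) = 2 * ((p : ℤ) * T0) := by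
    unfold quadZ
    rw [dotProduct_gram_mulVec, hQ]
  rw [hq]
  push_cast
  field_simp

/-- **The `T`-law** for the family `Theta`, in the shape `hT` of `LB/Weil.slash_theta_zero`. -/
theorem slash_T_Theta [Fact p.Prime] (hA : ThetaData (gram p m r s))
    (h : (4 * m - 1) * s = r ^ 2 + p) (g : D p) :
    Theta p m r s g ∣[(2 : ℤ)] ModularGroup.T
      = ZMod.stdAddChar (tform p m g) • Theta p m r s g := by
  obtain ⟨T0, hT0, hq⟩ := quadR_vecD_wD h g
  have hne : NeZero p := ⟨(Fact.out : p.Prime).ne_zero⟩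
  rw [← hT0]
  exact slash_T_thetaV_stdAddChar hA _ (wD p m g) (castMat_mulVec_vecD_wD h g) T0 hq

/-- `Theta (-g) = Theta g` (hypothesis `hθneg` of `LB/ThetaS.slash_S_theta`, with `s := wD`). -/
theorem Theta_neg [Fact p.Prime] (g : D p) :
    thetaV (gram p m r s) (vecD (gramDual m r s) p (wD p m (-g)))
      = thetaV (gram p m r s) (vecD (gramDual m r s) p (wD p m g)) := by
  have hp : (p : ℝ) ≠ 0 := Nat.cast_ne_zero.mpr (Fact.out : p.Prime).ne_zero
  obtain ⟨d, hd⟩ := liftD_neg (m := m) (r := r) g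
  rw [vecD_wD, vecD_wD, ← thetaV_neg (fun i => (liftD p m r g i : ℝ) / p)]
  refine thetaV_congr_of_sub_int d fun i => ?_
  rw [hd]
  simp only [Pi.add_apply, Pi.neg_apply, Pi.smul_apply, smul_eq_mul]
  push_cast
  field_simp

theorem Theta_zero [Fact p.Prime] : Theta p m r s 0 = thetaV (gram p m r s) 0 := by
  unfold Theta
  rw [wD_zero]
  congr 1
  funext i
  simp [vecD]

theorem Theta_zero_ne_zero [Fact p.Prime] (hA : ThetaData (gram p m r s)) :
    Theta p m r s 0 ≠ 0 := by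
  rw [Theta_zero]
  exact thetaV_zero_ne_zero hA

theorem mdifferentiable_Theta (hA : ThetaData (gram p m r s)) (g : D p) :
    MDifferentiable 𝓘(ℂ) 𝓘(ℂ) (Theta p m r s g) :=
  mdifferentiable_thetaV hA _

theorem isBoundedAtImInfty_Theta (hA : ThetaData (gram p m r s)) (g : D p) :
    IsBoundedAtImInfty (Theta p m r s g) :=
  isBoundedAtImInfty_thetaV hA _

/-- `Θ 0` as the theta series of `Q`: `Θ 0 (z) = ∑ₓ exp(2π i z Q(x))`. -/
theorem Theta_zero_apply [Fact p.Prime] (z : ℍ) :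
    Theta p m r s 0 z
      = ∑' x : Fin 4 → ℤ, cexp (2 * π * Complex.I * z * ((Q p m r s x : ℤ) : ℂ)) := by
  rw [Theta_zero]
  unfold thetaV
  refine tsum_congr fun n => ?_
  have : (fun i => (n i : ℝ) + (0 : Fin 4 → ℝ) i) = fun i => (n i : ℝ) := by
    funext i; simp
  rw [this, quadR_intCast]
  unfold quadZ
  rw [dotProduct_gram_mulVec]
  congr 1
  push_cast
  ring

theorem summable_Theta_zero (hA : ThetaData (gram p m r s)) (z : ℍ) :
    Summable fun x : Fin 4 → ℤ => cexp (2 * π * Complex.I * z * ((Q p m r s x : ℤ) : ℂ)) := by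
  have h1 := (hasSum_thetaV hA 0 z).summable
  refine h1.congr fun n => ?_
  have : (fun i => (n i : ℝ) + (0 : Fin 4 → ℝ) i) = fun i => (n i : ℝ) := by
    funext i; simp
  rw [this, quadR_intCast]
  unfold quadZ
  rw [dotProduct_gram_mulVec]
  congr 1
  push_cast
  ring

/-! ### `ThetaData` for the quaternary lattice from Gaussian summability -/

theorem quadR_gram (x : Fin 4 → ℝ) :
    quadR (gram p m r s) x
      = 2 * (x 0 ^ 2 + x 0 * x 1 + m * x 1 ^ 2 + p * m * x 2 ^ 2 + s * x 3 ^ 2 + r * x 1 * x 3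
        + p * x 2 * x 3) := by
  simp [quadR, bilR, QuatLattice.gram, dotProduct, mulVec, Fin.sum_univ_four]
  ring

theorem quadR_gram_nonneg (hm : 0 < m) (h : (4 * m - 1) * s = r ^ 2 + p) (x : Fin 4 → ℝ) :
    0 ≤ quadR (gram p m r s) x := by
  have hmR : (0 : ℝ) < m := by exact_mod_cast hm
  have hq : (0 : ℝ) < 4 * m - 1 := by
    have : (1 : ℝ) ≤ m := by exact_mod_cast hm
    linarith
  have hpR : ((p : ℕ) : ℝ) = (4 * m - 1) * s - r ^ 2 := by
    have : (((p : ℕ) : ℤ) : ℝ) = (((4 * m - 1) * s - r ^ 2 : ℤ) : ℝ) := by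
      congr 1; linarith
    rw [Int.cast_natCast] at this
    rw [this]; push_cast; ring
  have hp0 : (0 : ℝ) ≤ p := Nat.cast_nonneg p
  rw [quadR_gram, real_identity (4 * m - 1) m hq.ne' hmR.ne' rfl p r s (x 0) (x 1) (x 2) (x 3) hpR]
  positivity

/-- The lattice data from the Gaussian summability (PG1). -/
theorem thetaData_gram (hm : 0 < m) (h : (4 * m - 1) * s = r ^ 2 + p)
    (hsumm : ∀ ε : ℝ, 0 < ε → ∀ v : Fin 4 → ℝ, Summable fun n : Fin 4 → ℤ =>
      Real.exp (-(π * ε * quadR (gram p m r s) (fun i => (n i : ℝ) + v i)))) :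
    ThetaData (gram p m r s) :=
  ⟨gram_isSymm _ _ _ _, even_gram_diag _ _ _ _, quadR_gram_nonneg hm h, hsumm⟩

end Concrete

end Fermat.Agent.S16.LB.ThetaChar
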