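/-
PROJECT E (S16), slice (LB-P2b), part 2 (helper25): the `S`-transformation `hS` of
`LB/Weil.slash_theta_zero` for the CONCRETE quaternary lattice of `S16/QuatLattice.lean`
(`A := gram p m r s`, `B := gramDual m r s`) and the discriminant data of `LB/DiscForm.lean`
(`D p = ZMod p × ZMod p`, standard lifts `liftD`, `wD = A liftD / p`, `bform`, `regroup`).

`Θ g := θ (charD p m r g)`, `charD g = ũ_g / p = vecD B p (wD g)`.  The analytic inputs on `θ`
(series form `hθ`, inversion `hPG`, summability `hsum`, symmetries) are hypotheses, to be supplied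
from `LB/ThetaChar` + `LB/PoissonGauss` + `LB/LatticeBridge`.
-/
import Fermat.Agent.S16.LB.DiscForm
import Fermat.Agent.S16.LB.ThetaS

set_option autoImplicit false

noncomputable section

namespace Fermat.Agent.S16.LB.ThetaSQuat

open Complex UpperHalfPlane Matrix
open scoped MatrixGroups ModularForm Real
open Fermat.Agent.S16.QuatLattice Fermat.Agent.S16.LB.DiscForm Fermat.Agent.S16.LB.ThetaS

variable {p : ℕ} [Fact p.Prime] {m r s : ℤ}

/-- The characteristic of the class `g`: `ũ_g / p` (`= A⁻¹ (wD g)`). -/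
def charD (p : ℕ) (m r : ℤ) (g : D p) : Fin 4 → ℝ := fun i => (liftD p m r g i : ℝ) / p

omit [Fact p.Prime] in
theorem vecD_wD (g : D p) : vecD (gramDual m r s) p (wD p m g) = charD p m r g := by
  unfold vecD charD
  rw [gramDual_mulVec_wD]

/-- The polar form of the discriminant form, read on the section `wD`. -/
theorem intCast_wD_dotProduct (h : (4 * m - 1) * s = r ^ 2 + p) (g g' : D p) :
    ((wD p m g ⬝ᵥ (gramDual m r s) *ᵥ wD p m g' : ℤ) : ZMod p) = bform p m g g' := by
  have hp0 : (p : ℤ) ≠ 0 := by exact_mod_cast (Fact.out : p.Prime).ne_zero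
  obtain ⟨P0, hP0, hpol⟩ := polar_shift_liftD (r := r) h g' g 0 0
  rw [gramDual_mulVec_wD, ← bform_symm, ← hP0]
  congr 1
  -- `ũ_{g'} · A ũ_g = p P0` and `A ũ_g = p wD g`
  simp only [smul_zero, zero_add, Matrix.mulVec_zero, dotProduct_zero, zero_dotProduct,
    add_zero, mul_zero] at hpol
  rw [gram_mulVec_liftD h, dotProduct_smul, smul_eq_mul] at hpol
  have := mul_left_cancel₀ hp0 hpol
  rw [dotProduct_comm, this]

/-- **The hypothesis `hS` of `LB/Weil.slash_theta_zero` for the quaternary lattice**, with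
`Θ g := θ (charD p m r g)`, `b := bform p m`. -/
theorem slash_S_charD (h : (4 * m - 1) * s = r ^ 2 + p) (hq : ((4 * m - 1 : ℤ) : ZMod p) ≠ 0)
    (θ : (Fin 4 → ℝ) → ℍ → ℂ)
    (hθ : ∀ v z, θ v z = ∑' n : Fin 4 → ℤ, thetaTerm (gram p m r s) v z n)
    (hPG : ∀ v (z : ℍ), θ v (ModularGroup.S • z) =
      -((z : ℂ) ^ 2) / p * ∑' y : Fin 4 → ℤ, dualTerm (gramDual m r s) p v z y)
    (hsum : ∀ v (z : ℍ), Summable (dualTerm (gramDual m r s) p v z))
    (hθneg : ∀ v, θ (-v) = θ v) (hθper : ∀ v (d : Fin 4 → ℤ), θ (v + castVec d) = θ v)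
    (g : D p) :
    (θ (charD p m r g)) ∣[(2 : ℤ)] ModularGroup.S =
      (-(p : ℂ)⁻¹) • ∑ g', ZMod.stdAddChar (-(bform p m g g')) • θ (charD p m r g') := by
  have hp0 : (p : ℝ) ≠ 0 := by exact_mod_cast (Fact.out : p.Prime).ne_zero
  have hmain := slash_S_theta (p := p) (A := gram p m r s) (B := gramDual m r s)
    (gram_mul_gramDual h) (gramDual_mul_gram h) (gramDual_isSymm m r s) θ hθ hPG hsum
    (s := wD p m) (regroup h hq).symm
    (by
      intro g x
      rw [regroup_symm_apply, add_comm])
    (bform p m) (fun g g' => (intCast_wD_dotProduct h g g').symm) (bform_add_left p m)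
    (bform_symm p m)
    (by
      intro g
      rw [vecD_wD, vecD_wD]
      obtain ⟨d, hd⟩ := liftD_neg (p := p) (m := m) (r := r) g
      have : charD p m r (-g) = -charD p m r g + castVec d := by
        ext i
        simp only [charD, castVec, Pi.add_apply, Pi.neg_apply, hd, Pi.smul_apply, smul_eq_mul]
        push_cast
        field_simp
      rw [this, hθper, hθneg]) g
  simpa only [vecD_wD] using hmain

end Fermat.Agent.S16.LB.ThetaSQuat

end
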