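/-
PROJECT E (S16), slice (LB-P3) (helper22): THE INTEGRAL THETA SERIES OF LEVEL `p`.

For every odd prime `p` the theta series of the quaternary lattice of `S16/QuatLattice.lean`
(`A = gram p m r s`, even, level `p`, determinant `p ^ 2`) is a modular form of weight `2` on
`Γ₀(p)`; its `q`-coefficients are the representation numbers `repNum`, so `a₀ = 1` and `a_k` is
even for `k ≥ 1`.  This is the input `hθ` of `LB/LBTheta.hLB_of_theta`.

Assembly: triangular form of `A` (bridge to `LB/PoissonGauss`: summability, theta inversion),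
`hS` from `LB/ThetaSQuat.slash_S_charD`, `hT` from `DiscForm.Q_shift_liftD`, then
`LB/Weil.slash_theta_zero` (invariance under `Γ₀(p)`, span statement) and
`LB/SpanForm.exists_modularForm_of_span`; `q`-expansion by regrouping the series along the
fibres of `Q`.
-/
import Fermat.Agent.S16.LB.ThetaSQuat
import Fermat.Agent.S16.LB.ThetaFun
import Fermat.Agent.S16.LB.PoissonGauss
import Fermat.Agent.S16.LB.Weil
import Fermat.Agent.S16.LB.SpanForm
import Fermat.Prelude.Def_FLTPrelim_Modularity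
import Fermat.Prelude.Thm_CongruenceSubgroup_one_mem_strictPeriods_Gamma0

set_option autoImplicit false

noncomputable section

namespace Fermat.Agent.S16.LB.ThetaForm

open Complex UpperHalfPlane Matrix
open scoped MatrixGroups ModularForm Real Manifold
open Fermat.Agent.S16.QuatLattice Fermat.Agent.S16.LB.DiscForm Fermat.Agent.S16.LB.ThetaS
open Fermat.Agent.S16.LB.ThetaFun Fermat.Agent.S16.LB.PoissonGauss
open Fermat.Agent.S16.LB.ThetaSQuat

/-! ### The triangular form of the quaternary lattice -/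

/-- The diagonal of the triangular form of `xᵀ A x`. -/
def aT (p m : ℤ) : Fin 4 → ℝ :=
  ![2, ((4 * m - 1 : ℤ) : ℝ) / 2, 2 * (p : ℝ) * m, (p : ℝ) / (2 * m * ((4 * m - 1 : ℤ) : ℝ))]

/-- The unipotent part of the triangular form of `xᵀ A x`. -/
def uT (m r : ℤ) : Fin 4 → Fin 4 → ℝ :=
  ![![0, 1 / 2, 0, 0], ![0, 0, 0, 2 * (r : ℝ) / ((4 * m - 1 : ℤ) : ℝ)],
    ![0, 0, 0, 1 / (2 * (m : ℝ))], ![0, 0, 0, 0]]

theorem quadR_gram (p m r s : ℤ) (x : Fin 4 → ℝ) :
    quadR (QuatLattice.gram p m r s) x =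
      2 * x 0 ^ 2 + 2 * x 0 * x 1 + 2 * m * x 1 ^ 2 + 2 * p * m * x 2 ^ 2 + 2 * s * x 3 ^ 2
        + 2 * r * x 1 * x 3 + 2 * p * x 2 * x 3 := by
  simp [quadR, bilR, QuatLattice.gram, dotProduct, Matrix.mulVec, Fin.sum_univ_four]
  ring

theorem qA_gramDual (m r s : ℤ) (y : Fin 4 → ℝ) :
    qA (gramDual m r s) y =
      2 * m * s * y 0 ^ 2 + 2 * (s + r ^ 2) * y 1 ^ 2 + 2 * y 2 ^ 2
        + 2 * m * (4 * m - 1) * y 3 ^ 2 - 2 * (s + r ^ 2) * y 0 * y 1 - 2 * r * y 0 * y 2
        + 4 * m * r * y 0 * y 3 + 4 * r * y 1 * y 2 - 8 * m * r * y 1 * y 3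
        - 2 * (4 * m - 1) * y 2 * y 3 := by
  simp [qA, castMat, gramDual, dotProduct, Matrix.mulVec, Fin.sum_univ_four]
  ring

section Bridge

variable {p m r s : ℤ}

theorem cast_q_pos (hm : 0 < m) : (0 : ℝ) < 4 * m - 1 := by
  have : (1 : ℝ) ≤ m := by exact_mod_cast hm
  linarith

theorem cast_p_eq (h : (4 * m - 1) * s = r ^ 2 + p) : (p : ℝ) = (4 * m - 1) * s - r ^ 2 := by
  have : (p : ℝ) = (((4 * m - 1) * s - r ^ 2 : ℤ) : ℝ) := by
    congr 1; linarith
  rw [this]; push_cast; ring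

theorem qform_aT (hm : 0 < m) (h : (4 * m - 1) * s = r ^ 2 + p) (x : Fin 4 → ℝ) :
    qform 4 (aT p m) (uT m r) x = quadR (QuatLattice.gram p m r s) x := by
  have hmR : (0 : ℝ) < m := by exact_mod_cast hm
  have hq := cast_q_pos hm
  have hpR := cast_p_eq h
  rw [quadR_gram]
  simp [qform, aT, uT, Fin.sum_univ_succ, Fin.tail, hpR]
  field_simp
  ring

theorem qdual_aT (hp : 0 < p) (hm : 0 < m) (h : (4 * m - 1) * s = r ^ 2 + p)
    (y : Fin 4 → ℝ) :
    qdual 4 (aT p m) (uT m r) y = qA (gramDual m r s) y / p := by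
  have hmR : (0 : ℝ) < m := by exact_mod_cast hm
  have hq := cast_q_pos hm
  have hpR := cast_p_eq h
  have hp0 : (0 : ℝ) < p := by exact_mod_cast hp
  have hp0' : (4 * (m : ℝ) - 1) * s - r ^ 2 ≠ 0 := by rw [← hpR]; exact hp0.ne'
  rw [qA_gramDual]
  simp [qdual, aT, uT, Fin.tail, hpR]
  field_simp
  ring

theorem aT_pos (hp : 0 < p) (hm : 0 < m) (i : Fin 4) : 0 < aT p m i := by
  have hmR : (0 : ℝ) < m := by exact_mod_cast hm
  have hq := cast_q_pos hm
  have hp0 : (0 : ℝ) < p := by exact_mod_cast hp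
  have hq' : (0 : ℝ) < ((4 * m - 1 : ℤ) : ℝ) := by push_cast; exact hq
  fin_cases i
  · simp [aT]
  · simpa [aT] using hq
  · have : (0 : ℝ) < 2 * p * m := by positivity
    simpa [aT] using this
  · have : (0 : ℝ) < (p : ℝ) / (2 * m * ((4 * m - 1 : ℤ) : ℝ)) := by positivity
    simpa [aT] using this

theorem prod_sqrt_aT (hp : 0 < p) (hm : 0 < m) : ∏ i, Real.sqrt (aT p m i) = (p : ℝ) := by
  have hmR : (0 : ℝ) < m := by exact_mod_cast hm
  have hq := cast_q_pos hm
  have hp0 : (0 : ℝ) < p := by exact_mod_cast hp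
  have h0 := (aT_pos hp hm 0).le
  have h1 := (aT_pos hp hm 1).le
  have h2 := (aT_pos hp hm 2).le
  have h3 := (aT_pos hp hm 3).le
  rw [Fin.prod_univ_four, ← Real.sqrt_mul h0, ← Real.sqrt_mul (mul_nonneg h0 h1),
    ← Real.sqrt_mul (mul_nonneg (mul_nonneg h0 h1) h2)]
  have : aT p m 0 * aT p m 1 * aT p m 2 * aT p m 3 = (p : ℝ) ^ 2 := by
    simp [aT]
    field_simp
  rw [this, Real.sqrt_sq hp0.le]

/-- The analytic hypotheses of `ThetaFun` for the quaternary lattice. -/
theorem thetaData_gram (hp : 0 < p) (hm : 0 < m) (h : (4 * m - 1) * s = r ^ 2 + p) :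
    ThetaData (QuatLattice.gram p m r s) where
  symm := gram_isSymm p m r s
  even := even_gram_diag p m r s
  nonneg x := by
    rw [← qform_aT hm h]
    exact qform_nonneg 4 _ _ (fun i => (aT_pos hp hm i).le) x
  summ ε hε v := by
    have := summable_normE 4 (aT p m) (uT m r) (aT_pos hp hm) hε v
    refine this.congr fun n => ?_
    rw [normE, qform_aT hm h]
    congr 1
    ring

end Bridge

/-! ### The analytic inputs of `ThetaSQuat.slash_S_charD` -/

section Analytic

variable {p : ℕ} {m r s : ℤ}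

/-- The series form of `thetaV` in the notation of `ThetaS`. -/
theorem thetaV_eq_tsum_thetaTerm (A : Matrix (Fin 4) (Fin 4) ℤ) (v : Fin 4 → ℝ) (z : ℍ) :
    thetaV A v z = ∑' n : Fin 4 → ℤ, thetaTerm A v z n := rfl

theorem cast_dot_gramDual (y : Fin 4 → ℤ) :
    ((y ⬝ᵥ (gramDual m r s) *ᵥ y : ℤ) : ℝ) = qA (gramDual m r s) (castVec y) := by
  rw [cast_dotProduct, castVec_mulVec, qA]

theorem dterm_eq_dualTerm (hp : 0 < p) (hm : 0 < m) (h : (4 * m - 1) * s = r ^ 2 + p)
    (v : Fin 4 → ℝ) (z : ℍ) (y : Fin 4 → ℤ) :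
    dterm 4 (aT p m) (uT m r) (-1 / (z : ℂ)) 0 v y = dualTerm (gramDual m r s) p v z y := by
  have hp' : (0 : ℤ) < (p : ℤ) := by exact_mod_cast hp
  have hz : (z : ℂ) ≠ 0 := UpperHalfPlane.ne_zero z
  have hq : qdual 4 (aT p m) (uT m r) (fun i => (y i : ℝ)) =
      ((y ⬝ᵥ (gramDual m r s) *ᵥ y : ℤ) : ℝ) / p := by
    rw [cast_dot_gramDual]
    exact_mod_cast qdual_aT hp' hm h (castVec y)
  simp only [dterm, dualTerm, Pi.zero_apply, sub_zero]
  rw [hq]
  congr 2
  field_simp

theorem summable_dualTerm (hp : 0 < p) (hm : 0 < m) (h : (4 * m - 1) * s = r ^ 2 + p)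
    (v : Fin 4 → ℝ) (z : ℍ) : Summable (dualTerm (gramDual m r s) p v z) := by
  have hp' : (0 : ℤ) < (p : ℤ) := by exact_mod_cast hp
  have := summable_dterm 4 (aT p m) (uT m r) (aT_pos hp' hm)
    (im_neg_one_div_pos z.im_pos) 0 v
  exact this.congr fun y => dterm_eq_dualTerm hp hm h v z y

/-- **Theta inversion for the quaternary lattice** (hypothesis `hPG` of `ThetaS`). -/
theorem thetaV_S_smul (hp : 0 < p) (hm : 0 < m) (h : (4 * m - 1) * s = r ^ 2 + p)
    (v : Fin 4 → ℝ) (z : ℍ) :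
    thetaV (QuatLattice.gram p m r s) v (ModularGroup.S • z) =
      -((z : ℂ) ^ 2) / p * ∑' y : Fin 4 → ℤ, dualTerm (gramDual m r s) p v z y := by
  have hp' : (0 : ℤ) < (p : ℤ) := by exact_mod_cast hp
  have hz : (z : ℂ) ≠ 0 := UpperHalfPlane.ne_zero z
  have hpC : (p : ℂ) ≠ 0 := by exact_mod_cast hp.ne'
  have key := theta_inversion_S 4 (aT p m) (uT m r) (aT_pos hp' hm) z.im_pos v
  rw [prefactor_four hz, prod_sqrt_aT hp' hm] at key
  have hS : ((ModularGroup.S • z : ℍ) : ℂ) = -1 / (z : ℂ) := by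
    rw [UpperHalfPlane.modular_S_smul]
    simp [neg_div, inv_neg]
  have e1 : thetaV (QuatLattice.gram p m r s) v (ModularGroup.S • z) =
      ∑' x : Fin 4 → ℤ, cexp (π * Complex.I * (-1 / (z : ℂ)) *
        ((qform 4 (aT p m) (uT m r) (fun i => (x i : ℝ) + v i) : ℝ) : ℂ)) := by
    unfold thetaV
    refine tsum_congr fun x => ?_
    rw [hS, qform_aT hm h]
  have e2 : ∀ y : Fin 4 → ℤ, cexp (π * Complex.I * z *
      ((qdual 4 (aT p m) (uT m r) (fun i => (y i : ℝ)) : ℝ) : ℂ) +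
          2 * π * Complex.I * ((∑ i, (y i : ℝ) * v i : ℝ) : ℂ)) =
      dualTerm (gramDual m r s) p v z y := by
    intro y
    have hq : qdual 4 (aT p m) (uT m r) (fun i => (y i : ℝ)) =
        ((y ⬝ᵥ (gramDual m r s) *ᵥ y : ℤ) : ℝ) / p := by
      rw [cast_dot_gramDual]
      exact_mod_cast qdual_aT hp' hm h (castVec y)
    rw [hq, dualTerm]
  rw [e1, key, tsum_congr e2]
  push_cast
  field_simp

end Analytic

/-! ### The `T`-transformation -/

section TLaw

theorem quadR_smul (A : Matrix (Fin 4) (Fin 4) ℤ) (c : ℝ) (w : Fin 4 → ℝ) :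
    quadR A (c • w) = c ^ 2 * quadR A w := by
  simp only [quadR, bilR, Matrix.mulVec_smul, smul_dotProduct, dotProduct_smul, smul_eq_mul]
  ring

theorem quadR_gram_intCast (p m r s : ℤ) (y : Fin 4 → ℤ) :
    quadR (QuatLattice.gram p m r s) (fun i => (y i : ℝ)) = 2 * (Q p m r s y : ℝ) := by
  rw [quadR_intCast, quadZ, dotProduct_gram_mulVec]
  push_cast
  ring

variable {p : ℕ} [Fact p.Prime] {m r s : ℤ}

theorem quadR_charD (h : (4 * m - 1) * s = r ^ 2 + p) (g : D p) (n : Fin 4 → ℤ) :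
    ∃ T0 K : ℤ, (T0 : ZMod p) = tform p m g ∧
      quadR (QuatLattice.gram p m r s) (fun i => (n i : ℝ) + charD p m r g i) =
        2 * (T0 : ℝ) / p + 2 * (K : ℝ) := by
  have hp0 : (p : ℝ) ≠ 0 := by exact_mod_cast (Fact.out : p.Prime).ne_zero
  obtain ⟨k, hk, T0, hT0, hk2⟩ := Q_shift_liftD (r := r) h g n
  refine ⟨T0, Q p m r s n + n ⬝ᵥ wD p m g, hT0, ?_⟩
  have hvec : (fun i => (n i : ℝ) + charD p m r g i) =
      (p : ℝ)⁻¹ • (fun i => ((((p : ℤ) • n + liftD p m r g) i : ℤ) : ℝ)) := by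
    funext i
    simp only [charD, Pi.smul_apply, Pi.add_apply, smul_eq_mul]
    push_cast
    field_simp
  rw [hvec, quadR_smul, quadR_gram_intCast, hk, hk2]
  push_cast
  field_simp

theorem exp_quadR_charD (h : (4 * m - 1) * s = r ^ 2 + p) (g : D p) (n : Fin 4 → ℤ) :
    cexp (π * Complex.I *
      ((quadR (QuatLattice.gram p m r s) (fun i => (n i : ℝ) + charD p m r g i) : ℝ) : ℂ)) =
      ZMod.stdAddChar (tform p m g) := by
  obtain ⟨T0, K, hT0, hq⟩ := quadR_charD h g n
  rw [hq, ← hT0, ZMod.stdAddChar_coe]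
  have h1 : (π : ℂ) * Complex.I * ((2 * (T0 : ℝ) / p + 2 * (K : ℝ) : ℝ) : ℂ) =
      2 * π * Complex.I * T0 / p + K * (2 * π * Complex.I) := by
    push_cast
    ring
  rw [h1, Complex.exp_add, Complex.exp_int_mul_two_pi_mul_I, mul_one]

/-- **The hypothesis `hT` of `LB/Weil.slash_theta_zero` for the quaternary lattice.** -/
theorem slash_T_charD (h : (4 * m - 1) * s = r ^ 2 + p) (g : D p) :
    (thetaV (QuatLattice.gram p m r s) (charD p m r g)) ∣[(2 : ℤ)] ModularGroup.T =
      ZMod.stdAddChar (tform p m g) • thetaV (QuatLattice.gram p m r s) (charD p m r g) := by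
  funext z
  have hden : denom (ModularGroup.T : SL(2, ℤ)) z = 1 := by
    rw [ModularGroup.denom_apply]
    simp [ModularGroup.T]
  rw [ModularForm.SL_slash_apply, hden, _root_.one_zpow, mul_one, UpperHalfPlane.modular_T_smul]
  simp only [Pi.smul_apply, smul_eq_mul]
  unfold thetaV
  rw [← tsum_mul_left]
  refine tsum_congr fun n => ?_
  rw [UpperHalfPlane.coe_vadd, ← exp_quadR_charD h g n, ← Complex.exp_add]
  congr 1
  push_cast
  ring

end TLaw

/-! ### Non-vanishing -/

theorem thetaV_zero_ne_zero {A : Matrix (Fin 4) (Fin 4) ℤ} (hA : ThetaData A) :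
    thetaV A 0 ≠ 0 := by
  intro h0
  have hs := hasSum_thetaV hA 0 UpperHalfPlane.I
  rw [h0] at hs
  have hterm : ∀ n : Fin 4 → ℤ,
      cexp (π * Complex.I * ((UpperHalfPlane.I : ℍ) : ℂ) *
        quadR A (fun i => (n i : ℝ) + (0 : Fin 4 → ℝ) i)) =
      ((Real.exp (-(π * quadR A (fun i => (n i : ℝ) + (0 : Fin 4 → ℝ) i))) : ℝ) : ℂ) := by
    intro n
    rw [UpperHalfPlane.coe_I]
    push_cast
    congr 1
    linear_combination (π : ℂ) * (quadR A (fun i => (n i : ℝ) + (0 : Fin 4 → ℝ) i) : ℂ) * Complex.I_mul_I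
  have hs' : HasSum (fun n : Fin 4 → ℤ =>
      Real.exp (-(π * quadR A (fun i => (n i : ℝ) + (0 : Fin 4 → ℝ) i)))) 0 := by
    rw [← Complex.hasSum_ofReal, Complex.ofReal_zero]
    have hfun : (fun n : Fin 4 → ℤ =>
        ((Real.exp (-(π * quadR A (fun i => (n i : ℝ) + (0 : Fin 4 → ℝ) i))) : ℝ) : ℂ)) =
        fun n => cexp (π * Complex.I * ((UpperHalfPlane.I : ℍ) : ℂ) *
          quadR A (fun i => (n i : ℝ) + (0 : Fin 4 → ℝ) i)) := funext fun n => (hterm n).symm
    rw [hfun]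
    exact hs
  have hle := le_hasSum hs' 0 (fun j _ => (Real.exp_pos _).le)
  exact absurd hle (not_le.mpr (Real.exp_pos _))

/-! ### The `q`-expansion of the theta series -/

section QExp

open Function.Periodic

variable {p m r s : ℤ}

theorem thetaTerm_zero_eq (τ : ℍ) (n : Fin 4 → ℤ) :
    cexp (π * Complex.I * τ *
        quadR (QuatLattice.gram p m r s) (fun i => (n i : ℝ) + (0 : Fin 4 → ℝ) i)) =
      cexp (2 * π * Complex.I * τ * (Q p m r s n : ℂ)) := by
  have : (fun i => (n i : ℝ) + (0 : Fin 4 → ℝ) i) = fun i => (n i : ℝ) := by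
    funext i
    simp
  rw [this, quadR_gram_intCast]
  congr 1
  push_cast
  ring

/-- **The `q`-expansion of the theta series of the quaternary lattice**: the coefficients are the
representation numbers. -/
theorem hasSum_repNum (hp : 0 < p) (hm : 0 < m) (h : (4 * m - 1) * s = r ^ 2 + p) (τ : ℍ) :
    HasSum (fun k : ℕ => (repNum p m r s (k : ℤ) : ℂ) • qParam 1 τ ^ k)
      (thetaV (QuatLattice.gram p m r s) 0 τ) := by
  have hA := thetaData_gram hp hm h
  have hs := hasSum_thetaV hA 0 τ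
  have hfib := hs.tsum_fiberwise (fun n : Fin 4 → ℤ => (Q p m r s n).toNat)
  have key : ∀ k : ℕ,
      (∑' b : ((fun n : Fin 4 → ℤ => (Q p m r s n).toNat) ⁻¹' {k}),
        cexp (π * Complex.I * τ * quadR (QuatLattice.gram p m r s)
          (fun i => (((b : Fin 4 → ℤ) i : ℤ) : ℝ) + (0 : Fin 4 → ℝ) i))) =
        (repNum p m r s (k : ℤ) : ℂ) • qParam 1 τ ^ k := by
    intro k
    have hfin := finite_reps hp hm h (k : ℤ)
    have hset : (fun n : Fin 4 → ℤ => (Q p m r s n).toNat) ⁻¹' {k} = ↑hfin.toFinset := by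
      ext n
      simp only [Set.mem_preimage, Set.mem_singleton_iff, Set.Finite.coe_toFinset, reps,
        Set.mem_ofPred_eq]
      have := Q_nonneg hp.le hm h n
      omega
    rw [tsum_congr_set_coe (fun b : Fin 4 → ℤ => cexp (π * Complex.I * τ *
        quadR (QuatLattice.gram p m r s) (fun i => ((b i : ℤ) : ℝ) + (0 : Fin 4 → ℝ) i))) hset,
      Finset.tsum_subtype' hfin.toFinset
      (fun b : Fin 4 → ℤ => cexp (π * Complex.I * τ * quadR (QuatLattice.gram p m r s)
          (fun i => ((b i : ℤ) : ℝ) + (0 : Fin 4 → ℝ) i)))]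
    have hconst : ∀ b ∈ hfin.toFinset,
        cexp (π * Complex.I * τ * quadR (QuatLattice.gram p m r s)
          (fun i => ((b i : ℤ) : ℝ) + (0 : Fin 4 → ℝ) i)) = qParam 1 τ ^ k := by
      intro b hb
      have hb' : Q p m r s b = k := by simpa [reps] using hb
      rw [thetaTerm_zero_eq, hb', qParam, ← Complex.exp_nat_mul]
      congr 1
      push_cast
      ring
    rw [Finset.sum_congr rfl hconst, Finset.sum_const, repNum,
      Set.ncard_eq_toFinset_card _ hfin, Nat.cast_smul_eq_nsmul]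
  simpa only [key] using hfib

end QExp

/-! ### The theta series as a modular form -/

section Main

open CongruenceSubgroup ModularFormClass

/-- **The integral theta series of level `p`**: for every odd prime `p` there is a modular form
of weight `2` on `Γ₀(p)` with constant term `1` and even higher `q`-coefficients
(the theta series of a maximal order in the quaternion algebra ramified at `p` and `∞`). -/
theorem exists_thetaForm (p : ℕ) [Fact p.Prime] (hp2 : p ≠ 2) :
    ∃ θ : ModularForm (Gamma0 p) 2, qCoeff (⇑θ) 0 = 1 ∧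
      ∀ n, 0 < n → ∃ c : ℤ, qCoeff (⇑θ) n = 2 * (c : ℂ) := by
  have hpP : p.Prime := Fact.out
  have hp0 : 0 < p := hpP.pos
  have : NeZero p := ⟨hpP.ne_zero⟩
  obtain ⟨m, r, s, hm, h, hq⟩ := exists_params_unit hpP hp2
  have hpZ : (0 : ℤ) < (p : ℤ) := by exact_mod_cast hp0
  have hA := thetaData_gram hpZ hm h
  -- the family of theta functions with characteristics
  let Θ : D p → ℍ → ℂ := fun g => thetaV (QuatLattice.gram p m r s) (charD p m r g)
  have hT : ∀ g, Θ g ∣[(2 : ℤ)] ModularGroup.T = ZMod.stdAddChar (tform p m g) • Θ g :=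
    fun g => slash_T_charD h g
  have hS : ∀ g, Θ g ∣[(2 : ℤ)] ModularGroup.S =
      (-(p : ℂ)⁻¹) • ∑ g', ZMod.stdAddChar (-(bform p m g g')) • Θ g' :=
    fun g => slash_S_charD h hq (thetaV (QuatLattice.gram p m r s))
      (thetaV_eq_tsum_thetaTerm _) (thetaV_S_smul hp0 hm h) (summable_dualTerm hp0 hm h)
      thetaV_neg (fun v d => thetaV_add_int v d) g
  have hchar0 : charD p m r 0 = 0 := by
    funext i
    simp [charD, liftD_zero]
  have hΘ0 : Θ 0 = thetaV (QuatLattice.gram p m r s) 0 := by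
    show thetaV (QuatLattice.gram p m r s) (charD p m r 0) = _
    rw [hchar0]
  have h0 : Θ 0 ≠ 0 := by
    rw [hΘ0]
    exact thetaV_zero_ne_zero hA
  obtain ⟨hinv, hspan, -⟩ := Weil.slash_theta_zero (tform p m) (bform p m) (bform_add_left p m)
    (bform_symm p m) (tform_add p m) (tform_neg p m) (bform_nondeg p m hq) (card_D p) Θ hT hS h0
  obtain ⟨F, hF⟩ := SpanForm.exists_modularForm_of_span Θ (Θ 0) hinv hspan
    (mdifferentiable_thetaV hA _) (fun g => isBoundedAtImInfty_thetaV hA _)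
  have hcoeff : ∀ k : ℕ, qCoeff (⇑F) k = (repNum p m r s (k : ℤ) : ℂ) := by
    intro k
    have := ModularFormClass.qExpansion_coeff_unique
      (c := fun k : ℕ => (repNum p m r s (k : ℤ) : ℂ)) one_pos
      (CongruenceSubgroup.one_mem_strictPeriods_Gamma0 p) (f := F)
      (fun τ => by
        rw [hF, hΘ0]
        exact hasSum_repNum hpZ hm h τ) k
    exact this.symm
  refine ⟨F, ?_, ?_⟩
  · rw [hcoeff 0]
    simp [repNum_zero hpZ hm h]
  · intro n hn
    obtain ⟨c, hc⟩ := even_repNum hpZ hm h (k := (n : ℤ)) (by exact_mod_cast hn.ne')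
    refine ⟨c, ?_⟩
    rw [hcoeff n, hc]
    push_cast
    ring

end Main

end Fermat.Agent.S16.LB.ThetaForm
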