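/-
PROJECT E (S16), slice (LB-P3), assembly (helper26, review of the instantiation chain): the theta
series form from a single `PGBridge.Bridge` term.
-/
import Fermat.Agent.S16.LB.Weil
import Fermat.Agent.S16.LB.DiscForm
import Fermat.Agent.S16.LB.DiscAdapter
import Fermat.Agent.S16.LB.ThetaFun
import Fermat.Agent.S16.LB.ThetaSQuat
import Fermat.Agent.S16.LB.SpanForm
import Fermat.Agent.S16.LB.LBTheta
import Fermat.Agent.S16.LB.PGBridge
import Fermat.Agent.S16.LB.ThetaQExp

open Complex UpperHalfPlane Matrix ModularFormClass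
open scoped MatrixGroups ModularForm Real Manifold
open Fermat.Agent.S16.QuatLattice Fermat.Agent.S16.LB.DiscForm Fermat.Agent.S16.LB.ThetaS
  Fermat.Agent.S16.LB.ThetaFun Fermat.Agent.S16.LB.ThetaSQuat Fermat.Agent.S16.LB

set_option autoImplicit false

namespace Fermat.Agent.S16.LB.ThetaFormOf

variable {p : ℕ} [Fact p.Prime] {m r s : ℤ}

/-- **P3 from one `Bridge` term**: the theta series of the quaternary lattice is a modular form of
weight 2 on `Γ₀(p)` with constant term `1` and even higher coefficients, as soon as the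
triangular data `(a, u)` of `LB/PGBridge` are given for `gram p m r s`. -/
theorem exists_thetaQ_of_bridge (hm : 0 < m) (h : (4 * m - 1) * s = r ^ 2 + p)
    (hq : ((4 * m - 1 : ℤ) : ZMod p) ≠ 0) (a : Fin 4 → ℝ) (u : Fin 4 → Fin 4 → ℝ)
    (hbr : PGBridge.Bridge (gram p m r s) (gramDual m r s) p a u) :
    ∃ θ : ModularForm (CongruenceSubgroup.Gamma0 p) 2, qCoeff ⇑θ 0 = 1 ∧
      ∀ n, 0 < n → ∃ c : ℤ, qCoeff ⇑θ n = 2 * (c : ℂ) := by
  have hp0 : (0 : ℤ) < p := by exact_mod_cast (Fact.out : p.Prime).pos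
  set A := gram p m r s with hAdef
  have hA : ThetaData A := hbr.thetaData (gram_isSymm _ _ _ _) (even_gram_diag _ _ _ _)
  -- q-expansion of `thetaV A 0`
  have hterm : ∀ (z : ℍ) (x : Fin 4 → ℤ),
      cexp (π * Complex.I * z * quadR A (fun i => (x i : ℝ) + (0 : Fin 4 → ℝ) i)) =
        cexp (π * Complex.I * z * ((quadZ A x : ℤ) : ℂ)) := by
    intro z x
    have : (fun i => (x i : ℝ) + (0 : Fin 4 → ℝ) i) = fun i => (x i : ℝ) := by
      funext i; simp
    rw [this, quadR_intCast]
    push_cast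
    rfl
  have hW : ∀ x : Fin 4 → ℤ, ((quadZ A x : ℤ) : ℂ) = 2 * (Q p m r s x : ℂ) := by
    intro x
    rw [quadZ, hAdef, dotProduct_gram_mulVec]
    push_cast
    rfl
  obtain ⟨-, hq0, hqk⟩ := ThetaQExp.qExpansion_coeff_thetaQ_pi hp0 hm h
    (f := thetaV A 0) (mdifferentiable_thetaV hA 0) (isBoundedAtImInfty_thetaV hA 0)
    (fun x => ((quadZ A x : ℤ) : ℂ)) hW
    (fun z => by
      have := (hasSum_thetaV hA 0 z).summable
      simpa only [hterm z] using this)
    (fun z => by
      show thetaV A 0 z = _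
      unfold thetaV
      exact tsum_congr (hterm z))
  -- the Weil step (helper16's adapter)
  have h0 : thetaV A 0 ≠ 0 := by
    intro hz
    rw [hz] at hq0
    simp [qExpansion_zero] at hq0
  obtain ⟨hinv, hspan, -⟩ := DiscAdapter.weil_Theta h hq hbr.hPG_thetaV hbr.hsum h0
  obtain ⟨F, hF⟩ := SpanForm.exists_modularForm_of_span (N := p) (k := 2)
    (DiscAdapter.Theta p m r s) (thetaV A 0) hinv hspan
    (mdifferentiable_thetaV hA _) (fun g => isBoundedAtImInfty_thetaV hA _)
  refine ⟨F, ?_, ?_⟩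
  · rw [hF]; exact hq0
  · intro n hn
    rw [hF]; exact hqk n hn

end Fermat.Agent.S16.LB.ThetaFormOf
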