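/-
PROJECT E (S16), E-LB: THE q-EXPANSION OF THE THETA SERIES OF THE CONCRETE QUATERNARY LATTICE.

Bridge between `LB/ThetaFun` (`thetaV A v`, `ThetaData A`), `QuatLattice` (`gram`, `Q`, `repNum`)
and `LB/ThetaQExp` (regrouping along the fibres of `Q`):  for `A := gram p m r s`,

* `qCoeff_thetaV_gram` : `qCoeff (thetaV A 0) k = repNum p m r s k`, `qCoeff (thetaV A 0) 0 = 1`,
  and `qCoeff (thetaV A 0) k ∈ 2ℤ` for `k ≥ 1`;
* `thetaV_gram_ne_zero` : `thetaV A 0 ≠ 0` (the hypothesis `h0` of `DiscAdapter.weil_Theta`);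
* `exists_thetaQ_of_coe` : any modular form `F` with `⇑F = thetaV A 0` has the three coefficient
  properties asked by `LBTheta.hLB_of_theta`.
-/
import Fermat.Agent.S16.LB.ThetaQExp
import Fermat.Agent.S16.LB.ThetaFun
import Fermat.Agent.S16.QuatLattice
import Fermat.Prelude.Def_FLTPrelim_Modularity

set_option autoImplicit false

namespace Fermat.Agent.S16.LB.ThetaQuatQExp

open Complex Matrix
open UpperHalfPlane hiding I
open scoped Real MatrixGroups Manifold
open ModularFormClass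
open Fermat.Agent.S16.QuatLattice Fermat.Agent.S16.LB.ThetaFun

variable {p m r s : ℤ}

/-- The exponent of the `n`-th term of `thetaV (gram p m r s) 0` is `2 Q(n)`. -/
theorem quadR_gram_zero (n : Fin 4 → ℤ) :
    ((quadR (gram p m r s) (fun i => (n i : ℝ) + (0 : Fin 4 → ℝ) i) : ℝ) : ℂ) =
      2 * (Q p m r s n : ℂ) := by
  have h1 : (fun i => (n i : ℝ) + (0 : Fin 4 → ℝ) i) = fun i => (n i : ℝ) := by
    funext i
    simp
  rw [h1, quadR_intCast, quadZ, dotProduct_gram_mulVec]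
  push_cast
  ring

section Main

variable (hp : 0 < p) (hm : 0 < m) (h : (4 * m - 1) * s = r ^ 2 + p)
  (hA : ThetaData (gram p m r s))

include hp hm h hA in
/-- **The q-expansion of `θ_Q = thetaV (gram p m r s) 0`**: `a_k = r_Q(k)`, `a_0 = 1`, and `a_k` is
even for `k ≥ 1`. -/
theorem qCoeff_thetaV_gram :
    (∀ k : ℕ, qCoeff (thetaV (gram p m r s) 0) k = (repNum p m r s (k : ℤ) : ℂ)) ∧
      qCoeff (thetaV (gram p m r s) 0) 0 = 1 ∧
      ∀ k : ℕ, 0 < k → ∃ c : ℤ, qCoeff (thetaV (gram p m r s) 0) k = 2 * (c : ℂ) := by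
  unfold qCoeff
  refine Fermat.Agent.S16.LB.ThetaQExp.qExpansion_coeff_thetaQ_pi hp hm h
    (mdifferentiable_thetaV hA 0) (isBoundedAtImInfty_thetaV hA 0)
    (fun n => ((quadR (gram p m r s) (fun i => (n i : ℝ) + (0 : Fin 4 → ℝ) i) : ℝ) : ℂ))
    (fun n => quadR_gram_zero n) (fun z => ?_) (fun z => rfl)
  exact summable_term hA 0 z.im_pos

include hp hm h hA in
/-- `θ_Q ≠ 0` (its constant coefficient is `1`). -/
theorem thetaV_gram_ne_zero : thetaV (gram p m r s) 0 ≠ 0 := by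
  intro h0
  have h1 := (qCoeff_thetaV_gram hp hm h hA).2.1
  rw [h0] at h1
  unfold qCoeff at h1
  rw [qExpansion_zero] at h1
  simp at h1

include hp hm h hA in
/-- Any modular form whose underlying function is `θ_Q` has the coefficient properties required
by `LBTheta.hLB_of_theta`. -/
theorem qCoeff_of_coe_eq {Γ : Subgroup (GL (Fin 2) ℝ)} {k : ℤ} (F : ModularForm Γ k)
    (hF : ⇑F = thetaV (gram p m r s) 0) :
    qCoeff (⇑F) 0 = 1 ∧ ∀ n : ℕ, 0 < n → ∃ c : ℤ, qCoeff (⇑F) n = 2 * (c : ℂ) := by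
  rw [hF]
  exact (qCoeff_thetaV_gram hp hm h hA).2

end Main

end Fermat.Agent.S16.LB.ThetaQuatQExp
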