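/-
PROJECT E (S16), E-LB: the `T`-transformation `hT` of `LB/Weil.slash_theta_zero` for the CONCRETE
quaternary lattice of `S16/QuatLattice.lean` (`A := gram p m r s`) and the discriminant data of
`LB/DiscForm.lean` (twin of `LB/ThetaSQuat.slash_S_charD`).

`Θ g := thetaV A (charD p m r g)`, `charD g = ũ_g / p`.  For `n ∈ ℤ⁴`:
`(n + ũ_g/p)ᵀ A (n + ũ_g/p) = 2 Q(p n + ũ_g) / p² = 2 T₀ / p + 2 (Q n + n · w_g)` with
`T₀ ≡ t(g) mod p`, so every term of the series picks up the same factor `e(t(g)/p)` under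
`z ↦ z + 1`.  No summability is needed.
-/
import Fermat.Agent.S16.LB.DiscForm
import Fermat.Agent.S16.LB.ThetaSQuat
import Fermat.Agent.S16.LB.ThetaFun

set_option autoImplicit false

noncomputable section

namespace Fermat.Agent.S16.LB.ThetaTQuat

open Complex UpperHalfPlane Matrix
open scoped MatrixGroups ModularForm Real
open Fermat.Agent.S16.QuatLattice Fermat.Agent.S16.LB.DiscForm Fermat.Agent.S16.LB.ThetaS
  Fermat.Agent.S16.LB.ThetaSQuat Fermat.Agent.S16.LB.ThetaFun

/-! ### Generalities -/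

set_option backward.isDefEq.respectTransparency false in
theorem denom_T (z : ℍ) : denom (ModularGroup.T : SL(2, ℤ)) z = 1 := by
  simp [ModularGroup.T, ModularGroup.denom_apply]

/-- Slashing by `T` is translation by `1` (any weight). -/
theorem slash_T_apply (k : ℤ) (f : ℍ → ℂ) (z : ℍ) :
    (f ∣[k] ModularGroup.T) z = f ((1 : ℝ) +ᵥ z) := by
  rw [ModularForm.SL_slash_apply, modular_T_smul, denom_T]
  simp

theorem quadR_smul (A : Matrix (Fin 4) (Fin 4) ℤ) (c : ℝ) (x : Fin 4 → ℝ) :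
    quadR A (c • x) = c ^ 2 * quadR A x := by
  simp only [quadR, bilR, Matrix.mulVec_smul, dotProduct_smul, smul_dotProduct, smul_eq_mul]
  ring

/-! ### The quadratic form on the classes of the dual lattice -/

variable {p : ℕ} {m r s : ℤ}

/-- The integer `T₀` with `T₀ ≡ t(g) mod p`. -/
def T0 (p : ℕ) (m : ℤ) (g : D p) : ℤ := T m (g.1.val : ℤ) (g.2.val : ℤ)

theorem intCast_T0 [Fact p.Prime] (g : D p) : ((T0 p m g : ℤ) : ZMod p) = tform p m g := by
  rw [T0, intCast_T, intCast_val_eq, intCast_val_eq]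

/-- **(D1), real form**: `(n + ũ_g/p)ᵀ A (n + ũ_g/p) = 2 T₀/p + 2 (Q n + n · w_g)`. -/
theorem quadR_charD (h : (4 * m - 1) * s = r ^ 2 + p) (hp : p ≠ 0) (g : D p) (n : Fin 4 → ℤ) :
    quadR (gram p m r s) (fun i => (n i : ℝ) + charD p m r g i) =
      2 * (T0 p m g : ℝ) / p + 2 * ((Q p m r s n + n ⬝ᵥ wD p m g : ℤ) : ℝ) := by
  have hp0 : (p : ℝ) ≠ 0 := Nat.cast_ne_zero.mpr hp
  set y : Fin 4 → ℤ := (p : ℤ) • n + liftD p m r g with hy
  have h1 : (fun i => (n i : ℝ) + charD p m r g i) = ((p : ℝ)⁻¹) • (fun i => (y i : ℝ)) := by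
    funext i
    simp only [charD, hy, Pi.smul_apply, Pi.add_apply, smul_eq_mul, Int.cast_add, Int.cast_mul,
      Int.cast_natCast]
    field_simp
  have h2 : quadR (gram p m r s) (fun i => (y i : ℝ)) = ((2 * Q p m r s y : ℤ) : ℝ) := by
    rw [quadR_intCast, quadZ, dotProduct_gram_mulVec]
  have h3 : Q p m r s y =
      p * T0 p m g + (p : ℤ) ^ 2 * (Q p m r s n + n ⬝ᵥ wD p m g) := by
    rw [hy, T0]
    exact Q_shift h n _ _
  rw [h1, quadR_smul, h2, h3]
  push_cast
  field_simp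

/-- The phase picked up by each term under `z ↦ z + 1`. -/
theorem cexp_quadR_charD (h : (4 * m - 1) * s = r ^ 2 + p) [Fact p.Prime] (g : D p)
    (n : Fin 4 → ℤ) :
    cexp (π * Complex.I * (quadR (gram p m r s) (fun i => (n i : ℝ) + charD p m r g i) : ℝ)) =
      ZMod.stdAddChar (tform p m g) := by
  have hp : p ≠ 0 := (Fact.out : p.Prime).ne_zero
  have hpC : (p : ℂ) ≠ 0 := Nat.cast_ne_zero.mpr hp
  rw [quadR_charD h hp, ← intCast_T0 (m := m) g, ZMod.stdAddChar_coe]
  set k : ℤ := Q p m r s n + n ⬝ᵥ wD p m g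
  have : π * Complex.I * ((2 * (T0 p m g : ℝ) / p + 2 * ((k : ℤ) : ℝ) : ℝ) : ℂ) =
      2 * π * Complex.I * (T0 p m g : ℂ) / p + k * (2 * π * Complex.I) := by
    push_cast
    field_simp
  rw [this, Complex.exp_add, Complex.exp_int_mul_two_pi_mul_I, mul_one]

/-! ### The `T`-law -/

/-- Termwise form, for any `θ` given by the series (shape of `ThetaSQuat.slash_S_charD`). -/
theorem slash_T_charD_of (h : (4 * m - 1) * s = r ^ 2 + p) [Fact p.Prime]
    (θ : (Fin 4 → ℝ) → ℍ → ℂ)
    (hθ : ∀ v z, θ v z = ∑' n : Fin 4 → ℤ, thetaTerm (gram p m r s) v z n) (g : D p) :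
    (θ (charD p m r g)) ∣[(2 : ℤ)] ModularGroup.T =
      ZMod.stdAddChar (tform p m g) • θ (charD p m r g) := by
  funext z
  rw [slash_T_apply, Pi.smul_apply, smul_eq_mul, hθ, hθ, ← tsum_mul_left]
  refine tsum_congr fun n => ?_
  have hq : qA (gram p m r s) (castVec n + charD p m r g) =
      quadR (gram p m r s) (fun i => (n i : ℝ) + charD p m r g i) := rfl
  simp only [thetaTerm, hq]
  rw [← cexp_quadR_charD (r := r) h g n, ← Complex.exp_add]
  congr 1
  rw [UpperHalfPlane.coe_vadd]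
  push_cast
  ring

/-- **The hypothesis `hT` of `LB/Weil.slash_theta_zero` for the quaternary lattice**, with
`Θ g := thetaV (gram p m r s) (charD p m r g)`, `t := tform p m`. -/
theorem slash_T_charD (h : (4 * m - 1) * s = r ^ 2 + p) [Fact p.Prime] (g : D p) :
    (thetaV (gram p m r s) (charD p m r g)) ∣[(2 : ℤ)] ModularGroup.T =
      ZMod.stdAddChar (tform p m g) • thetaV (gram p m r s) (charD p m r g) := by
  funext z
  rw [slash_T_apply, Pi.smul_apply, smul_eq_mul]
  unfold thetaV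
  rw [← tsum_mul_left]
  refine tsum_congr fun n => ?_
  rw [← cexp_quadR_charD (r := r) h g n, ← Complex.exp_add]
  congr 1
  rw [UpperHalfPlane.coe_vadd]
  push_cast
  ring

end Fermat.Agent.S16.LB.ThetaTQuat

end
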